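/-
Program MAZ (S15), brick (c), part 1 (helper71): THE TWO CUSPS OF `X₀(p)`, `p` prime, as places of
`FF p = modularFunctionFieldBar p` (the function field of the Prelude's `JZero p`).

* `placeInfty p`, `placeZero p : Place Kbar (FF p)`  (cusp expansions at `1` and `S`);
* valuations: `(ord j, ord j_p) = (-1, -p)` at `∞` and `(-p, -1)` at `0`;
* `eq_placeInfty_or_eq_placeZero` : a pole of `j` is one of the two;
* characterisations `eq_placeInfty_of`, `eq_placeZero_of` by the RATIO of the two valuations;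
* `ord_jF_neg_of_ord_jNF_neg` : a pole of `j_N` is a pole of `j` (any level `N`; modular polynomial).

Inputs: X0 (cusp expansions, `sum_ord_poles`, `[F : ℚbar(j)] = ψ(p)`), IG/AN (`T_one_jp`, `T_S_jp`,
`exists_modPolyBar`).
-/
import Mathlib
import Fermat.Agent.X0.CuspGood
import Fermat.Agent.X0.CuspExpand
import Fermat.Agent.X0.FFSum
import Fermat.Agent.X0.Degree
import Fermat.Agent.RED.TOP.FbarFacts20
import Fermat.Agent.IG.AN.ModPoly3
import Fermat.Agent.IG.AN.ModPolyBar26
import Fermat.Agent.IG.PR.Counting20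

set_option autoImplicit false

open AlgebraicCurve ModularCurve
open scoped MatrixGroups

noncomputable section

namespace Fermat.Agent.MAZ.Hecke.CuspVal71

open Fermat.Agent.X0 Fermat.Agent.IG

/-! ### Generalities -/

section General

variable {K F : Type*} [Field K] [Field F] [Algebra K F]

/-- A valuation ring of `F` containing `x` contains every `y` which is a root of a monic polynomial
with coefficients in `K[x]`. -/
theorem mem_of_monic_eval₂ (v : Place K F) {x y : F} (hx : x ∈ v.toValuationSubring)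
    (Φ : Polynomial (Polynomial K)) (hΦ : Φ.Monic)
    (h : Φ.eval₂ ((Polynomial.aeval x).toRingHom : Polynomial K →+* F) y = 0) :
    y ∈ v.toValuationSubring := by
  set A := v.toValuationSubring with hA
  let xA : A := ⟨x, hx⟩
  let g : Polynomial K →+* A := (Polynomial.aeval xA).toRingHom
  have hg : (algebraMap A F).comp g = ((Polynomial.aeval x).toRingHom : Polynomial K →+* F) := by
    refine Polynomial.ringHom_ext (fun c => ?_) ?_
    · show algebraMap A F (Polynomial.aeval xA (Polynomial.C c)) =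
        Polynomial.aeval x (Polynomial.C c)
      rw [Polynomial.aeval_C, Polynomial.aeval_C]
      rfl
    · show algebraMap A F (Polynomial.aeval xA Polynomial.X) = Polynomial.aeval x Polynomial.X
      rw [Polynomial.aeval_X, Polynomial.aeval_X]
      rfl
  have hint : IsIntegral A y := by
    refine ⟨Φ.map g, hΦ.map g, ?_⟩
    rw [Polynomial.eval₂_map, hg]
    exact h
  obtain ⟨a, ha⟩ := (IsIntegrallyClosed.isIntegral_iff (R := A) (K := F)).mp hint
  rw [← ha]
  exact a.2

end General

/-! ### Level `N`: poles of `j_N` are poles of `j` -/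

section LevelN

variable (N : ℕ) [NeZero N]

/-- `j(q^N)` as an element of `FF N`. -/
def jNF : FF N := jdF N N dvd_rfl

omit [NeZero N] in
theorem val_jF : ((jF N : FF N) : LaurentSeries Kbar) = jqK := by
  show ModularCurve.coeffEmb Kbar (ModularCurve.qExpand ℚ 1 ModularCurve.jq) = _
  rw [ModularCurve.qExpand_one_apply]
  rfl

theorem val_jNF : ((jNF N : FF N) : LaurentSeries Kbar) = ModularCurve.qExpand Kbar N jqK := by
  show ModularCurve.coeffEmb Kbar (ModularCurve.qExpand ℚ N ModularCurve.jq) = _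
  unfold ModularCurve.coeffEmb jqK
  rw [CuspGood.coeffMap_qExpand]
  rfl

theorem jF_ne_zero : jF N ≠ 0 := (CuspGood.good (cuspData N)).jF_ne_zero

theorem jNF_ne_zero : jNF N ≠ 0 := by
  intro h
  have h1 := congrArg (fun x : FF N => (x : LaurentSeries Kbar)) h
  simp only [val_jNF] at h1
  have h2 := order_qExpand_jqK N
  rw [h1] at h2
  simp at h2
  exact NeZero.ne N h2

/-- The modular equation inside `FF N`: `j_N` is integral over `ℚbar[j]`. -/
theorem exists_modPoly_FF :
    ∃ Φ : Polynomial (Polynomial Kbar), Φ.Monic ∧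
      Φ.eval₂ ((Polynomial.aeval (jF N)).toRingHom : Polynomial Kbar →+* FF N) (jNF N) = 0 := by
  obtain ⟨Φ, hΦ, -, h1, -⟩ := AN.ModPolyBar26.exists_modPolyBar N
  refine ⟨Φ, hΦ, ?_⟩
  let ι : FF N →+* LaurentSeries Kbar := (modularFunctionFieldBar N).val.toRingHom
  have hι : Function.Injective ι := Subtype.val_injective
  apply hι
  rw [map_zero, Polynomial.hom_eval₂]
  have hcomp : ι.comp ((Polynomial.aeval (jF N)).toRingHom : Polynomial Kbar →+* FF N) =
      ((Polynomial.aeval jqK).toRingHom : Polynomial Kbar →+* LaurentSeries Kbar) := by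
    refine Polynomial.ringHom_ext (fun c => ?_) ?_
    · show ι (Polynomial.aeval (jF N) (Polynomial.C c)) = Polynomial.aeval jqK (Polynomial.C c)
      rw [Polynomial.aeval_C, Polynomial.aeval_C]
      rfl
    · show ι (Polynomial.aeval (jF N) Polynomial.X) = Polynomial.aeval jqK Polynomial.X
      rw [Polynomial.aeval_X, Polynomial.aeval_X]
      exact val_jF N
  rw [hcomp]
  have : ι (jNF N) = ModularCurve.qExpand Kbar N jqK := val_jNF N
  rw [this]
  exact h1

/-- **A pole of `j_N` is a pole of `j`.** -/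
theorem ord_jF_neg_of_ord_jNF_neg (v : Place Kbar (FF N)) (h : v.ord (jNF N) < 0) :
    v.ord (jF N) < 0 := by
  by_contra hj
  have hj' : 0 ≤ v.ord (jF N) := not_lt.mp hj
  obtain ⟨Φ, hΦ, hΦ0⟩ := exists_modPoly_FF N
  have hmem := mem_of_monic_eval₂ v (FF.ffp_mem_of_ord_nonneg v hj') Φ hΦ hΦ0
  have := FF.ffp_ord_nonneg_of_mem v hmem
  omega

end LevelN

/-! ### Prime level: the two cusps -/

section Prime

variable (p : ℕ) [NeZero p]

theorem good : (cuspData p).Good := CuspGood.good (cuspData p)

/-- The cusp `∞` of `X₀(p)`. -/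
def placeInfty : Place Kbar (FF p) :=
  LaurentPlace.embPlace ((cuspData p).T 1) ((good p).map_const 1) ((good p).nontrivial 1)

/-- The cusp `0` of `X₀(p)`. -/
def placeZero : Place Kbar (FF p) :=
  LaurentPlace.embPlace ((cuspData p).T ModularGroup.S) ((good p).map_const ModularGroup.S)
    ((good p).nontrivial ModularGroup.S)

theorem T_one_jNF :
    (cuspData p).T 1 (jNF p) = qExpand Kbar p (qExpand Kbar p jqK) := AN.ModPoly3.T_one_jp p

theorem T_S_jNF : (cuspData p).T ModularGroup.S (jNF p) = jqK := AN.ModPoly3.T_S_jp p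

theorem order_jqK : (jqK : LaurentSeries Kbar).order = -1 := by
  have h := order_qExpand_jqK 1
  rw [ModularCurve.qExpand_one_apply] at h
  simpa using h

theorem qExpand_ne_zero {x : LaurentSeries Kbar} (hx : x ≠ 0) : qExpand Kbar p x ≠ 0 := by
  intro h
  apply hx
  have := (ModularCurve.qExpand_injective (R := Kbar) p) (h.trans (map_zero _).symm)
  exact this

theorem placeInfty_spec : ∃ m : ℕ, 0 < m ∧ ∀ f : FF p, f ≠ 0 →
    ((cuspData p).T 1 f).order = m * (placeInfty p).ord f :=
  LaurentPlace.embPlace_spec _ _ _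

theorem placeZero_spec : ∃ m : ℕ, 0 < m ∧ ∀ f : FF p, f ≠ 0 →
    ((cuspData p).T ModularGroup.S f).order = m * (placeZero p).ord f :=
  LaurentPlace.embPlace_spec _ _ _

/-- At `0`: `ord j = -p`, `ord j_p = -1`. -/
theorem ord_placeZero :
    (placeZero p).ord (jF p) = -(p : ℤ) ∧ (placeZero p).ord (jNF p) = -1 := by
  obtain ⟨m, hm, h⟩ := placeZero_spec p
  have h1 := h (jF p) (jF_ne_zero p)
  have h2 := h (jNF p) (jNF_ne_zero p)
  rw [(good p).order_jF] at h1
  rw [T_S_jNF, order_jqK] at h2
  have hm1 : (m : ℤ) = 1 := by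
    have hd : (m : ℤ) ∣ 1 := ⟨-(placeZero p).ord (jNF p), by linarith⟩
    exact Int.eq_one_of_dvd_one (by positivity) hd
  rw [hm1, one_mul] at h1 h2
  exact ⟨h1.symm, h2.symm⟩

theorem ord_placeZero_jF : (placeZero p).ord (jF p) = -(p : ℤ) := (ord_placeZero p).1

theorem ord_placeZero_jNF : (placeZero p).ord (jNF p) = -1 := (ord_placeZero p).2

/-- At `∞`: `ord j_p = p * ord j` and `ord j < 0`. -/
theorem ord_placeInfty_rel :
    (placeInfty p).ord (jNF p) = (p : ℤ) * (placeInfty p).ord (jF p) ∧
      (placeInfty p).ord (jF p) < 0 := by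
  obtain ⟨m, hm, h⟩ := placeInfty_spec p
  have h1 := h (jF p) (jF_ne_zero p)
  have h2 := h (jNF p) (jNF_ne_zero p)
  rw [(good p).order_jF] at h1
  rw [T_one_jNF, ModularCurve.qExpand_qExpand, order_qExpand_jqK] at h2
  have hm' : (0 : ℤ) < m := by exact_mod_cast hm
  have hp0 : (0 : ℤ) < p := by exact_mod_cast Nat.pos_of_ne_zero (NeZero.ne p)
  constructor
  · have : (m : ℤ) * (placeInfty p).ord (jNF p) = (m : ℤ) * ((p : ℤ) * (placeInfty p).ord (jF p)) := by
      rw [← h2]
      push_cast
      rw [mul_left_comm, ← h1]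
      ring
    exact mul_left_cancel₀ hm'.ne' this
  · by_contra hneg
    have h0 : 0 ≤ (placeInfty p).ord (jF p) := not_lt.mp hneg
    nlinarith

theorem placeInfty_ne_placeZero (hp : p.Prime) : placeInfty p ≠ placeZero p := by
  intro h
  have h1 := (ord_placeInfty_rel p).1
  rw [h, ord_placeZero_jF, ord_placeZero_jNF] at h1
  have h2 : (p : ℤ) * p = 1 := by linarith
  have h3 : p * p = 1 := by exact_mod_cast h2
  have := hp.two_le
  nlinarith

/-- `∑_{v pole of j} -ord_v j = p + 1`. -/
theorem sum_poles (hp : p.Prime) :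
    ∑ᶠ (v : Place Kbar (FF p)) (_ : v.ord (jF p) < 0), -v.ord (jF p) = (p : ℤ) + 1 := by
  rw [FF.sum_ord_poles (RED.TOP.FbarFacts20.isGen_j p),
    Degree.finrank_adjoin p (realizeData p) (cuspData p), PR.Counting20.psi_prime hp]
  push_cast
  ring

/-- **The two cusps**: `ord_∞ j = -1`, and every pole of `j` is `∞` or `0`. -/
theorem poles_aux (hp : p.Prime) :
    (placeInfty p).ord (jF p) = -1 ∧
      ∀ v : Place Kbar (FF p), v.ord (jF p) < 0 → v = placeInfty p ∨ v = placeZero p := by
  classical
  have hfin := FF.finite_poles (RED.TOP.FbarFacts20.isGen_j p)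
  have key : ∑ v ∈ hfin.toFinset, -v.ord (jF p) = (p : ℤ) + 1 := by
    rw [← sum_poles p hp]
    exact (finsum_mem_eq_finite_toFinset_sum
      (fun v : Place Kbar (FF p) => -v.ord (jF p)) hfin).symm
  have hInf := (ord_placeInfty_rel p).2
  have hZero : (placeZero p).ord (jF p) < 0 := by
    rw [ord_placeZero_jF]
    have : (0 : ℤ) < p := by exact_mod_cast Nat.pos_of_ne_zero (NeZero.ne p)
    omega
  have hne := placeInfty_ne_placeZero p hp
  have hnonneg : ∀ w ∈ hfin.toFinset, 0 ≤ -w.ord (jF p) := by
    intro w hw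
    rw [Set.Finite.mem_toFinset] at hw
    have : w.ord (jF p) < 0 := hw
    omega
  have h3 : ∀ v : Place Kbar (FF p), v.ord (jF p) < 0 →
      v = placeInfty p ∨ v = placeZero p := by
    intro v hv
    by_contra hcon
    push Not at hcon
    have hsub : ({v, placeInfty p, placeZero p} : Finset (Place Kbar (FF p))) ⊆ hfin.toFinset := by
      intro w hw
      simp only [Finset.mem_insert, Finset.mem_singleton] at hw
      rw [Set.Finite.mem_toFinset]
      rcases hw with rfl | rfl | rfl
      · exact hv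
      · exact hInf
      · exact hZero
    have hle := Finset.sum_le_sum_of_subset_of_nonneg hsub
      (f := fun w : Place Kbar (FF p) => -w.ord (jF p)) (fun w hw _ => hnonneg w hw)
    rw [key, Finset.sum_insert (by simp [hcon.1, hcon.2]), Finset.sum_insert (by simp [hne]),
      Finset.sum_singleton, ord_placeZero_jF] at hle
    omega
  refine ⟨?_, h3⟩
  have hsub : ({placeInfty p, placeZero p} : Finset (Place Kbar (FF p))) ⊆ hfin.toFinset := by
    intro w hw
    simp only [Finset.mem_insert, Finset.mem_singleton] at hw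
    rw [Set.Finite.mem_toFinset]
    rcases hw with rfl | rfl
    · exact hInf
    · exact hZero
  have hle := Finset.sum_le_sum_of_subset_of_nonneg hsub
    (f := fun w : Place Kbar (FF p) => -w.ord (jF p)) (fun w hw _ => hnonneg w hw)
  rw [key, Finset.sum_insert (by simp [hne]), Finset.sum_singleton, ord_placeZero_jF] at hle
  omega

theorem ord_placeInfty_jF (hp : p.Prime) : (placeInfty p).ord (jF p) = -1 := (poles_aux p hp).1

theorem ord_placeInfty_jNF (hp : p.Prime) : (placeInfty p).ord (jNF p) = -(p : ℤ) := by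
  rw [(ord_placeInfty_rel p).1, ord_placeInfty_jF p hp]
  ring

/-- **Exactly two cusps.** -/
theorem eq_placeInfty_or_eq_placeZero (hp : p.Prime) (v : Place Kbar (FF p))
    (hv : v.ord (jF p) < 0) : v = placeInfty p ∨ v = placeZero p :=
  (poles_aux p hp).2 v hv

/-- The valuation dichotomy at a pole of `j`. -/
theorem ord_dichotomy (hp : p.Prime) (v : Place Kbar (FF p)) (hv : v.ord (jF p) < 0) :
    v.ord (jNF p) = (p : ℤ) * v.ord (jF p) ∨ (p : ℤ) * v.ord (jNF p) = v.ord (jF p) := by
  rcases eq_placeInfty_or_eq_placeZero p hp v hv with rfl | rfl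
  · exact Or.inl (ord_placeInfty_rel p).1
  · right
    rw [ord_placeZero_jF, ord_placeZero_jNF]
    ring

/-- `∞` is the pole of `j` with `ord j_p = p * ord j`. -/
theorem eq_placeInfty_of (hp : p.Prime) (v : Place Kbar (FF p)) (hv : v.ord (jF p) < 0)
    (h : v.ord (jNF p) = (p : ℤ) * v.ord (jF p)) : v = placeInfty p := by
  rcases eq_placeInfty_or_eq_placeZero p hp v hv with rfl | rfl
  · rfl
  · exfalso
    rw [ord_placeZero_jF, ord_placeZero_jNF] at h
    have h2 : (p : ℤ) * p = 1 := by linarith
    have h3 : p * p = 1 := by exact_mod_cast h2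
    have := hp.two_le
    nlinarith

/-- `0` is the pole of `j` with `p * ord j_p = ord j`. -/
theorem eq_placeZero_of (hp : p.Prime) (v : Place Kbar (FF p)) (hv : v.ord (jF p) < 0)
    (h : (p : ℤ) * v.ord (jNF p) = v.ord (jF p)) : v = placeZero p := by
  rcases eq_placeInfty_or_eq_placeZero p hp v hv with rfl | rfl
  · exfalso
    rw [ord_placeInfty_jF p hp, ord_placeInfty_jNF p hp] at h
    have h2 : (p : ℤ) * p = 1 := by linarith
    have h3 : p * p = 1 := by exact_mod_cast h2
    have := hp.two_le
    nlinarith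
  · rfl

/-- Poles of `j` and of `j_p` coincide. -/
theorem ord_jNF_neg_iff (hp : p.Prime) (v : Place Kbar (FF p)) :
    v.ord (jNF p) < 0 ↔ v.ord (jF p) < 0 := by
  refine ⟨ord_jF_neg_of_ord_jNF_neg p v, fun hv => ?_⟩
  have hp0 : (0 : ℤ) < p := by exact_mod_cast hp.pos
  rcases ord_dichotomy p hp v hv with h | h
  · rw [h]
    exact mul_neg_of_pos_of_neg hp0 hv
  · by_contra hneg
    have h0 : 0 ≤ v.ord (jNF p) := not_lt.mp hneg
    nlinarith

end Prime

end Fermat.Agent.MAZ.Hecke.CuspVal71
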