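/-
Program MAZ (S15), brick (c), part 2 (helper71): THE EISENSTEIN PROPERTY OF THE CUSPIDAL CLASS.

`p` a prime, `ℓ ≠ p` a prime.  With `∞ = placeInfty p`, `0 = placeZero p` (`CuspVal71`):

* `heckeDivBar_placeInfty`, `heckeDivBar_placeZero` : `T_ℓ [v] = (ℓ + 1) [v]` for `v = ∞, 0`
  (`T_ℓ = α_* β^*` the Prelude's `heckeDivBar`);
* `cuspDiv p = [0] - [∞]`, `cuspClass p : JZero p`;
* `heckeOperatorBar_cuspClass` : `T_ℓ c = (ℓ + 1) • c` for the Prelude's `heckeOperatorBar p ℓ`;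
* `smul_cuspClass` : `σ • c = c` for every `σ ∈ Gal(ℚbar/ℚ)`.

Method: a place `w` of `F(pℓ)` is tested on the four functions `j, j_p, j_ℓ, j_{pℓ}`; the two-cusp
dichotomy at the prime levels `p` and `ℓ` (pulled back along `α_p, β_p : F(p) → F(pℓ)` and along the
two embeddings `F(ℓ) → F(pℓ)`) forces `w ∘ α = w ∘ β` on the cusps.
-/
import Mathlib
import Fermat.Agent.MAZ.Hecke.CuspVal71
import Fermat.Agent.ES.HECKE.InputsFinal15
import Fermat.Agent.ES.HECKE.PointFormula28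
import Fermat.Agent.ES.HECKE.LevelPullback12

set_option autoImplicit false
set_option linter.style.haveILetI false

open AlgebraicCurve ModularCurve

noncomputable section

namespace Fermat.Agent.MAZ.Hecke.CuspHecke71

open Fermat.Agent.X0 Fermat.Agent.ES.HECKE Fermat.Agent.MAZ.Hecke.CuspVal71

/-! ### Generalities on restriction along an embedding -/

section General

variable {K F F' : Type*} [Field K] [Field F] [Field F'] [Algebra K F] [Algebra K F']

theorem ramificationIndexAlong_pos (φ : F →ₐ[K] F') (hφ : φ.toRingHom.IsIntegral)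
    (w : Place K F') : 0 < w.ramificationIndexAlong φ := by
  letI := algebraAlong φ
  haveI := isScalarTower_along φ
  haveI := isIntegral_along φ hφ
  exact Place.ramificationIndex_pos (F := F) w

theorem ord_neg_iff (φ : F →ₐ[K] F') (hφ : φ.toRingHom.IsIntegral) (w : Place K F') (f : F) :
    w.ord (φ f) < 0 ↔ (w.restrictAlong φ hφ).ord f < 0 := by
  rw [Place.ord_restrictAlong φ hφ w f]
  have he : (0 : ℤ) < (w.ramificationIndexAlong φ : ℤ) := by
    exact_mod_cast ramificationIndexAlong_pos φ hφ w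
  constructor
  · intro h
    by_contra hn
    have : 0 ≤ (w.restrictAlong φ hφ).ord f := not_lt.mp hn
    nlinarith
  · intro h
    exact mul_neg_of_pos_of_neg he h

end General

/-! ### Transfer of the two-cusp dichotomy along an embedding of `F(N)`, `N` prime -/

section Transfer

variable {F' : Type*} [Field F'] [Algebra Kbar F']
variable (N : ℕ) [NeZero N]

theorem transfer (hN : N.Prime) (φ : FF N →ₐ[Kbar] F') (hφ : φ.toRingHom.IsIntegral)
    (w : Place Kbar F') :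
    (w.ord (φ (jNF N)) < 0 ↔ w.ord (φ (jF N)) < 0) ∧
      (w.ord (φ (jF N)) < 0 →
        (w.ord (φ (jNF N)) = (N : ℤ) * w.ord (φ (jF N)) ∧
            w.restrictAlong φ hφ = placeInfty N) ∨
          ((N : ℤ) * w.ord (φ (jNF N)) = w.ord (φ (jF N)) ∧
            w.restrictAlong φ hφ = placeZero N)) := by
  constructor
  · rw [ord_neg_iff φ hφ w, ord_neg_iff φ hφ w]
    exact ord_jNF_neg_iff N hN _
  · intro h
    have hu := (ord_neg_iff φ hφ w (jF N)).mp h
    rw [Place.ord_restrictAlong φ hφ w (jF N), Place.ord_restrictAlong φ hφ w (jNF N)]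
    rcases eq_placeInfty_or_eq_placeZero N hN _ hu with hv | hv
    · left
      refine ⟨?_, hv⟩
      rw [hv, (ord_placeInfty_rel N).1]
      ring
    · right
      refine ⟨?_, hv⟩
      rw [hv, ord_placeZero_jF, ord_placeZero_jNF]
      ring

end Transfer

/-! ### The arithmetic of the four valuations -/

section Arith

theorem arith_infty {p ℓ : ℕ} (hp : 2 ≤ p) (hℓ : 2 ≤ ℓ) (hne : p ≠ ℓ) {a b c d : ℤ}
    (ha : a < 0) (hb : b < 0) (hc : c < 0) (hd : d < 0)
    (hab : b = (p : ℤ) * a ∨ (p : ℤ) * b = a)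
    (hac : c = (ℓ : ℤ) * a ∨ (ℓ : ℤ) * c = a)
    (hbd : d = (ℓ : ℤ) * b ∨ (ℓ : ℤ) * d = b)
    (hcd : d = (p : ℤ) * c) : b = (p : ℤ) * a := by
  rcases hab with hab | hab
  · exact hab
  exfalso
  have hp' : (2 : ℤ) ≤ p := by exact_mod_cast hp
  have hℓ' : (2 : ℤ) ≤ ℓ := by exact_mod_cast hℓ
  have hne' : (p : ℤ) ≠ ℓ := by exact_mod_cast hne
  rcases hac with hac | hac <;> rcases hbd with hbd | hbd
  · -- c = ℓ a, d = ℓ b : ℓ b = p ℓ p b
    have h : ((ℓ : ℤ) * b) * ((p : ℤ) * p - 1) = 0 := by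
      rw [← hab] at hac
      rw [hac, hbd] at hcd
      linear_combination -hcd
    rcases mul_eq_zero.mp h with h | h
    · rcases mul_eq_zero.mp h with h | h <;> omega
    · nlinarith
  · -- c = ℓ a, ℓ d = b : d = p ℓ p ℓ d
    have h : d * ((p : ℤ) * p * ((ℓ : ℤ) * ℓ) - 1) = 0 := by
      rw [← hab, ← hbd] at hac
      rw [hac] at hcd
      linear_combination -hcd
    rcases mul_eq_zero.mp h with h | h
    · omega
    · nlinarith [mul_pos (show (0 : ℤ) < p by omega) (show (0 : ℤ) < ℓ by omega)]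
  · -- ℓ c = a = p b, d = ℓ b = p c
    have h1 : (ℓ : ℤ) * c = (p : ℤ) * b := by rw [hac, hab]
    have h2 : (ℓ : ℤ) * b = (p : ℤ) * c := by rw [← hbd, hcd]
    have h : c * (((ℓ : ℤ) - p) * ((ℓ : ℤ) + p)) = 0 := by
      have : (ℓ : ℤ) * ((ℓ : ℤ) * c) = (p : ℤ) * ((p : ℤ) * c) := by
        rw [h1, ← h2]
        ring
      linear_combination this
    rcases mul_eq_zero.mp h with h | h
    · omega
    · rcases mul_eq_zero.mp h with h | h
      · exact hne' (by linarith)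
      · omega
  · -- ℓ c = a = p b, ℓ d = b, d = p c : ℓ c = p ℓ p c
    have h : ((ℓ : ℤ) * c) * ((p : ℤ) * p - 1) = 0 := by
      rw [← hab, ← hbd, hcd] at hac
      linear_combination -hac
    rcases mul_eq_zero.mp h with h | h
    · rcases mul_eq_zero.mp h with h | h <;> omega
    · nlinarith

theorem arith_zero {p ℓ : ℕ} (hp : 2 ≤ p) (hℓ : 2 ≤ ℓ) (hne : p ≠ ℓ) {a b c d : ℤ}
    (ha : a < 0) (hb : b < 0) (hc : c < 0) (hd : d < 0)
    (hab : b = (p : ℤ) * a ∨ (p : ℤ) * b = a)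
    (hac : c = (ℓ : ℤ) * a ∨ (ℓ : ℤ) * c = a)
    (hbd : d = (ℓ : ℤ) * b ∨ (ℓ : ℤ) * d = b)
    (hcd : (p : ℤ) * d = c) : (p : ℤ) * b = a :=
  (arith_infty hp hℓ hne hb ha hd hc (hab.symm.imp Eq.symm Eq.symm) hbd hac hcd.symm).symm

end Arith

/-! ### Level `p ℓ`: the four functions and the four embeddings -/

section LevelPL

variable (p ℓ : ℕ) [NeZero p] [NeZero ℓ]

/-- `F(ℓ) → F(pℓ)`, the inclusion. -/
def lamL : FF ℓ →ₐ[Kbar] FF (p * ℓ) := LevelPullback12.levelIncl (dvd_mul_left ℓ p)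

/-- `F(ℓ) → F(pℓ)`, `q ↦ q^p`. -/
def muL : FF ℓ →ₐ[Kbar] FF (p * ℓ) :=
  (LevelPullback12.levelIncl (dvd_of_eq (mul_comm ℓ p))).comp (heckeBetaBar Kbar ℓ p)

theorem lamL_isIntegral : (lamL p ℓ).toRingHom.IsIntegral :=
  LevelPullback12.levelIncl_isIntegral _

theorem muL_isIntegral (hp : p.Prime) (hpℓ : ¬ p ∣ ℓ) : (muL p ℓ).toRingHom.IsIntegral :=
  RingHom.IsIntegral.trans _ _ (AlongDegree25.heckeBetaBarIntegral Kbar ℓ p hp hpℓ)
    (LevelPullback12.levelIncl_isIntegral (dvd_of_eq (mul_comm ℓ p)))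

theorem lamL_jF : lamL p ℓ (jF ℓ) = heckeAlphaBar Kbar p ℓ (jF p) :=
  Subtype.ext (by
    rw [lamL, LevelPullback12.coe_levelIncl, coe_heckeAlphaBar, val_jF, val_jF])

theorem lamL_jNF : lamL p ℓ (jNF ℓ) = heckeBetaBar Kbar p ℓ (jF p) :=
  Subtype.ext (by
    rw [lamL, LevelPullback12.coe_levelIncl, coe_heckeBetaBar, val_jNF, val_jF])

theorem muL_jF : muL p ℓ (jF ℓ) = heckeAlphaBar Kbar p ℓ (jNF p) :=
  Subtype.ext (by
    rw [muL, AlgHom.comp_apply, LevelPullback12.coe_levelIncl, coe_heckeBetaBar,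
      coe_heckeAlphaBar, val_jF, val_jNF])

theorem muL_jNF : muL p ℓ (jNF ℓ) = heckeBetaBar Kbar p ℓ (jNF p) :=
  Subtype.ext (by
    rw [muL, AlgHom.comp_apply, LevelPullback12.coe_levelIncl, coe_heckeBetaBar,
      coe_heckeBetaBar, val_jNF, val_jNF, ModularCurve.qExpand_qExpand,
      ModularCurve.qExpand_qExpand]
    exact ModularCurve.qExpand_congr (mul_comm p ℓ) _)

/-- **Key step**: a place of `F(pℓ)` lying over the cusp `∞` (resp. `0`) of `X₀(p)` along `β` also
lies over it along `α`. -/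
theorem restrictAlong_alpha_eq (hp : p.Prime) (hℓ : ℓ.Prime) (hne : p ≠ ℓ)
    (hα : HeckeAlphaBarIntegral Kbar p ℓ) (hβ : HeckeBetaBarIntegral Kbar p ℓ)
    (w : Place Kbar (FF (p * ℓ))) :
    (w.restrictAlong (heckeBetaBar Kbar p ℓ) hβ = placeInfty p →
        w.restrictAlong (heckeAlphaBar Kbar p ℓ) hα = placeInfty p) ∧
      (w.restrictAlong (heckeBetaBar Kbar p ℓ) hβ = placeZero p →
        w.restrictAlong (heckeAlphaBar Kbar p ℓ) hα = placeZero p) := by
  have hpℓ : ¬ p ∣ ℓ := fun h => hne ((Nat.prime_dvd_prime_iff_eq hp hℓ).mp h)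
  have hp2 := hp.two_le
  have hℓ2 := hℓ.two_le
  have hp0 : (0 : ℤ) < p := by exact_mod_cast hp.pos
  have he : (0 : ℤ) < (w.ramificationIndexAlong (heckeBetaBar Kbar p ℓ) : ℤ) := by
    exact_mod_cast ramificationIndexAlong_pos _ hβ w
  -- the three transfers
  have Talp := transfer p hp (heckeAlphaBar Kbar p ℓ) hα w
  have Tlam := transfer ℓ hℓ (lamL p ℓ) (lamL_isIntegral p ℓ) w
  have Tmu := transfer ℓ hℓ (muL p ℓ) (muL_isIntegral p ℓ hp hpℓ) w
  rw [lamL_jF, lamL_jNF] at Tlam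
  rw [muL_jF, muL_jNF] at Tmu
  have hc := Place.ord_restrictAlong (heckeBetaBar Kbar p ℓ) hβ w (jF p)
  have hd := Place.ord_restrictAlong (heckeBetaBar Kbar p ℓ) hβ w (jNF p)
  set a := w.ord (heckeAlphaBar Kbar p ℓ (jF p)) with ha_def
  set b := w.ord (heckeAlphaBar Kbar p ℓ (jNF p)) with hb_def
  set c := w.ord (heckeBetaBar Kbar p ℓ (jF p)) with hc_def
  set d := w.ord (heckeBetaBar Kbar p ℓ (jNF p)) with hd_def
  set e : ℤ := (w.ramificationIndexAlong (heckeBetaBar Kbar p ℓ) : ℤ) with he_def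
  constructor
  · intro hw
    rw [hw, ord_placeInfty_jF p hp] at hc
    rw [hw, ord_placeInfty_jNF p hp] at hd
    have hc0 : c < 0 := by rw [hc]; linarith
    have hcd : d = (p : ℤ) * c := by rw [hc, hd]; ring
    have ha0 : a < 0 := Tlam.1.mp hc0
    have hb0 : b < 0 := Talp.1.mpr ha0
    have hd0 : d < 0 := Tmu.1.mpr hb0
    have hab := (Talp.2 ha0).imp And.left And.left
    have hac := (Tlam.2 ha0).imp And.left And.left
    have hbd := (Tmu.2 hb0).imp And.left And.left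
    have hba := arith_infty hp2 hℓ2 hne ha0 hb0 hc0 hd0 hab hac hbd hcd
    rcases Talp.2 ha0 with h | h
    · exact h.2
    · exfalso
      have h1 := h.1
      rw [hba] at h1
      have : a * ((p : ℤ) * p - 1) = 0 := by linear_combination h1
      rcases mul_eq_zero.mp this with h0 | h0
      · omega
      · nlinarith
  · intro hw
    rw [hw, ord_placeZero_jF] at hc
    rw [hw, ord_placeZero_jNF] at hd
    have hd0 : d < 0 := by rw [hd]; linarith
    have hc0 : c < 0 := by rw [hc]; nlinarith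
    have hcd : (p : ℤ) * d = c := by rw [hc, hd]; ring
    have ha0 : a < 0 := Tlam.1.mp hc0
    have hb0 : b < 0 := Talp.1.mpr ha0
    have hab := (Talp.2 ha0).imp And.left And.left
    have hac := (Tlam.2 ha0).imp And.left And.left
    have hbd := (Tmu.2 hb0).imp And.left And.left
    have hba := arith_zero hp2 hℓ2 hne ha0 hb0 hc0 hd0 hab hac hbd hcd
    rcases Talp.2 ha0 with h | h
    · exfalso
      have h1 := h.1
      rw [← hba] at h1
      have : b * ((p : ℤ) * p - 1) = 0 := by linear_combination -h1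
      rcases mul_eq_zero.mp this with h0 | h0
      · omega
      · nlinarith
    · exact h.2

/-- **`T_ℓ [v] = (ℓ + 1) [v]`** on the two cusps of `X₀(p)` (`ℓ ≠ p` primes). -/
theorem heckeDivBar_cusp (hp : p.Prime) (hℓ : ℓ.Prime) (hne : p ≠ ℓ)
    (hα : HeckeAlphaBarIntegral Kbar p ℓ) (hβ : HeckeBetaBarIntegral Kbar p ℓ)
    [HasPrincipalDivisors Kbar (laurentBaseChange Kbar (modularFunctionFieldFull (p * ℓ)))]
    (hFI : FundamentalIdentityAlong Kbar (heckeBetaBar Kbar p ℓ) hβ)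
    (v : Place Kbar (FF p)) (hv : v = placeInfty p ∨ v = placeZero p) :
    heckeDivBar hα hβ (Finsupp.single v 1) = Finsupp.single v ((ℓ : ℤ) + 1) := by
  have hℓp : ¬ ℓ ∣ p := fun h => hne ((Nat.prime_dvd_prime_iff_eq hℓ hp).mp h).symm
  have hdeg' : ∀ w : Place Kbar (FF (p * ℓ)), w.deg = 1 :=
    RED.TOP.FbarFacts20.deg_eq_one_bar (p * ℓ)
  have hdeg : v.deg = 1 := RED.TOP.FbarFacts20.deg_eq_one_bar p v
  unfold heckeDivBar
  rw [PointFormula28.correspondence_single_of_deg _ _ hβ hα hdeg' v 1]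
  have hterm : ∀ w ∈ Place.fiberAlong (heckeBetaBar Kbar p ℓ) hβ v,
      Finsupp.single (w.restrictAlong (heckeAlphaBar Kbar p ℓ) hα)
          (1 * (w.ramificationIndexAlong (heckeBetaBar Kbar p ℓ) : ℤ)) =
        Finsupp.single v (w.ramificationIndexAlong (heckeBetaBar Kbar p ℓ) : ℤ) := by
    intro w hw
    rw [Place.mem_fiberAlong] at hw
    have hr := restrictAlong_alpha_eq p ℓ hp hℓ hne hα hβ w
    rw [one_mul]
    rcases hv with hv | hv
    · rw [hr.1 (hw.trans hv), hv]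
    · rw [hr.2 (hw.trans hv), hv]
  rw [Finset.sum_congr rfl hterm, ← Finsupp.single_finsetSum,
    PointFormula28.sum_ramificationIndexAlong _ hβ hFI hdeg' v hdeg,
    AlongDegree25.finrankAlong_beta Kbar p ℓ hℓ hℓp]
  push_cast
  rfl

end LevelPL

/-! ### The cuspidal class -/

section CuspClass

variable (p : ℕ) [NeZero p]

/-- The cuspidal divisor `[0] - [∞]` of `X₀(p)`. -/
def cuspDiv : Divisor Kbar (FF p) :=
  Finsupp.single (placeZero p) 1 - Finsupp.single (placeInfty p) 1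

theorem cuspDiv_mem_degZero : cuspDiv p ∈ Divisor.degZero (K := Kbar) (F := FF p) := by
  unfold cuspDiv
  rw [Divisor.mem_degZero, map_sub, Divisor.degree_single, Divisor.degree_single,
    RED.TOP.FbarFacts20.deg_eq_one_bar, RED.TOP.FbarFacts20.deg_eq_one_bar]
  simp

/-- **The cuspidal class** `c = cl((0) - (∞)) ∈ J₀(p)(ℚbar)`. -/
def cuspClass : JZero p := Pic0.mk ⟨cuspDiv p, cuspDiv_mem_degZero p⟩

/-- **Eisenstein property**: `T_ℓ c = (ℓ + 1) c` for every prime `ℓ ≠ p`. -/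
theorem heckeOperatorBar_cuspClass (hp : p.Prime) (ℓ : Nat.Primes) (hne : (ℓ : ℕ) ≠ p) :
    heckeOperatorBar p ℓ (cuspClass p) = (((ℓ : ℕ) : ℤ) + 1) • cuspClass p := by
  haveI : NeZero (ℓ : ℕ) := ⟨ℓ.2.ne_zero⟩
  have hℓ : (ℓ : ℕ).Prime := ℓ.2
  have hℓp : ¬ (ℓ : ℕ) ∣ p := fun h => hne ((Nat.prime_dvd_prime_iff_eq hℓ hp).mp h)
  haveI := InputsMain19.hasPrincipalDivisors_level p (ℓ : ℕ)
  have hα := AlongDegree25.heckeAlphaBarIntegral Kbar p (ℓ : ℕ) hℓ hℓp
  have hβ := AlongDegree25.heckeBetaBarIntegral Kbar p (ℓ : ℕ) hℓ hℓp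
  have hFI := InputsMain19.fundamentalIdentityAlong_beta p (ℓ : ℕ) hℓ hℓp
  have hfin := AlongDegree25.finiteAlong_alpha Kbar p (ℓ : ℕ) hℓ hℓp
  have hN := InputsFinal15.normFormulaAlong_alpha p (ℓ : ℕ) hℓ hℓp
  rw [cuspClass, PointFormula28.heckeOperatorBar_mk ℓ hα hβ hFI hfin hN]
  have hdiv : Pic0.degZeroCorrespondence (heckeBetaBar Kbar p (ℓ : ℕ))
      (heckeAlphaBar Kbar p (ℓ : ℕ)) hβ hα hFI ⟨cuspDiv p, cuspDiv_mem_degZero p⟩ =
      (((ℓ : ℕ) : ℤ) + 1) • (⟨cuspDiv p, cuspDiv_mem_degZero p⟩ :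
        Divisor.degZero (K := Kbar) (F := FF p)) := by
    apply Subtype.ext
    rw [Pic0.coe_degZeroCorrespondence, AddSubgroupClass.coe_zsmul]
    show heckeDivBar hα hβ (cuspDiv p) = _
    unfold cuspDiv
    rw [map_sub,
      heckeDivBar_cusp p (ℓ : ℕ) hp hℓ (Ne.symm hne) hα hβ hFI _ (Or.inr rfl),
      heckeDivBar_cusp p (ℓ : ℕ) hp hℓ (Ne.symm hne) hα hβ hFI _ (Or.inl rfl), smul_sub,
      Finsupp.smul_single, Finsupp.smul_single, smul_eq_mul, mul_one]
  rw [hdiv]
  exact map_zsmul (QuotientAddGroup.mk' _) _ _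

/-! ### Galois invariance -/

omit [NeZero p] in
theorem arith_smul_jF (σ : Kbar ≃ₐ[ℚ] Kbar) :
    arithmeticGalois (modularFunctionFieldFull p) σ • jF p = jF p :=
  Subtype.ext (by
    rw [coe_arithmeticGalois_smul]
    exact coeffMap_coeffEmb σ _)

theorem arith_smul_jNF (σ : Kbar ≃ₐ[ℚ] Kbar) :
    arithmeticGalois (modularFunctionFieldFull p) σ • jNF p = jNF p :=
  Subtype.ext (by
    rw [coe_arithmeticGalois_smul]
    exact coeffMap_coeffEmb σ _)

theorem smul_placeInfty (hp : p.Prime) (σ : Kbar ≃ₐ[ℚ] Kbar) :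
    arithmeticGalois (modularFunctionFieldFull p) σ • placeInfty p = placeInfty p := by
  set g := arithmeticGalois (modularFunctionFieldFull p) σ with hg
  have h1 := SemilinearAut.ord_smul g (placeInfty p) (jF p)
  have h2 := SemilinearAut.ord_smul g (placeInfty p) (jNF p)
  rw [arith_smul_jF] at h1
  rw [arith_smul_jNF] at h2
  apply eq_placeInfty_of p hp
  · rw [h1]
    exact (ord_placeInfty_rel p).2
  · rw [h1, h2]
    exact (ord_placeInfty_rel p).1

theorem smul_placeZero (hp : p.Prime) (σ : Kbar ≃ₐ[ℚ] Kbar) :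
    arithmeticGalois (modularFunctionFieldFull p) σ • placeZero p = placeZero p := by
  set g := arithmeticGalois (modularFunctionFieldFull p) σ with hg
  have h1 := SemilinearAut.ord_smul g (placeZero p) (jF p)
  have h2 := SemilinearAut.ord_smul g (placeZero p) (jNF p)
  rw [arith_smul_jF] at h1
  rw [arith_smul_jNF] at h2
  have hp0 : (0 : ℤ) < p := by exact_mod_cast hp.pos
  apply eq_placeZero_of p hp
  · rw [h1, ord_placeZero_jF]
    omega
  · rw [h1, h2, ord_placeZero_jF, ord_placeZero_jNF]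
    ring

/-- **The cuspidal class is `Gal(ℚbar/ℚ)`-invariant.** -/
theorem smul_cuspClass (hp : p.Prime) (σ : Kbar ≃ₐ[ℚ] Kbar) : σ • cuspClass p = cuspClass p := by
  rw [galois_smul_pic0_def, cuspClass, SemilinearAut.pic0_smul_mk]
  refine congrArg Pic0.mk (Subtype.ext ?_)
  rw [SemilinearAut.coe_degZeroSMulHom]
  show arithmeticGalois (modularFunctionFieldFull p) σ • cuspDiv p = cuspDiv p
  unfold cuspDiv
  rw [smul_sub, SemilinearAut.smul_single, SemilinearAut.smul_single,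
    smul_placeZero p hp, smul_placeInfty p hp]

end CuspClass

end Fermat.Agent.MAZ.Hecke.CuspHecke71
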