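/-
Program MAZ (S15), chapter Hecke, helper71: **HECKE-COMM** — the Hecke operators `T_m`, `m ∤ N`
prime, COMMUTE on `J₀(N)(ℚ̄)`; consequently the subalgebra `XSpec62.heckeSub p ⊆ End (JZero p)`
generated by the `T_m`, `m ≠ p`, is a COMMUTATIVE ring, and all its elements commute with the
Galois action.

The proof is a corollary of helper47's generic base change `M1/Lvl/GenBC47`:
`T_m T_{m'} = α_{m*} β_m^* T_{m'} = α_{m*} T_{m'} β_m^* = T_{m'} α_{m*} β_m^* = T_{m'} T_m`.

* `push_alpha_heckeOperatorAlong` : `α_{q*} ∘ T_ℓ^{(M q)} = T_ℓ^{(M)} ∘ α_{q*}` (`push` form);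
* `heckeOperatorAlong_comm`       : `T_m T_{m'} = T_{m'} T_m` on `JZero N` (`m, m' ∤ N` primes);
* `heckeOperatorBar_comm`         : the same for `heckeOperatorBar`, as endomorphisms;
* `heckeSub_comm`, `heckeSubCommRing`, `instIsMulCommutativeHeckeSub` : `heckeSub p` is commutative;
* `heckeSub_apply_smul`           : `t (σ • z) = σ • t z` for `t ∈ heckeSub p`.
-/
import Mathlib
import Fermat.Agent.M1.Lvl.GenBC47
import Fermat.Agent.ES.HECKE.HeckeGalois12
import Fermat.Agent.MAZ.Spec.XSpec62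

set_option autoImplicit false
set_option synthInstance.maxHeartbeats 400000
set_option linter.unusedSectionVars false
set_option linter.style.haveILetI false

open ModularCurve AlgebraicCurve

noncomputable section

namespace Fermat.Agent.MAZ.Hecke.HeckeComm71

open Fermat.Agent.X0
open Fermat.Agent.ES.HECKE.LevelPullback12
open Fermat.Agent.M1.Lvl.GenBC47
open Fermat.Agent.MAZ.Spec

local notation "Qb" => AlgebraicClosure ℚ

/-! ### `α_{q*}` commutes with `T_ℓ` -/

section Along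

variable {M q ℓ : ℕ} [NeZero M] [NeZero q] [NeZero ℓ]

theorem not_dvd_mul_of_ne (hq : q.Prime) (hℓ : ℓ.Prime) (hqM : ¬ q ∣ M) (hℓq : ℓ ≠ q) :
    ¬ q ∣ M * ℓ := by
  intro h
  rcases (Nat.Prime.dvd_mul hq).mp h with h | h
  · exact hqM h
  · exact hℓq ((Nat.prime_dvd_prime_iff_eq hq hℓ).mp h).symm

/-- **`α_{q*} ∘ T_ℓ^{(M q)} = T_ℓ^{(M)} ∘ α_{q*}`** (`ℓ ≠ q` primes, `q ∤ M`), `push` form. -/
theorem push_alpha_heckeOperatorAlong (hq : q.Prime) (hqM : ¬ q ∣ M) (hℓ : ℓ.Prime)
    (hℓq : ℓ ≠ q) (y : JZero (M * q)) :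
    push (heckeAlphaBar Qb M q) (heckeOperatorAlong Qb (M * q) ℓ y) =
      heckeOperatorAlong Qb M ℓ (push (heckeAlphaBar Qb M q) y) := by
  have hqMℓ : ¬ q ∣ M * ℓ := not_dvd_mul_of_ne hq hℓ hqM hℓq
  have h₁ : M * ℓ ∣ M * q * ℓ := ⟨q, by ring⟩
  have hbc : pull (heckeBetaBar Qb M ℓ) (push (heckeAlphaBar Qb M q) y) =
      push (levelIncl h₁) (pull (heckeBetaBar Qb (M * q) ℓ) y) :=
    pull_push_one (N := M) (M := M * ℓ) (ℓ := q) (N₁ := M * q) (M₁ := M * q * ℓ) rfl
      (mul_right_comm M q ℓ) (dvd_mul_left ℓ M) hq hqM hqMℓ (isDegen_alpha M q)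
      (isDegen_levelIncl h₁) (isDegen_beta M ℓ) (isDegen_beta (M * q) ℓ) y
  rw [heckeOperatorAlong_eq_push_pull, heckeOperatorAlong_eq_push_pull, hbc, ← push_comp,
    ← push_comp]
  have hext : (heckeAlphaBar Qb (M * q) ℓ).comp (heckeAlphaBar Qb M q) =
      (levelIncl h₁).comp (heckeAlphaBar Qb M ℓ) :=
    IsDegen.ext ((isDegen_alpha M q).comp (isDegen_alpha (M * q) ℓ))
      ((isDegen_alpha M ℓ).comp (isDegen_levelIncl h₁))
  rw [hext]

end Along

/-! ### Commutativity on `JZero N` -/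

section Comm

variable {N : ℕ} [NeZero N]

/-- **The Hecke operators commute**: `T_m T_{m'} = T_{m'} T_m` on `J₀(N)(ℚ̄)` for primes
`m, m' ∤ N`. -/
theorem heckeOperatorAlong_comm (m m' : ℕ) [NeZero m] [NeZero m'] (hm : m.Prime)
    (hm' : m'.Prime) (hmN : ¬ m ∣ N) (hm'N : ¬ m' ∣ N) (x : JZero N) :
    heckeOperatorAlong Qb N m (heckeOperatorAlong Qb N m' x) =
      heckeOperatorAlong Qb N m' (heckeOperatorAlong Qb N m x) := by
  by_cases h : m = m'
  · subst h
    rfl
  · have hm'Nm : ¬ m' ∣ N * m := not_dvd_mul_of_ne hm' hm hm'N h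
    rw [heckeOperatorAlong_eq_push_pull N m (heckeOperatorAlong Qb N m' x),
      pull_heckeOperatorAlong' (d := m) (N := N) (M := N * m) (ℓ := m') dvd_rfl hm' hm'Nm
        (isDegen_beta N m) x,
      push_alpha_heckeOperatorAlong hm hmN hm' (Ne.symm h),
      ← heckeOperatorAlong_eq_push_pull N m x]

/-- **The Hecke operators commute**, `heckeOperatorBar` form, as endomorphisms of `JZero N`. -/
theorem heckeOperatorBar_comm (m m' : Nat.Primes) (hmN : ¬ (m : ℕ) ∣ N)
    (hm'N : ¬ (m' : ℕ) ∣ N) :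
    heckeOperatorBar N m * heckeOperatorBar N m' =
      heckeOperatorBar N m' * heckeOperatorBar N m := by
  haveI : NeZero (m : ℕ) := ⟨m.2.ne_zero⟩
  haveI : NeZero (m' : ℕ) := ⟨m'.2.ne_zero⟩
  refine LinearMap.ext fun x => ?_
  rw [Module.End.mul_apply, Module.End.mul_apply, heckeOperatorBar_apply, heckeOperatorBar_apply,
    heckeOperatorBar_apply, heckeOperatorBar_apply]
  exact heckeOperatorAlong_comm (m : ℕ) (m' : ℕ) m.2 m'.2 hmN hm'N x

/-- pointwise form. -/
theorem heckeOperatorBar_comm_apply (m m' : Nat.Primes) (hmN : ¬ (m : ℕ) ∣ N)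
    (hm'N : ¬ (m' : ℕ) ∣ N) (x : JZero N) :
    heckeOperatorBar N m (heckeOperatorBar N m' x) =
      heckeOperatorBar N m' (heckeOperatorBar N m x) :=
  LinearMap.congr_fun (heckeOperatorBar_comm m m' hmN hm'N) x

end Comm

/-! ### `heckeSub p` is commutative -/

section HeckeSub

variable (p : ℕ) [NeZero p]

theorem not_dvd_of_prime_ne (hp : p.Prime) (m : Nat.Primes) (hm : (m : ℕ) ≠ p) :
    ¬ (m : ℕ) ∣ p := fun h =>
  hm ((Nat.prime_dvd_prime_iff_eq m.2 hp).mp h)

/-- the generators of `heckeSub p` commute pairwise. -/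
theorem heckeSub_gen_comm (hp : p.Prime) :
    ∀ a ∈ (heckeOperatorBar p) '' {m : Nat.Primes | (m : ℕ) ≠ p},
      ∀ b ∈ (heckeOperatorBar p) '' {m : Nat.Primes | (m : ℕ) ≠ p}, a * b = b * a := by
  rintro _ ⟨m, hm, rfl⟩ _ ⟨m', hm', rfl⟩
  exact heckeOperatorBar_comm m m' (not_dvd_of_prime_ne p hp m hm) (not_dvd_of_prime_ne p hp m' hm')

/-- **`heckeSub p` is commutative** (elementwise form). -/
theorem heckeSub_comm (hp : p.Prime) {s t : Module.End ℤ (JZero p)}
    (hs : s ∈ XSpec62.heckeSub p) (ht : t ∈ XSpec62.heckeSub p) : s * t = t * s := by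
  haveI : IsMulCommutative (Algebra.adjoin ℤ
      ((heckeOperatorBar p) '' {m : Nat.Primes | (m : ℕ) ≠ p})) :=
    Algebra.isMulCommutative_adjoin ℤ (heckeSub_gen_comm p hp)
  unfold XSpec62.heckeSub at hs ht
  have h := mul_comm' (⟨s, hs⟩ : Algebra.adjoin ℤ
      ((heckeOperatorBar p) '' {m : Nat.Primes | (m : ℕ) ≠ p})) ⟨t, ht⟩
  exact congrArg Subtype.val h

/-- pointwise form. -/
theorem heckeSub_comm_apply (hp : p.Prime) {s t : Module.End ℤ (JZero p)}
    (hs : s ∈ XSpec62.heckeSub p) (ht : t ∈ XSpec62.heckeSub p) (z : JZero p) :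
    s (t z) = t (s z) :=
  LinearMap.congr_fun (heckeSub_comm p hp hs ht) z

/-- **The commutative ring structure on `heckeSub p`**, extending the subalgebra ring structure
(`toRing` is DEFINITIONALLY `(heckeSub p).toRing`). -/
@[reducible] def heckeSubCommRing (hp : p.Prime) : CommRing (XSpec62.heckeSub p) :=
  { (XSpec62.heckeSub p).toRing with
    mul_comm := fun s t => Subtype.ext (heckeSub_comm p hp s.2 t.2) }

theorem heckeSubCommRing_toRing (hp : p.Prime) :
    (heckeSubCommRing p hp).toRing = (XSpec62.heckeSub p).toRing := rfl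

/-- `IsMulCommutative` form (usable with `open scoped IsMulCommutative`). -/
theorem isMulCommutative_heckeSub (hp : p.Prime) : IsMulCommutative (XSpec62.heckeSub p) :=
  ⟨⟨fun s t => Subtype.ext (heckeSub_comm p hp s.2 t.2)⟩⟩

instance instIsMulCommutativeHeckeSub [Fact p.Prime] : IsMulCommutative (XSpec62.heckeSub p) :=
  isMulCommutative_heckeSub p Fact.out

instance instCommRingHeckeSub [Fact p.Prime] : CommRing (XSpec62.heckeSub p) :=
  heckeSubCommRing p Fact.out

/-- the action of `heckeSub p` on `JZero p` is evaluation. -/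
theorem heckeSub_smul_def (t : XSpec62.heckeSub p) (z : JZero p) :
    t • z = (t : Module.End ℤ (JZero p)) z := rfl

/-- **every element of `heckeSub p` commutes with the Galois action.** -/
theorem heckeSub_apply_smul {t : Module.End ℤ (JZero p)} (ht : t ∈ XSpec62.heckeSub p)
    (σ : Qb ≃ₐ[ℚ] Qb) (z : JZero p) : t (σ • z) = σ • t z := by
  refine Fermat.Agent.ES.HECKE.HeckeGalois12.adjoin_apply_smul p ?_ σ z
  unfold XSpec62.heckeSub at ht
  exact Algebra.adjoin_mono (Set.image_subset_range _ _) ht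

/-- `SMulCommClass` form. -/
theorem heckeSub_smulCommClass :
    SMulCommClass (Qb ≃ₐ[ℚ] Qb) (XSpec62.heckeSub p) (JZero p) :=
  ⟨fun σ t z => (heckeSub_apply_smul p t.2 σ z).symm⟩

end HeckeSub

end Fermat.Agent.MAZ.Hecke.HeckeComm71
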