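/-
Program MAZ (S15), G-side, brick EIS-REL part 1 (helper55): THE LUCAS LIFT OF A QUADRATIC RELATION.
Mathlib only.

If `a` satisfies `a ^ 2 - t a + d = 0` in a ring, with `a`, `t`, `d` pairwise commuting, then every
power `a ^ j` satisfies `(a ^ j) ^ 2 - V_j(t, d) a ^ j + d ^ j = 0`, where `V_j` is the Lucas sequence
`V_0 = 2`, `V_1 = t`, `V_{j+2} = t V_{j+1} - d V_j` (`V_j = a ^ j + b ^ j` for `b = t - a`, `a b = d`).
Moreover `V_j(1 + d, d) = 1 + d ^ j`.

Application: `a` = a Frobenius element acting on `J₀(p)[m]`, `t = T_ℓ`, `d = ℓ` (Eichler–Shimura);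
the landed Chebotarev theorem only says that every element of the Galois group is a POWER of a
Frobenius element on a given number field, and the Eisenstein character sends `T_ℓ` to `1 + ℓ`.
-/
import Mathlib

set_option autoImplicit false

namespace Fermat.Agent.MAZ.Hecke.LucasRel55

section Def

variable {R : Type*} [Ring R]

/-- The Lucas sequence `V_j(t, d)`: `V_0 = 2`, `V_1 = t`, `V_{j+2} = t V_{j+1} - d V_j`. -/
def lucasV (t d : R) : ℕ → R
  | 0 => 2
  | 1 => t
  | (j + 2) => t * lucasV t d (j + 1) - d * lucasV t d j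

@[simp] theorem lucasV_zero (t d : R) : lucasV t d 0 = 2 := rfl

@[simp] theorem lucasV_one (t d : R) : lucasV t d 1 = t := rfl

theorem lucasV_add_two (t d : R) (j : ℕ) :
    lucasV t d (j + 2) = t * lucasV t d (j + 1) - d * lucasV t d j := rfl

/-- Ring homomorphisms commute with the Lucas sequence. -/
theorem map_lucasV {S : Type*} [Ring S] (f : R →+* S) (t d : R) (j : ℕ) :
    f (lucasV t d j) = lucasV (f t) (f d) j := by
  induction j using Nat.strong_induction_on with
  | _ j ih =>
    match j with
    | 0 => rw [lucasV_zero, lucasV_zero]; exact map_ofNat f 2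
    | 1 => rw [lucasV_one, lucasV_one]
    | (j + 2) =>
      rw [lucasV_add_two, lucasV_add_two, map_sub, map_mul, map_mul, ih (j + 1) (by omega),
        ih j (by omega)]

/-- The Lucas sequence stays inside any subring containing `t` and `d`. -/
theorem lucasV_mem {S : Type*} [SetLike S R] [SubringClass S R] (s : S) {t d : R} (ht : t ∈ s)
    (hd : d ∈ s) (j : ℕ) : lucasV t d j ∈ s := by
  induction j using Nat.strong_induction_on with
  | _ j ih =>
    match j with
    | 0 =>
      rw [lucasV_zero]
      exact ofNat_mem s 2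
    | 1 => exact ht
    | (j + 2) =>
      rw [lucasV_add_two]
      exact sub_mem (mul_mem ht (ih (j + 1) (by omega))) (mul_mem hd (ih j (by omega)))

/-- `V_j = a ^ j + b ^ j` when `a + b = t`, `a b = d` and `a`, `b` commute. -/
theorem lucasV_eq_pow_add_pow {a b : R} (hab : Commute a b) (j : ℕ) :
    lucasV (a + b) (a * b) j = a ^ j + b ^ j := by
  induction j using Nat.strong_induction_on with
  | _ j ih =>
    match j with
    | 0 => rw [lucasV_zero, pow_zero, pow_zero]; norm_num
    | 1 => rw [lucasV_one, pow_one, pow_one]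
    | (j + 2) =>
      rw [lucasV_add_two, ih (j + 1) (by omega), ih j (by omega)]
      have h1 : b * a ^ (j + 1) = a ^ (j + 1) * b := (hab.symm.pow_right (j + 1)).eq
      have h2 : a * b * a ^ j = a ^ (j + 1) * b := by
        rw [mul_assoc, (hab.symm.pow_right j).eq, ← mul_assoc, ← pow_succ']
      have h3 : a * b * b ^ j = a * b ^ (j + 1) := by rw [mul_assoc, ← pow_succ']
      rw [add_mul, mul_add, mul_add, mul_add, h1, h2, h3, ← pow_succ', ← pow_succ']
      have e1 : j + 1 + 1 = j + 2 := rfl
      rw [e1]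
      abel

/-- **The Lucas lift**: a root `a` of `X ^ 2 - t X + d` has powers `a ^ j` which are roots of
`X ^ 2 - V_j(t, d) X + d ^ j`. -/
theorem pow_rel {a t d : R} (hat : Commute a t) (h : a * a - t * a + d = 0) (j : ℕ) :
    a ^ j * a ^ j - lucasV t d j * a ^ j + d ^ j = 0 := by
  set b : R := t - a with hb
  have hab : Commute a b := hat.sub_right (Commute.refl a)
  have hsum : a + b = t := by rw [hb]; abel
  have hprod : a * b = d := by
    have : a * b = -(a * a - t * a) := by
      rw [hb, mul_sub, hat.eq]; abel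
    rw [this, eq_comm, ← sub_eq_zero, sub_neg_eq_add, add_comm]
    exact h
  rw [← hsum, ← hprod, lucasV_eq_pow_add_pow hab, hab.mul_pow, add_mul,
    (hab.symm.pow_pow j j).eq]
  abel

end Def

section Comm

variable {R : Type*} [CommRing R]

/-- `V_j(1 + d, d) = 1 + d ^ j`. -/
theorem lucasV_one_add (d : R) (j : ℕ) : lucasV (1 + d) d j = 1 + d ^ j := by
  have h := lucasV_eq_pow_add_pow (Commute.all (1 : R) d) j
  rw [one_mul, one_pow] at h
  exact h

end Comm

section Module

variable {M J : Type*} [AddCommGroup M] [AddCommGroup J]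

/-- **Intertwining**: if `ι ∘ t' = t ∘ ι` then `ι ∘ V_j(t', n) = V_j(t, n) ∘ ι` (`n` a natural
number).  Used for `ι` the inclusion of a stable subgroup (the `m`-torsion). -/
theorem lucasV_intertwine (ι : M →ₗ[ℤ] J) (t' : Module.End ℤ M) (t : Module.End ℤ J) (n : ℕ)
    (h : ∀ x, ι (t' x) = t (ι x)) (j : ℕ) (x : M) :
    ι (lucasV t' (n : Module.End ℤ M) j x) = lucasV t (n : Module.End ℤ J) j (ι x) := by
  induction j using Nat.strong_induction_on generalizing x with
  | _ j ih =>
    match j with
    | 0 =>
      rw [lucasV_zero, lucasV_zero]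
      have e1 : (2 : Module.End ℤ M) x = 2 • x := by
        rw [← Nat.cast_ofNat (R := Module.End ℤ M), Module.End.natCast_apply]
      have e2 : (2 : Module.End ℤ J) (ι x) = 2 • ι x := by
        rw [← Nat.cast_ofNat (R := Module.End ℤ J), Module.End.natCast_apply]
      rw [e1, e2, map_nsmul]
    | 1 => rw [lucasV_one, lucasV_one, h]
    | (j + 2) =>
      rw [lucasV_add_two, lucasV_add_two, LinearMap.sub_apply, LinearMap.sub_apply,
        Module.End.mul_apply, Module.End.mul_apply, Module.End.mul_apply, Module.End.mul_apply,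
        Module.End.natCast_apply, Module.End.natCast_apply, map_sub, h, map_nsmul,
        ih (j + 1) (by omega), ih j (by omega)]

/-- **Eigenvectors**: if `t c = (1 + n) c` then `V_j(t, n) c = (1 + n ^ j) c`. -/
theorem lucasV_apply_of_eigen (t : Module.End ℤ J) (n : ℕ) (c : J)
    (h : t c = ((1 : ℤ) + (n : ℤ)) • c) (j : ℕ) :
    lucasV t (n : Module.End ℤ J) j c = ((1 : ℤ) + (n : ℤ) ^ j) • c := by
  induction j using Nat.strong_induction_on with
  | _ j ih =>
    match j with
    | 0 =>
      rw [lucasV_zero, ← Nat.cast_ofNat (R := Module.End ℤ J), Module.End.natCast_apply, pow_zero,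
        ← natCast_zsmul]
      norm_num
    | 1 => rw [lucasV_one, h, pow_one]
    | (j + 2) =>
      rw [lucasV_add_two, LinearMap.sub_apply, Module.End.mul_apply, Module.End.mul_apply,
        Module.End.natCast_apply, ih (j + 1) (by omega), ih j (by omega), map_zsmul, h,
        smul_smul, ← natCast_zsmul, smul_smul, ← sub_smul]
      congr 1
      ring

end Module

section OnSubmodule

variable {J : Type*} [AddCommGroup J]

theorem coe_restrict_pow_apply (S : Submodule ℤ J) (a : Module.End ℤ J) (haS : ∀ x ∈ S, a x ∈ S)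
    (j : ℕ) (x : S) : (((a.restrict haS : Module.End ℤ S) ^ j) x : J) = (a ^ j) (x : J) := by
  induction j generalizing x with
  | zero => rfl
  | succ j ih =>
    rw [pow_succ, pow_succ, Module.End.mul_apply, Module.End.mul_apply, ih]
    rfl

theorem coe_natCast_pow_apply (S : Submodule ℤ J) (n j : ℕ) (x : S) :
    ((((n : Module.End ℤ S) ^ j) x : S) : J) = (n ^ j) • (x : J) := by
  rw [← Nat.cast_pow, Module.End.natCast_apply]
  rfl

/-- **The Lucas lift on a stable submodule**: if `a² - t a + n = 0` holds on a submodule `S` stable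
under the commuting (on `S`) endomorphisms `a`, `t`, then `(a ^ j)² - V_j(t, n) a ^ j + n ^ j = 0`
on `S`. -/
theorem pow_rel_on (S : Submodule ℤ J) (a t : Module.End ℤ J) (n : ℕ)
    (haS : ∀ x ∈ S, a x ∈ S) (htS : ∀ x ∈ S, t x ∈ S)
    (hcomm : ∀ x ∈ S, a (t x) = t (a x))
    (hrel : ∀ x ∈ S, a (a x) - t (a x) + n • x = 0) (j : ℕ) (x : J) (hx : x ∈ S) :
    (a ^ j) ((a ^ j) x) - lucasV t (n : Module.End ℤ J) j ((a ^ j) x) + (n ^ j) • x = 0 := by
  set a' : Module.End ℤ S := a.restrict haS with ha'
  set t' : Module.End ℤ S := t.restrict htS with ht'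
  have hc : Commute a' t' := by
    refine LinearMap.ext fun y => Subtype.ext ?_
    exact hcomm y y.2
  have hr : a' * a' - t' * a' + (n : Module.End ℤ S) = 0 := by
    refine LinearMap.ext fun y => Subtype.ext ?_
    have e : (((n : Module.End ℤ S) y : S) : J) = n • (y : J) := by
      rw [Module.End.natCast_apply]
      rfl
    rw [LinearMap.add_apply, LinearMap.sub_apply, LinearMap.zero_apply, Submodule.coe_add,
      Submodule.coe_sub, ZeroMemClass.coe_zero, e]
    exact hrel y y.2
  have hpow := pow_rel hc hr j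
  have key := congrArg (fun f : Module.End ℤ S => ((f ⟨x, hx⟩ : S) : J)) hpow
  have hint := lucasV_intertwine S.subtype t' t n (fun _ => rfl) j ((a' ^ j) ⟨x, hx⟩)
  rw [Submodule.subtype_apply, Submodule.subtype_apply, ha', coe_restrict_pow_apply] at hint
  change (((a' ^ j * a' ^ j - lucasV t' (n : Module.End ℤ S) j * a' ^ j +
    (n : Module.End ℤ S) ^ j) ⟨x, hx⟩ : S) : J) = (((0 : Module.End ℤ S) ⟨x, hx⟩ : S) : J) at key
  rw [LinearMap.add_apply, LinearMap.sub_apply, Module.End.mul_apply, Module.End.mul_apply,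
    LinearMap.zero_apply, Submodule.coe_add, Submodule.coe_sub, ZeroMemClass.coe_zero,
    coe_natCast_pow_apply, ha', coe_restrict_pow_apply, coe_restrict_pow_apply] at key
  rw [← ha'] at hint
  rw [hint] at key
  exact key

end OnSubmodule

end Fermat.Agent.MAZ.Hecke.LucasRel55
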