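/-
Program MAZ (S15), G-side, brick EIS-REL part 2 (helper55): THE EICHLER–SHIMURA INPUT OF THE
EISENSTEIN FILTRATION (`MAZ/Desc/EisFiltration19.EisData`, fields `tau`, `delta`, `rel`).

For `p` prime, `m ≠ 0` with `J₀(p)[m]` finite, and EVERY `g ∈ Gal(ℚ̄/ℚ)` there are a prime `ℓ ∤ p m`
and `j : ℕ` with
* `g ζ = ζ ^ (ℓ ^ j)` for every `m`-th root of unity `ζ`        (`χ_m(g) = ℓ ^ j`);
* `g² - V_j(T_ℓ, ℓ) g + ℓ ^ j = 0` on `J₀(p)[m]`,
where `V_j` is the Lucas sequence of `LucasRel55`; `V_j(T_ℓ, ℓ) ∈ heckeSub p`, and every character of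
the Hecke algebra with `T_ℓ ↦ 1 + ℓ` sends `V_j(T_ℓ, ℓ)` to `1 + ℓ ^ j = 1 + χ(g)`.

Inputs (all landed): Chebotarev in GENERATOR form (`ES/GAL/ChebQbar23`: `g = φ ^ j` on a number
field, `φ` a Frobenius element — this is why the Lucas lift is needed), the Eichler–Shimura
congruence relation `φ² - T_ℓ φ + ℓ = 0` on torsion (`ES/TOP/TorsionGalois12`), Hecke–Galois
commutation (`ES/HECKE/HeckeGalois12`), open stabilisers (`ES/GAL/OpenStab12`), Frobenius elements on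
roots of unity (`ES/J/CycloChar8`).
-/
import Mathlib
import Fermat.Agent.ES.TOP.TorsionGalois12
import Fermat.Agent.ES.HECKE.HeckeGalois12
import Fermat.Agent.ES.GAL.ChebQbar23
import Fermat.Agent.ES.GAL.OpenStab12
import Fermat.Agent.ES.J.CycloChar8
import Fermat.Agent.MAZ.Spec.XSpec62
import Fermat.Agent.MAZ.Hecke.LucasRel55

set_option autoImplicit false
set_option linter.unusedSectionVars false
set_option linter.style.haveILetI false
set_option synthInstance.maxHeartbeats 400000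

open AlgebraicCurve ModularCurve

noncomputable section

namespace Fermat.Agent.MAZ.Hecke.EisRel55

open Fermat.Agent.MAZ.Spec.XSpec62 Fermat.Agent.MAZ.Hecke.LucasRel55
open Fermat.Agent.ES.J Fermat.Agent.ES.GAL

/-! ### Frobenius elements on roots of unity -/

/-- A Frobenius element at `A | ℓ` raises the roots of unity of order prime to `ℓ` to the `ℓ`-th
power. -/
theorem frob_rootOfUnity {A : ValuationSubring Qb} {ℓ : ℕ} (hℓ : ℓ.Prime)
    (hA : A.LiesOverPrime ℓ) {σ : GQ} (hσ : A.IsFrobeniusAt σ ℓ) {m : ℕ} (hm : ¬ ℓ ∣ m) {ζ : Qb}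
    (hζ : ζ ^ m = 1) : σ ζ = ζ ^ ℓ := by
  have hm0 : m ≠ 0 := fun h0 => hm (h0 ▸ dvd_zero ℓ)
  have hζ0 : ζ ≠ 0 := by
    rintro rfl
    rw [zero_pow hm0] at hζ
    exact zero_ne_one hζ
  have hζA : ζ ∈ A := CycloChar8.mem_of_pow_eq_one hm0 hζ
  have h1 := CycloChar8.frob_apply_sub_pow_mem_nonunits hσ hζA
  have hσζ : (σ ζ) ^ m = 1 := by rw [← map_pow, hζ, map_one]
  have hη : (σ ζ * (ζ ^ ℓ)⁻¹) ^ m = 1 := by
    rw [mul_pow, hσζ, inv_pow, ← pow_mul, mul_comm ℓ, pow_mul, hζ, one_pow, inv_one, mul_one]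
  have hvinv : A.valuation ((ζ ^ ℓ)⁻¹) = 1 := by
    rw [map_inv₀, map_pow, CycloChar8.valuation_eq_one_of_pow_eq_one hm0 hζ, one_pow, inv_one]
  have hη1 : σ ζ * (ζ ^ ℓ)⁻¹ - 1 ∈ A.nonunits := by
    have e : σ ζ * (ζ ^ ℓ)⁻¹ - 1 = (σ ζ - ζ ^ ℓ) * (ζ ^ ℓ)⁻¹ := by
      rw [sub_mul, mul_inv_cancel₀ (pow_ne_zero _ hζ0)]
    rw [e, ValuationSubring.mem_nonunits_iff, map_mul, hvinv, mul_one]
    exact (ValuationSubring.mem_nonunits_iff (A := A)).mp h1
  have h2 := CycloChar8.eq_one_of_sub_one_mem_nonunits hℓ hA hm hη hη1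
  have h3 := congrArg (· * ζ ^ ℓ) h2
  simpa [mul_assoc, inv_mul_cancel₀ (pow_ne_zero ℓ hζ0)] using h3

/-- powers of a Frobenius element on roots of unity. -/
theorem frob_pow_rootOfUnity {A : ValuationSubring Qb} {ℓ : ℕ} (hℓ : ℓ.Prime)
    (hA : A.LiesOverPrime ℓ) {σ : GQ} (hσ : A.IsFrobeniusAt σ ℓ) {m : ℕ} (hm : ¬ ℓ ∣ m) (j : ℕ)
    {ζ : Qb} (hζ : ζ ^ m = 1) : (σ ^ j) ζ = ζ ^ (ℓ ^ j) := by
  induction j generalizing ζ with
  | zero => rw [pow_zero, pow_zero, pow_one]; rfl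
  | succ j ih =>
    rw [pow_succ, AlgEquiv.mul_apply, frob_rootOfUnity hℓ hA hσ hm hζ, map_pow, ih hζ, ← pow_mul,
      ← pow_succ]

/-! ### The `m`-torsion of `J₀(p)` and the Galois action as endomorphisms -/

variable {p : ℕ} [NeZero p]

/-- The `m`-torsion of `J₀(p)(ℚ̄)`. -/
def tors (p m : ℕ) [NeZero p] : Submodule ℤ (JZero p) where
  carrier := {y | m • y = 0}
  zero_mem' := smul_zero m
  add_mem' := by
    intro a b ha hb
    show m • (a + b) = 0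
    rw [nsmul_add, show m • a = 0 from ha, show m • b = 0 from hb, add_zero]
  smul_mem' := by
    intro c x hx
    show m • (c • x) = 0
    rw [smul_comm, show m • x = 0 from hx, smul_zero]

theorem mem_tors {m : ℕ} {y : JZero p} : y ∈ tors p m ↔ m • y = 0 := Iff.rfl

/-- The action of a Galois element, as an endomorphism of `J₀(p)`. -/
def actEnd (σ : GQ) : Module.End ℤ (JZero p) :=
  (DistribSMul.toAddMonoidHom (JZero p) σ).toIntLinearMap

@[simp] theorem actEnd_apply (σ : GQ) (x : JZero p) : actEnd σ x = σ • x := rfl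

theorem actEnd_pow_apply (σ : GQ) (j : ℕ) (x : JZero p) : (actEnd σ ^ j) x = (σ ^ j) • x := by
  induction j generalizing x with
  | zero => rw [pow_zero, pow_zero, one_smul]; rfl
  | succ j ih => rw [pow_succ, Module.End.mul_apply, ih, actEnd_apply, pow_succ, mul_smul]

theorem smul_mem_tors {m : ℕ} (σ : GQ) {x : JZero p} (hx : x ∈ tors p m) : σ • x ∈ tors p m := by
  rw [mem_tors] at hx ⊢
  have h := map_nsmul (DistribSMul.toAddMonoidHom (JZero p) σ) m x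
  rw [hx, map_zero] at h
  exact h.symm

theorem hecke_mem_tors {m : ℕ} (ℓ : Nat.Primes) {x : JZero p} (hx : x ∈ tors p m) :
    heckeOperatorBar p ℓ x ∈ tors p m := by
  rw [mem_tors] at hx ⊢
  rw [← map_nsmul, hx, map_zero]

/-- the Lucas lift of a quadratic relation of a Galois element on the `m`-torsion. -/
theorem pow_rel_apply {m : ℕ} {σ : GQ} {ℓ : Nat.Primes}
    (h : ∀ x : JZero p, m • x = 0 →
      σ • σ • x - heckeOperatorBar p ℓ (σ • x) + (ℓ : ℕ) • x = 0)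
    (j : ℕ) (x : JZero p) (hx : m • x = 0) :
    (σ ^ j) • (σ ^ j) • x -
      lucasV (heckeOperatorBar p ℓ) (((ℓ : ℕ) : ℕ) : Module.End ℤ (JZero p)) j ((σ ^ j) • x) +
      ((ℓ : ℕ) ^ j) • x = 0 := by
  have key := pow_rel_on (tors p m) (actEnd σ) (heckeOperatorBar p ℓ) (ℓ : ℕ)
    (fun y hy => smul_mem_tors σ hy) (fun y hy => hecke_mem_tors ℓ hy)
    (fun y _ => (Fermat.Agent.ES.HECKE.HeckeGalois12.heckeOperatorBar_smul p ℓ σ y).symm)
    (fun y hy => h y hy) j x hx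
  rw [actEnd_pow_apply, actEnd_pow_apply] at key
  exact key

/-! ### The main statement -/

/-- the roots of unity of order dividing `m` are fixed by an open subgroup. -/
theorem hasLevel_rootsOfUnity {m : ℕ} (hm : m ≠ 0) :
    OpenStab12.HasLevel (fun σ => ∀ ζ : Qb, ζ ^ m = 1 → σ ζ = ζ) := by
  refine (OpenStab12.hasLevel_forall_finset (Polynomial.nthRootsFinset m (1 : Qb))
    (fun ζ σ => σ ζ = ζ) fun ζ _ => OpenStab12.hasLevel_const ζ).mono fun σ hσ ζ hζ => hσ ζ ?_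
  rw [Polynomial.mem_nthRootsFinset (Nat.pos_of_ne_zero hm)]
  exact hζ

/-- **EIS-REL, core.**  Every `g ∈ Gal(ℚ̄/ℚ)` satisfies on `J₀(p)[m]` a quadratic relation with
coefficients in the Hecke algebra, lifting `(X - 1)(X - χ(g))`. -/
theorem exists_frobenius_data (hp : p.Prime) {m : ℕ} (hm : m ≠ 0)
    (hfin : {y : JZero p | m • y = 0}.Finite) (g : GQ) :
    ∃ (ℓ : Nat.Primes) (j : ℕ), (ℓ : ℕ) ≠ p ∧ ¬ (ℓ : ℕ) ∣ m ∧
      (∀ ζ : Qb, ζ ^ m = 1 → g ζ = ζ ^ ((ℓ : ℕ) ^ j)) ∧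
      ∀ x : JZero p, m • x = 0 →
        g • g • x - lucasV (heckeOperatorBar p ℓ) (((ℓ : ℕ) : ℕ) : Module.End ℤ (JZero p)) j (g • x)
          + ((ℓ : ℕ) ^ j) • x = 0 := by
  classical
  obtain ⟨L, hL, H⟩ := (OpenStab12.hasLevel_torsion p m hfin).and (hasLevel_rootsOfUnity hm)
  haveI := hL
  obtain ⟨ℓ, A, φ, j, hℓ, hℓT, hA, hφ, hfix⟩ :=
    ChebQbar23.exists_frobenius_inv_mul_pow_fixes L g (insert p m.primeFactors)
  have hℓp : ℓ ≠ p := fun h => hℓT (h ▸ Finset.mem_insert_self _ _)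
  have hℓm : ¬ ℓ ∣ m := fun h =>
    hℓT (Finset.mem_insert_of_mem (Nat.mem_primeFactors.mpr ⟨hℓ, h, hm⟩))
  obtain ⟨H1, H2⟩ := H (g⁻¹ * φ ^ j) hfix
  -- `φ ^ j = g` on the torsion and on the roots of unity
  have hg1 : ∀ y : JZero p, m • y = 0 → (φ ^ j) • y = g • y := by
    intro y hy
    have h := H1 y hy
    rw [mul_smul, inv_smul_eq_iff] at h
    exact h
  have hg2 : ∀ ζ : Qb, ζ ^ m = 1 → (φ ^ j) ζ = g ζ := by
    intro ζ hζ
    have h := H2 ζ hζ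
    rw [AlgEquiv.mul_apply] at h
    have h' := congrArg g h
    rw [← AlgEquiv.mul_apply, mul_inv_cancel, AlgEquiv.one_apply] at h'
    exact h'
  refine ⟨⟨ℓ, hℓ⟩, j, hℓp, hℓm, fun ζ hζ => ?_, fun x hx => ?_⟩
  · rw [← hg2 ζ hζ]
    exact frob_pow_rootOfUnity hℓ hA hφ hℓm j hζ
  · -- the relation on the torsion
    have hrel : ∀ y : JZero p, m • y = 0 →
        φ • φ • y - heckeOperatorBar p ⟨ℓ, hℓ⟩ (φ • y) + ((⟨ℓ, hℓ⟩ : Nat.Primes) : ℕ) • y = 0 :=
      fun y hy => Fermat.Agent.ES.TOP.TorsionGalois12.frobenius_relation hℓ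
        (fun h => hℓp ((Nat.prime_dvd_prime_iff_eq hℓ hp).mp h)) hA hℓm hy hφ
    have key := pow_rel_apply hrel j x hx
    have e1 : (φ ^ j) • x = g • x := hg1 x hx
    have e2 : (φ ^ j) • (g • x) = g • g • x :=
      hg1 (g • x) (mem_tors.mp (smul_mem_tors g (mem_tors.mpr hx)))
    rw [e1, e2] at key
    exact key

/-! ### Complements: the Hecke algebra, the cuspidal class, the packaged form -/

/-- The Lucas lift `V_j(T_ℓ, ℓ)` lies in the Hecke algebra away from `p`. -/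
theorem lucasV_mem_heckeSub (ℓ : Nat.Primes) (hℓ : (ℓ : ℕ) ≠ p) (j : ℕ) :
    lucasV (heckeOperatorBar p ℓ) (((ℓ : ℕ) : ℕ) : Module.End ℤ (JZero p)) j ∈ heckeSub p :=
  lucasV_mem (heckeSub p) (Algebra.subset_adjoin ⟨ℓ, hℓ, rfl⟩) (natCast_mem _ _) j

/-- On an Eisenstein eigenvector (`T_ℓ c = (ℓ + 1) c`, e.g. the cuspidal class:
`CuspBridge55.heckeOperatorBar_pointClass`) the Lucas lift acts as `1 + ℓ ^ j`. -/
theorem lucasV_hecke_apply (ℓ : Nat.Primes) (c : JZero p)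
    (hc : heckeOperatorBar p ℓ c = (((ℓ : ℕ) : ℤ) + 1) • c) (j : ℕ) :
    lucasV (heckeOperatorBar p ℓ) (((ℓ : ℕ) : ℕ) : Module.End ℤ (JZero p)) j c =
      ((1 : ℤ) + ((ℓ : ℕ) : ℤ) ^ j) • c :=
  lucasV_apply_of_eigen _ _ c (by rw [hc, add_comm]) j

/-- **EIS-REL, packaged form** (fields `tau`, `delta`, `rel` of `EisFiltration19.EisData` for
`M = J₀(p)[m]`, `r ∣ m`).  `T` is any commutative ring acting on `J₀(p)` through `ev` such that every
`T_ℓ`, `ℓ ∤ p m`, has a preimage on which the character `π` takes the value `ℓ + 1` (so the Hecke ring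
away from `p r` is enough); `χ` is any map
which computes the action on the `r`-th roots of unity (e.g. `chiMod`). -/
theorem exists_tau_delta (hp : p.Prime) {r : ℕ} {m : ℕ} (hm : m ≠ 0) (hrm : r ∣ m)
    (hfin : {y : JZero p | m • y = 0}.Finite)
    {T : Type*} [CommRing T] (ev : T →+* Module.End ℤ (JZero p)) (π : T →+* ZMod r)
    (hev : ∀ ℓ : Nat.Primes, (ℓ : ℕ) ≠ p → ¬ (ℓ : ℕ) ∣ m →
      ∃ t : T, ev t = heckeOperatorBar p ℓ ∧ π t = ((ℓ : ℕ) : ZMod r) + 1)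
    (χ : GQ → ZMod r)
    (hχ : ∀ (g : GQ) (n : ℕ), (∀ ζ : Qb, ζ ^ r = 1 → g ζ = ζ ^ n) → χ g = (n : ZMod r)) :
    ∃ τ δ : GQ → T, (∀ g, π (τ g) = 1 + χ g) ∧ (∀ g, π (δ g) = χ g) ∧
      ∀ (g : GQ) (x : JZero p), m • x = 0 → g • g • x - ev (τ g) (g • x) + ev (δ g) x = 0 := by
  classical
  choose ℓ j hℓp hℓm hroots hrel using fun g : GQ => exists_frobenius_data hp hm hfin g
  choose t htev htπ using fun g : GQ => hev (ℓ g) (hℓp g) (hℓm g)
  have hχg : ∀ g, χ g = (((ℓ g : ℕ) ^ j g : ℕ) : ZMod r) := fun g =>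
    hχ g _ fun ζ hζ => hroots g ζ (by
      obtain ⟨k, rfl⟩ := hrm
      rw [pow_mul, hζ, one_pow])
  refine ⟨fun g => lucasV (t g) (((ℓ g : ℕ) : ℕ) : T) (j g), fun g => (((ℓ g : ℕ) : ℕ) : T) ^ j g,
    fun g => ?_, fun g => ?_, fun g x hx => ?_⟩
  · show π (lucasV (t g) (((ℓ g : ℕ) : ℕ) : T) (j g)) = 1 + χ g
    rw [map_lucasV, htπ, map_natCast, add_comm, lucasV_one_add, hχg, Nat.cast_pow]
  · show π ((((ℓ g : ℕ) : ℕ) : T) ^ j g) = χ g
    rw [map_pow, map_natCast, hχg, Nat.cast_pow]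
  · show g • g • x - ev (lucasV (t g) (((ℓ g : ℕ) : ℕ) : T) (j g)) (g • x) +
      ev ((((ℓ g : ℕ) : ℕ) : T) ^ j g) x = 0
    rw [map_lucasV, htev, map_natCast, map_pow, map_natCast, ← Nat.cast_pow,
      Module.End.natCast_apply]
    exact hrel g x hx

/-! ### A concrete mod `r` cyclotomic character -/

section Chi

variable (r : ℕ) [NeZero r]

theorem exists_primitiveRoot_qb : ∃ ζ : Qb, IsPrimitiveRoot ζ r :=
  HasEnoughRootsOfUnity.exists_primitiveRoot Qb r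

/-- The mod `r` cyclotomic character `Gal(ℚ̄/ℚ) →* ZMod r`. -/
def chiMod : GQ →* ZMod r :=
  (Units.coeHom (ZMod r)).comp ((exists_primitiveRoot_qb r).choose_spec.autToPow ℚ)

/-- `chiMod` computes the action on the `r`-th roots of unity. -/
theorem chiMod_eq (g : GQ) (n : ℕ) (h : ∀ ζ : Qb, ζ ^ r = 1 → g ζ = ζ ^ n) :
    chiMod r g = (n : ZMod r) := by
  have hζ := (exists_primitiveRoot_qb r).choose_spec
  set ζ := (exists_primitiveRoot_qb r).choose with hζdef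
  have h1 : ζ ^ ((hζ.autToPow ℚ g : (ZMod r)ˣ) : ZMod r).val = g ζ := hζ.autToPow_spec ℚ g
  rw [h ζ hζ.pow_eq_one] at h1
  have h2 := CycloChar8.modEq_of_pow_eq_pow hζ (NeZero.ne r) h1
  have h3 := (ZMod.natCast_eq_natCast_iff _ _ r).mpr h2
  rw [ZMod.natCast_val, ZMod.cast_id] at h3
  exact h3

theorem chiMod_spec (g : GQ) {ζ : Qb} (hζ : ζ ^ r = 1) : g ζ = ζ ^ (chiMod r g).val := by
  have hμ := (exists_primitiveRoot_qb r).choose_spec
  set μ := (exists_primitiveRoot_qb r).choose with hμdef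
  obtain ⟨i, -, rfl⟩ := hμ.eq_pow_of_pow_eq_one hζ
  have h1 : μ ^ ((hμ.autToPow ℚ g : (ZMod r)ˣ) : ZMod r).val = g μ := hμ.autToPow_spec ℚ g
  rw [map_pow, ← h1, ← pow_mul, ← pow_mul, mul_comm]
  rfl

end Chi

end Fermat.Agent.MAZ.Hecke.EisRel55
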