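/-
Program MAZ (S15), G-side, brick EIS-REL part 4 (helper55): THE INTEGER FORM OF `δ`.

`EisRel55.exists_tau_delta` produces `τ δ : G_ℚ → T` with `g² - τ_g g + δ_g = 0` on `J₀(p)[m]`.
In its proof `δ_g` is the natural number `u g = ℓ ^ j` (`g = Frob_ℓ ^ j` on the relevant number
field), and `g ζ = ζ ^ (u g)` on the `m`-th roots of unity.  This file exports that integer:

* `exists_tau_delta_nat` : `τ δ` together with `u : G_ℚ → ℕ`, `δ g = (u g : T)`,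
  `g ζ = ζ ^ (u g)` on `μ_m`, `(u g : ZMod r) = χ g`        (the `hδ` input of the DUAL route);
* general facts on any `u` with `g ζ = ζ ^ (u g)` on `μ_m`: `u` is multiplicative modulo `m`
  (`modEq_mul_of_roots`), prime to `m` (`coprime_of_roots`), `≡ 1` on the inertia groups at the primes
  not dividing `m` (`modEq_one_of_mem_inertia`), and equal to `1` modulo `m` at `1`;
* hence, for `δ g = (u g : T)` acting through `ev` on the `m`-torsion: `ev (δ g) x = u g • x`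
  (`ev_natCast_apply`), **(d1)** `ev (δ (g h)) x = ev (δ g) (ev (δ h) x)` (`ev_delta_mul`) and
  **(d2)** `ev (δ σ) x = x` for `σ` in an inertia group at `q ∤ m` (`ev_delta_inertia`);
* the same three facts on an ARBITRARY `T`-module killed by `m` (`delta_smul`, `delta_mul_smul`,
  `delta_inertia_smul`, `delta_one_smul`, `delta_inv_smul`), for the subquotients of `J₀(p)[m]`;
* `exists_tau_delta_full` : everything in one statement.
-/
import Mathlib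
import Fermat.Agent.MAZ.Hecke.EisRel55

set_option autoImplicit false
set_option linter.unusedSectionVars false
set_option linter.style.haveILetI false
set_option synthInstance.maxHeartbeats 400000

open AlgebraicCurve ModularCurve

noncomputable section

namespace Fermat.Agent.MAZ.Hecke.EisRelInt55

open Fermat.Agent.MAZ.Spec.XSpec62 Fermat.Agent.MAZ.Hecke.LucasRel55
open Fermat.Agent.MAZ.Hecke.EisRel55
open Fermat.Agent.ES.J Fermat.Agent.ES.GAL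

/-! ### Integers acting on roots of unity -/

section Roots

variable {m : ℕ}

/-- an exponent computing the action of `g` on `μ_m` is multiplicative modulo `m`. -/
theorem modEq_mul_of_roots (hm : m ≠ 0) {g h : GQ} {a b c : ℕ}
    (ha : ∀ ζ : Qb, ζ ^ m = 1 → g ζ = ζ ^ a) (hb : ∀ ζ : Qb, ζ ^ m = 1 → h ζ = ζ ^ b)
    (hc : ∀ ζ : Qb, ζ ^ m = 1 → (g * h) ζ = ζ ^ c) : c ≡ a * b [MOD m] := by
  haveI : NeZero m := ⟨hm⟩
  obtain ⟨ζ, hζ⟩ := HasEnoughRootsOfUnity.exists_primitiveRoot Qb m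
  have h1 : ζ ^ c = ζ ^ (a * b) := by
    rw [← hc ζ hζ.pow_eq_one, AlgEquiv.mul_apply, hb ζ hζ.pow_eq_one, map_pow,
      ha ζ hζ.pow_eq_one, ← pow_mul]
  exact CycloChar8.modEq_of_pow_eq_pow hζ hm h1

/-- two exponents computing the action of the same `g` on `μ_m` are congruent modulo `m`. -/
theorem modEq_of_roots (hm : m ≠ 0) {g : GQ} {a b : ℕ}
    (ha : ∀ ζ : Qb, ζ ^ m = 1 → g ζ = ζ ^ a) (hb : ∀ ζ : Qb, ζ ^ m = 1 → g ζ = ζ ^ b) :
    a ≡ b [MOD m] := by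
  haveI : NeZero m := ⟨hm⟩
  obtain ⟨ζ, hζ⟩ := HasEnoughRootsOfUnity.exists_primitiveRoot Qb m
  have h1 : ζ ^ a = ζ ^ b := by rw [← ha ζ hζ.pow_eq_one, hb ζ hζ.pow_eq_one]
  exact CycloChar8.modEq_of_pow_eq_pow hζ hm h1

/-- an exponent computing the action of an automorphism fixing `μ_m` is `≡ 1` modulo `m`. -/
theorem modEq_one_of_fixes (hm : m ≠ 0) {g : GQ} {a : ℕ}
    (ha : ∀ ζ : Qb, ζ ^ m = 1 → g ζ = ζ ^ a) (hfix : ∀ ζ : Qb, ζ ^ m = 1 → g ζ = ζ) :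
    a ≡ 1 [MOD m] :=
  modEq_of_roots hm ha fun ζ hζ => by rw [hfix ζ hζ, pow_one]

/-- an exponent computing the action of `1` on `μ_m` is `≡ 1` modulo `m`. -/
theorem modEq_one_of_roots_one (hm : m ≠ 0) {a : ℕ}
    (ha : ∀ ζ : Qb, ζ ^ m = 1 → (1 : GQ) ζ = ζ ^ a) : a ≡ 1 [MOD m] :=
  modEq_one_of_fixes hm ha fun _ _ => rfl

/-- an exponent computing the action of `g` on `μ_m` is prime to `m`. -/
theorem coprime_of_roots (hm : m ≠ 0) {g : GQ} {a : ℕ}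
    (ha : ∀ ζ : Qb, ζ ^ m = 1 → g ζ = ζ ^ a) : a.Coprime m := by
  haveI : NeZero m := ⟨hm⟩
  obtain ⟨ζ, hζ⟩ := HasEnoughRootsOfUnity.exists_primitiveRoot Qb m
  have hgζ : IsPrimitiveRoot (g ζ) m := hζ.map_of_injective g.injective
  rw [ha ζ hζ.pow_eq_one] at hgζ
  exact (hζ.pow_iff_coprime (Nat.pos_of_ne_zero hm) a).mp hgζ

/-- the inertia group at `𝔄 ∣ q`, `q ∤ m`, fixes the `m`-th roots of unity. -/
theorem inertia_fixes_roots {q : ℕ} (hq : q.Prime) (hqm : ¬ q ∣ m)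
    (𝔄 : ValuationSubring Qb) (h𝔄 : 𝔄.LiesOverPrime q) {σ : GQ} (hσ : σ ∈ 𝔄.inertiaSubgroupIn ℚ)
    {ζ : Qb} (hζ : ζ ^ m = 1) : σ ζ = ζ := by
  have hm : m ≠ 0 := fun h0 => hqm (h0 ▸ dvd_zero q)
  have hζ0 : ζ ≠ 0 := by
    rintro rfl
    rw [zero_pow hm] at hζ
    exact zero_ne_one hζ
  have hζA : ζ ∈ 𝔄 := CycloChar8.mem_of_pow_eq_one hm hζ
  have h1 := Fermat.Agent.S05.Inertia.apply_sub_mem_nonunits hσ hζA
  have hσζ : (σ ζ) ^ m = 1 := by rw [← map_pow, hζ, map_one]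
  have hη : (σ ζ * ζ⁻¹) ^ m = 1 := by
    rw [mul_pow, hσζ, inv_pow, hζ, inv_one, mul_one]
  have hvinv : 𝔄.valuation (ζ⁻¹) = 1 := by
    rw [map_inv₀, CycloChar8.valuation_eq_one_of_pow_eq_one hm hζ, inv_one]
  have hη1 : σ ζ * ζ⁻¹ - 1 ∈ 𝔄.nonunits := by
    have e : σ ζ * ζ⁻¹ - 1 = (σ ζ - ζ) * ζ⁻¹ := by
      rw [sub_mul, mul_inv_cancel₀ hζ0]
    rw [e, ValuationSubring.mem_nonunits_iff, map_mul, hvinv, mul_one]
    exact (ValuationSubring.mem_nonunits_iff (A := 𝔄)).mp h1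
  have h2 := CycloChar8.eq_one_of_sub_one_mem_nonunits hq h𝔄 hqm hη hη1
  have := congrArg (· * ζ) h2
  simpa [mul_assoc, inv_mul_cancel₀ hζ0] using this

/-- an exponent computing the action of an inertia element at `q ∤ m` on `μ_m` is `≡ 1` mod `m`. -/
theorem modEq_one_of_mem_inertia {q : ℕ} (hq : q.Prime) (hqm : ¬ q ∣ m)
    (𝔄 : ValuationSubring Qb) (h𝔄 : 𝔄.LiesOverPrime q) {σ : GQ} (hσ : σ ∈ 𝔄.inertiaSubgroupIn ℚ)
    {a : ℕ} (ha : ∀ ζ : Qb, ζ ^ m = 1 → σ ζ = ζ ^ a) : a ≡ 1 [MOD m] :=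
  modEq_one_of_fixes (fun h0 : m = 0 => hqm (h0 ▸ dvd_zero q)) ha
    fun _ hζ => inertia_fixes_roots hq hqm 𝔄 h𝔄 hσ hζ

/-- the mod `m` cyclotomic character `chiMod m` is trivial on the inertia groups at `q ∤ m`. -/
theorem chiMod_eq_one_of_mem_inertia [NeZero m] {q : ℕ} (hq : q.Prime) (hqm : ¬ q ∣ m)
    (𝔄 : ValuationSubring Qb) (h𝔄 : 𝔄.LiesOverPrime q) {σ : GQ}
    (hσ : σ ∈ 𝔄.inertiaSubgroupIn ℚ) : chiMod m σ = 1 := by
  have h := chiMod_eq m σ 1 fun ζ hζ => by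
    rw [inertia_fixes_roots hq hqm 𝔄 h𝔄 hσ hζ, pow_one]
  rw [h, Nat.cast_one]

/-- on an element killed by `m`, multiplication by a natural number only depends on its class
modulo `m`. -/
theorem nsmul_eq_of_modEq {N : Type*} [AddCommMonoid N] {x : N} (hx : m • x = 0) {a b : ℕ}
    (hab : a ≡ b [MOD m]) : a • x = b • x := by
  have key : ∀ c : ℕ, c • x = (c % m) • x := by
    intro c
    conv_lhs => rw [← Nat.mod_add_div c m, add_nsmul, mul_nsmul, hx, smul_zero, add_zero]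
  rw [key a, key b, hab]

end Roots

/-! ### The integer form of EIS-REL -/

variable {p : ℕ} [NeZero p]

/-- **EIS-REL, integer form** (the `hδ` input of the DUAL route): the packaged form of
`EisRel55.exists_tau_delta` together with the natural number `u g` (`= ℓ ^ j`) such that
`δ g = (u g : T)` and `g ζ = ζ ^ (u g)` for every `m`-th root of unity `ζ`. -/
theorem exists_tau_delta_nat (hp : p.Prime) {r m : ℕ} (hm : m ≠ 0) (hrm : r ∣ m)
    (hfin : {y : JZero p | m • y = 0}.Finite)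
    {T : Type*} [CommRing T] (ev : T →+* Module.End ℤ (JZero p)) (π : T →+* ZMod r)
    (hev : ∀ ℓ : Nat.Primes, (ℓ : ℕ) ≠ p → ¬ (ℓ : ℕ) ∣ m →
      ∃ t : T, ev t = heckeOperatorBar p ℓ ∧ π t = ((ℓ : ℕ) : ZMod r) + 1)
    (χ : GQ → ZMod r)
    (hχ : ∀ (g : GQ) (n : ℕ), (∀ ζ : Qb, ζ ^ r = 1 → g ζ = ζ ^ n) → χ g = (n : ZMod r)) :
    ∃ (τ δ : GQ → T) (u : GQ → ℕ), (∀ g, π (τ g) = 1 + χ g) ∧ (∀ g, π (δ g) = χ g) ∧
      (∀ g, (u g : ZMod r) = χ g) ∧ (∀ g, ∀ ζ : Qb, ζ ^ m = 1 → g ζ = ζ ^ (u g)) ∧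
      (∀ g, δ g = ((u g : ℕ) : T)) ∧
      ∀ (g : GQ) (x : JZero p), m • x = 0 → g • g • x - ev (τ g) (g • x) + ev (δ g) x = 0 := by
  classical
  choose ℓ j hℓp hℓm hroots hrel using fun g : GQ => exists_frobenius_data hp hm hfin g
  choose t htev htπ using fun g : GQ => hev (ℓ g) (hℓp g) (hℓm g)
  have hχg : ∀ g, χ g = (((ℓ g : ℕ) ^ j g : ℕ) : ZMod r) := fun g =>
    hχ g _ fun ζ hζ => hroots g ζ (by
      obtain ⟨k, rfl⟩ := hrm
      rw [pow_mul, hζ, one_pow])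
  refine ⟨fun g => lucasV (t g) (((ℓ g : ℕ) : ℕ) : T) (j g), fun g => (((ℓ g : ℕ) : ℕ) : T) ^ j g,
    fun g => (ℓ g : ℕ) ^ j g, fun g => ?_, fun g => ?_, fun g => (hχg g).symm, hroots,
    fun g => (Nat.cast_pow _ _).symm, fun g x hx => ?_⟩
  · show π (lucasV (t g) (((ℓ g : ℕ) : ℕ) : T) (j g)) = 1 + χ g
    rw [map_lucasV, htπ, map_natCast, add_comm, lucasV_one_add, hχg, Nat.cast_pow]
  · show π ((((ℓ g : ℕ) : ℕ) : T) ^ j g) = χ g
    rw [map_pow, map_natCast, hχg, Nat.cast_pow]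
  · show g • g • x - ev (lucasV (t g) (((ℓ g : ℕ) : ℕ) : T) (j g)) (g • x) +
      ev ((((ℓ g : ℕ) : ℕ) : T) ^ j g) x = 0
    rw [map_lucasV, htev, map_natCast, map_pow, map_natCast, ← Nat.cast_pow,
      Module.End.natCast_apply]
    exact hrel g x hx

/-! ### Consequences for `δ g = (u g : T)` -/

section Delta

variable {T : Type*} [CommRing T] (ev : T →+* Module.End ℤ (JZero p))

/-- a natural number of `T` acts through `ev` as that natural number. -/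
theorem ev_natCast_apply (n : ℕ) (x : JZero p) : ev (n : T) x = n • x := by
  rw [map_natCast, Module.End.natCast_apply]

variable {ev} {m : ℕ} {δ : GQ → T} {u : GQ → ℕ}

/-- `δ g` acts on `J₀(p)` as the integer `u g`. -/
theorem ev_delta_apply (hδ : ∀ g, δ g = ((u g : ℕ) : T)) (g : GQ) (x : JZero p) :
    ev (δ g) x = u g • x := by
  rw [hδ g, ev_natCast_apply]

/-- **(d1)** `δ` is multiplicative on the `m`-torsion. -/
theorem ev_delta_mul (hm : m ≠ 0) (hδ : ∀ g, δ g = ((u g : ℕ) : T))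
    (hu : ∀ g, ∀ ζ : Qb, ζ ^ m = 1 → g ζ = ζ ^ (u g)) (g h : GQ) {x : JZero p}
    (hx : m • x = 0) : ev (δ (g * h)) x = ev (δ g) (ev (δ h) x) := by
  rw [ev_delta_apply hδ, ev_delta_apply hδ, ev_delta_apply hδ, ← mul_nsmul']
  exact nsmul_eq_of_modEq hx (modEq_mul_of_roots hm (hu g) (hu h) (hu (g * h)))

/-- `δ 1` is the identity on the `m`-torsion. -/
theorem ev_delta_one (hm : m ≠ 0) (hδ : ∀ g, δ g = ((u g : ℕ) : T))
    (hu : ∀ g, ∀ ζ : Qb, ζ ^ m = 1 → g ζ = ζ ^ (u g)) {x : JZero p}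
    (hx : m • x = 0) : ev (δ 1) x = x := by
  rw [ev_delta_apply hδ, nsmul_eq_of_modEq hx (modEq_one_of_roots_one hm (hu 1)), one_nsmul]

/-- **(d2)** `δ σ` is the identity on the `m`-torsion for `σ` in an inertia group at `q ∤ m`. -/
theorem ev_delta_inertia (hδ : ∀ g, δ g = ((u g : ℕ) : T))
    (hu : ∀ g, ∀ ζ : Qb, ζ ^ m = 1 → g ζ = ζ ^ (u g)) {q : ℕ} (hq : q.Prime) (hqm : ¬ q ∣ m)
    (𝔄 : ValuationSubring Qb) (h𝔄 : 𝔄.LiesOverPrime q) {σ : GQ}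
    (hσ : σ ∈ 𝔄.inertiaSubgroupIn ℚ) {x : JZero p} (hx : m • x = 0) : ev (δ σ) x = x := by
  rw [ev_delta_apply hδ,
    nsmul_eq_of_modEq hx (modEq_one_of_mem_inertia hq hqm 𝔄 h𝔄 hσ (hu σ)), one_nsmul]

end Delta

/-! ### The same on an arbitrary `T`-module killed by `m`

(for the subquotients of `J₀(p)[m]`: the clause `δ g = (u g : T)` makes everything intrinsic) -/

section Module

variable {T : Type*} [CommRing T] {N : Type*} [AddCommGroup N] [Module T N]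
  {m : ℕ} {δ : GQ → T} {u : GQ → ℕ}

/-- `δ g` acts on every `T`-module as the integer `u g`. -/
theorem delta_smul (hδ : ∀ g, δ g = ((u g : ℕ) : T)) (g : GQ) (x : N) : δ g • x = u g • x := by
  rw [hδ g, Nat.cast_smul_eq_nsmul]

/-- **(d1)** `δ` is multiplicative on every `T`-module killed by `m`. -/
theorem delta_mul_smul (hm : m ≠ 0) (hδ : ∀ g, δ g = ((u g : ℕ) : T))
    (hu : ∀ g, ∀ ζ : Qb, ζ ^ m = 1 → g ζ = ζ ^ (u g)) (g h : GQ) {x : N}
    (hx : m • x = 0) : δ (g * h) • x = δ g • δ h • x := by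
  rw [delta_smul hδ, delta_smul hδ, delta_smul hδ, ← mul_nsmul']
  exact nsmul_eq_of_modEq hx (modEq_mul_of_roots hm (hu g) (hu h) (hu (g * h)))

/-- `δ 1` is the identity on every `T`-module killed by `m`. -/
theorem delta_one_smul (hm : m ≠ 0) (hδ : ∀ g, δ g = ((u g : ℕ) : T))
    (hu : ∀ g, ∀ ζ : Qb, ζ ^ m = 1 → g ζ = ζ ^ (u g)) {x : N}
    (hx : m • x = 0) : δ 1 • x = x := by
  rw [delta_smul hδ, nsmul_eq_of_modEq hx (modEq_one_of_roots_one hm (hu 1)), one_nsmul]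

/-- **(d2)** `δ σ` is the identity on every `T`-module killed by `m`, for `σ` in an inertia group at
`q ∤ m`. -/
theorem delta_inertia_smul (hδ : ∀ g, δ g = ((u g : ℕ) : T))
    (hu : ∀ g, ∀ ζ : Qb, ζ ^ m = 1 → g ζ = ζ ^ (u g)) {q : ℕ} (hq : q.Prime) (hqm : ¬ q ∣ m)
    (𝔄 : ValuationSubring Qb) (h𝔄 : 𝔄.LiesOverPrime q) {σ : GQ}
    (hσ : σ ∈ 𝔄.inertiaSubgroupIn ℚ) {x : N} (hx : m • x = 0) : δ σ • x = x := by
  rw [delta_smul hδ,
    nsmul_eq_of_modEq hx (modEq_one_of_mem_inertia hq hqm 𝔄 h𝔄 hσ (hu σ)), one_nsmul]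

/-- `δ g` is invertible on every `T`-module killed by `m`: `δ g⁻¹` is its inverse. -/
theorem delta_inv_smul (hm : m ≠ 0) (hδ : ∀ g, δ g = ((u g : ℕ) : T))
    (hu : ∀ g, ∀ ζ : Qb, ζ ^ m = 1 → g ζ = ζ ^ (u g)) (g : GQ) {x : N}
    (hx : m • x = 0) : δ g⁻¹ • δ g • x = x := by
  rw [← delta_mul_smul hm hδ hu g⁻¹ g hx, inv_mul_cancel, delta_one_smul hm hδ hu hx]

end Module

/-- **EIS-REL, full form**: `τ`, `δ`, the integers `u g`, the relation, and (d1), (d2) for `δ` on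
the `m`-torsion, in one statement. -/
theorem exists_tau_delta_full (hp : p.Prime) {r m : ℕ} (hm : m ≠ 0) (hrm : r ∣ m)
    (hfin : {y : JZero p | m • y = 0}.Finite)
    {T : Type*} [CommRing T] (ev : T →+* Module.End ℤ (JZero p)) (π : T →+* ZMod r)
    (hev : ∀ ℓ : Nat.Primes, (ℓ : ℕ) ≠ p → ¬ (ℓ : ℕ) ∣ m →
      ∃ t : T, ev t = heckeOperatorBar p ℓ ∧ π t = ((ℓ : ℕ) : ZMod r) + 1)
    (χ : GQ → ZMod r)
    (hχ : ∀ (g : GQ) (n : ℕ), (∀ ζ : Qb, ζ ^ r = 1 → g ζ = ζ ^ n) → χ g = (n : ZMod r)) :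
    ∃ (τ δ : GQ → T) (u : GQ → ℕ), (∀ g, π (τ g) = 1 + χ g) ∧ (∀ g, π (δ g) = χ g) ∧
      (∀ g, (u g : ZMod r) = χ g) ∧ (∀ g, ∀ ζ : Qb, ζ ^ m = 1 → g ζ = ζ ^ (u g)) ∧
      (∀ g, δ g = ((u g : ℕ) : T)) ∧
      (∀ (g : GQ) (x : JZero p), m • x = 0 →
        g • g • x - ev (τ g) (g • x) + ev (δ g) x = 0) ∧
      (∀ (g : GQ) (x : JZero p), ev (δ g) x = u g • x) ∧
      (∀ (g h : GQ) (x : JZero p), m • x = 0 → ev (δ (g * h)) x = ev (δ g) (ev (δ h) x)) ∧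
      ∀ (q : ℕ), q.Prime → ¬ q ∣ m → ∀ 𝔄 : ValuationSubring Qb, 𝔄.LiesOverPrime q →
        ∀ σ ∈ 𝔄.inertiaSubgroupIn ℚ, ∀ x : JZero p, m • x = 0 → ev (δ σ) x = x := by
  obtain ⟨τ, δ, u, h1, h2, h3, h4, h5, h6⟩ := exists_tau_delta_nat hp hm hrm hfin ev π hev χ hχ
  exact ⟨τ, δ, u, h1, h2, h3, h4, h5, h6, fun g x => ev_delta_apply h5 g x,
    fun g h x hx => ev_delta_mul hm h5 h4 g h hx,
    fun q hq hqm 𝔄 h𝔄 σ hσ x hx => ev_delta_inertia h5 h4 hq hqm 𝔄 h𝔄 hσ hx⟩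

end Fermat.Agent.MAZ.Hecke.EisRelInt55
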