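/-
Program MAZ (S15), G-side, brick EIS-REL part 3 (helper55): `EisFiltration19.EisData` FOR ANY GALOIS
AND HECKE STABLE PIECE OF `J₀(p)[m]` (line (D2) of the G-side table `GSpec26`).

`T` is any commutative ring acting on `J₀(p)(ℚ̄)` through `ev : T →+* End` such that every `T_ℓ`,
`ℓ ∤ p m`, has a preimage on which the character `π : T →+* ZMod r` takes the value `ℓ + 1` (e.g.
`T = ↥(heckeSub p)`, `π = EisChar71.eisChar`, by `eisChar_eq_of_coe_eq`); `M` is any type with
commuting actions of `Gal(ℚ̄/ℚ)` and `T` and an equivariant injection `ι : M → J₀(p)[m]`, `r ∣ m`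
(e.g. the `ker π`-primary part of `J₀(p)[r ^ k]`), on which a power of `ker π` acts as zero.  Then
`EisData π (chiMod r) τ δ M` holds for suitable `τ δ : G_ℚ → T`, so that `EisFiltration19` /
`Devissage95` apply to `M`.
-/
import Mathlib
import Fermat.Agent.MAZ.Hecke.EisRel55
import Fermat.Agent.MAZ.Desc.EisFiltration19

set_option autoImplicit false
set_option linter.unusedSectionVars false
set_option linter.style.haveILetI false

open AlgebraicCurve ModularCurve

noncomputable section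

namespace Fermat.Agent.MAZ.Hecke.EisData55

open Fermat.Agent.MAZ.Spec.XSpec62 Fermat.Agent.MAZ.Hecke.EisRel55
open Fermat.Agent.MAZ.Desc.EisFiltration19

variable {p : ℕ} [NeZero p]

/-- **(D2)** the Eichler–Shimura data on a stable piece of `J₀(p)[m]`. -/
theorem exists_eisData (hp : p.Prime) {r : ℕ} [Fact r.Prime] {m : ℕ} (hm : m ≠ 0) (hrm : r ∣ m)
    (hfin : {y : JZero p | m • y = 0}.Finite)
    {T : Type*} [CommRing T] (ev : T →+* Module.End ℤ (JZero p)) (π : T →+* ZMod r)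
    (hev : ∀ ℓ : Nat.Primes, (ℓ : ℕ) ≠ p → ¬ (ℓ : ℕ) ∣ m →
      ∃ t : T, ev t = heckeOperatorBar p ℓ ∧ π t = ((ℓ : ℕ) : ZMod r) + 1)
    {M : Type*} [AddCommGroup M] [DistribMulAction GQ M] [Module T M]
    (ι : M →+ JZero p) (hι : Function.Injective ι)
    (hιG : ∀ (g : GQ) (x : M), ι (g • x) = g • ι x)
    (hιT : ∀ (t : T) (x : M), ι (t • x) = ev t (ι x))
    (hιm : ∀ x : M, m • ι x = 0)
    (hnil : ∃ n : ℕ, ∀ t ∈ (RingHom.ker π) ^ n, ∀ x : M, t • x = 0) :
    ∃ τ δ : GQ → T, EisData π (chiMod r) τ δ M := by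
  obtain ⟨τ, δ, hτ, hδ, hrel⟩ := exists_tau_delta hp hm hrm hfin ev π hev (chiMod r)
    (fun g n h => chiMod_eq r g n h)
  refine ⟨τ, δ, hnil, hτ, hδ, fun g x => hι ?_⟩
  rw [map_add, map_sub, map_zero, hιG, hιG, hιT, hιT, hιG]
  exact hrel g (ι x) (hιm x)

end Fermat.Agent.MAZ.Hecke.EisData55
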