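/-
Program MAZ (S15), G-side, brick EIS-REL part 5 (helper55): `EisData` WITH THE INTEGER FORM OF `δ`,
ON ANY GALOIS AND HECKE STABLE PIECE OF `J₀(p)[m]` — the inputs of
* the DUAL route (`DescentAsmDual2` / `BoundedUnram2.card_le_of_inertia_trivial`: hypothesis
  `hδ : ∀ g, ∃ u : ℕ, (u : ZMod r) = χ g ∧ (∀ c : C, g • c = u • c) ∧ ∀ x, δ g • x = u • x`, with
  `C := MuModule11.Mu m`);
* the finite-level toric route (`ToricAlg50.CHData`: fields `rel`, `dmul`, `dsig`; the field `nil2`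
  stays a hypothesis, it is QUAD-J).

`exists_eisData_nat` is `EisData55.exists_eisData` together with `u : G_ℚ → ℕ` such that
`δ g = (u g : T)`, `g ζ = ζ ^ (u g)` on `μ_m`, `(u g : ZMod r) = chiMod r g`; the clause
`δ g = (u g : T)` makes `hδ`, (d1), (d2) available on EVERY `T`-module killed by `m`
(`EisRelInt55.delta_smul`, `delta_mul_smul`, `delta_inertia_smul`), in particular on all the
subquotients of `M`; the `τ, δ` are the same for all the inertia elements `σ`.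
-/
import Mathlib
import Fermat.Agent.MAZ.Hecke.EisRelInt55
import Fermat.Agent.MAZ.Hecke.EisData55
import Fermat.Agent.MAZ.Desc.MuModule11
import Fermat.Agent.MAZ.Desc.ToricAlg50

set_option autoImplicit false
set_option linter.unusedSectionVars false
set_option linter.style.haveILetI false

open AlgebraicCurve ModularCurve

noncomputable section

namespace Fermat.Agent.MAZ.Hecke.EisDataInt55

open Fermat.Agent.MAZ.Spec.XSpec62 Fermat.Agent.MAZ.Hecke.EisRel55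
open Fermat.Agent.MAZ.Hecke.EisRelInt55
open Fermat.Agent.MAZ.Desc.EisFiltration19 Fermat.Agent.MAZ.Desc.MuModule11
open Fermat.Agent.MAZ.Desc.ToricAlg50

/-! ### `μ_m` as a module: `g` acts as `u g` -/

/-- an exponent computing the action of `g` on the `m`-th roots of unity computes its action on the
module `Mu m` of `MuModule11`. -/
theorem smul_mu_eq {m : ℕ} {g : GQ} {a : ℕ} (ha : ∀ ζ : Qb, ζ ^ m = 1 → g ζ = ζ ^ a)
    (c : Mu m) : g • c = a • c := by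
  apply Mu.val_injective
  rw [Mu.val_smul, Mu.val_nsmul]
  exact ha _ c.val_pow

variable {p : ℕ} [NeZero p]

/-- **(D2), integer form**: the Eichler–Shimura data on a stable piece `M` of `J₀(p)[m]` together with
the integers `u g`: `δ g = (u g : T)`, `g = u g` on `μ_m`, `u g ≡ χ(g)` modulo `r`; on `M`,
`δ g = u g`, `δ` is multiplicative (d1) and `δ σ = 1` for `σ` in an inertia group at `q ∤ m`
(d2). -/
theorem exists_eisData_nat (hp : p.Prime) {r : ℕ} [Fact r.Prime] {m : ℕ} (hm : m ≠ 0) (hrm : r ∣ m)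
    (hfin : {y : JZero p | m • y = 0}.Finite)
    {T : Type*} [CommRing T] (ev : T →+* Module.End ℤ (JZero p)) (π : T →+* ZMod r)
    (hev : ∀ ℓ : Nat.Primes, (ℓ : ℕ) ≠ p → ¬ (ℓ : ℕ) ∣ m →
      ∃ t : T, ev t = heckeOperatorBar p ℓ ∧ π t = ((ℓ : ℕ) : ZMod r) + 1)
    {M : Type*} [AddCommGroup M] [DistribMulAction GQ M] [Module T M]
    (ι : M →+ JZero p) (hι : Function.Injective ι)
    (hιG : ∀ (g : GQ) (x : M), ι (g • x) = g • ι x)
    (hιT : ∀ (t : T) (x : M), ι (t • x) = ev t (ι x))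
    (hιm : ∀ x : M, m • ι x = 0)
    (hnil : ∃ n : ℕ, ∀ t ∈ (RingHom.ker π) ^ n, ∀ x : M, t • x = 0) :
    ∃ (τ δ : GQ → T) (u : GQ → ℕ), EisData π (chiMod r) τ δ M ∧
      (∀ g, (u g : ZMod r) = chiMod r g) ∧
      (∀ g, ∀ ζ : Qb, ζ ^ m = 1 → g ζ = ζ ^ (u g)) ∧
      (∀ g, δ g = ((u g : ℕ) : T)) ∧
      (∀ (g : GQ) (x : M), δ g • x = u g • x) ∧
      (∀ (g h : GQ) (x : M), δ (g * h) • x = δ g • δ h • x) ∧
      ∀ (q : ℕ), q.Prime → ¬ q ∣ m → ∀ 𝔄 : ValuationSubring Qb, 𝔄.LiesOverPrime q →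
        ∀ σ ∈ 𝔄.inertiaSubgroupIn ℚ, ∀ x : M, δ σ • x = x := by
  obtain ⟨τ, δ, u, hτ, hδ, hu, hroots, hδu, hrel⟩ :=
    exists_tau_delta_nat hp hm hrm hfin ev π hev (chiMod r) (fun g n h => chiMod_eq r g n h)
  have hMm : ∀ x : M, m • x = 0 := fun x => hι (by rw [map_nsmul, hιm, map_zero])
  refine ⟨τ, δ, u, ⟨hnil, hτ, hδ, fun g x => hι ?_⟩, hu, hroots, hδu,
    fun g x => delta_smul hδu g x, fun g h x => delta_mul_smul hm hδu hroots g h (hMm x),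
    fun q hq hqm 𝔄 h𝔄 σ hσ x => delta_inertia_smul hδu hroots hq hqm 𝔄 h𝔄 hσ (hMm x)⟩
  rw [map_add, map_sub, map_zero, hιG, hιG, hιT, hιT, hιG]
  exact hrel g (ι x) (hιm x)

/-- **(D2), DUAL form**: the Eichler–Shimura data on `M` with the hypothesis `hδ` of
`DescentAsmDual2.card_primaryPart_H1S_le_dual` / `BoundedUnram2.card_le_of_inertia_trivial` for
`C := Mu m`, literally. -/
theorem exists_eisData_dual (hp : p.Prime) {r : ℕ} [Fact r.Prime] {m : ℕ} (hm : m ≠ 0)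
    (hrm : r ∣ m) (hfin : {y : JZero p | m • y = 0}.Finite)
    {T : Type*} [CommRing T] (ev : T →+* Module.End ℤ (JZero p)) (π : T →+* ZMod r)
    (hev : ∀ ℓ : Nat.Primes, (ℓ : ℕ) ≠ p → ¬ (ℓ : ℕ) ∣ m →
      ∃ t : T, ev t = heckeOperatorBar p ℓ ∧ π t = ((ℓ : ℕ) : ZMod r) + 1)
    {M : Type*} [AddCommGroup M] [DistribMulAction GQ M] [Module T M]
    (ι : M →+ JZero p) (hι : Function.Injective ι)
    (hιG : ∀ (g : GQ) (x : M), ι (g • x) = g • ι x)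
    (hιT : ∀ (t : T) (x : M), ι (t • x) = ev t (ι x))
    (hιm : ∀ x : M, m • ι x = 0)
    (hnil : ∃ n : ℕ, ∀ t ∈ (RingHom.ker π) ^ n, ∀ x : M, t • x = 0) :
    ∃ τ δ : GQ → T, EisData π (chiMod r) τ δ M ∧
      (∀ g : GQ, ∃ u : ℕ, (u : ZMod r) = chiMod r g ∧ (∀ c : Mu m, g • c = u • c) ∧
        ∀ x : M, δ g • x = u • x) ∧
      (∀ g : GQ, ∃ u : ℕ, δ g = ((u : ℕ) : T) ∧ (u : ZMod r) = chiMod r g ∧
        ∀ c : Mu m, g • c = u • c) := by
  obtain ⟨τ, δ, u, E, hu, hroots, hδu, hδM, -, -⟩ :=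
    exists_eisData_nat hp hm hrm hfin ev π hev ι hι hιG hιT hιm hnil
  exact ⟨τ, δ, E, fun g => ⟨u g, hu g, smul_mu_eq (hroots g), hδM g⟩,
    fun g => ⟨u g, hδu g, hu g, smul_mu_eq (hroots g)⟩⟩

/-- **(D2), toric form**: the Eichler–Shimura data on `M` and, for EVERY inertia element `σ` at a
prime `q ∤ m` with `(σ - 1)² = 0` on `M`, the Cayley–Hamilton data `ToricAlg50.CHData τ δ σ M` — with
the same `τ, δ` for all `σ`. -/
theorem exists_chData (hp : p.Prime) {r : ℕ} [Fact r.Prime] {m : ℕ} (hm : m ≠ 0)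
    (hrm : r ∣ m) (hfin : {y : JZero p | m • y = 0}.Finite)
    {T : Type*} [CommRing T] (ev : T →+* Module.End ℤ (JZero p)) (π : T →+* ZMod r)
    (hev : ∀ ℓ : Nat.Primes, (ℓ : ℕ) ≠ p → ¬ (ℓ : ℕ) ∣ m →
      ∃ t : T, ev t = heckeOperatorBar p ℓ ∧ π t = ((ℓ : ℕ) : ZMod r) + 1)
    {M : Type*} [AddCommGroup M] [DistribMulAction GQ M] [Module T M] [SMulCommClass GQ T M]
    (ι : M →+ JZero p) (hι : Function.Injective ι)
    (hιG : ∀ (g : GQ) (x : M), ι (g • x) = g • ι x)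
    (hιT : ∀ (t : T) (x : M), ι (t • x) = ev t (ι x))
    (hιm : ∀ x : M, m • ι x = 0)
    (hnil : ∃ n : ℕ, ∀ t ∈ (RingHom.ker π) ^ n, ∀ x : M, t • x = 0) :
    ∃ (τ δ : GQ → T) (u : GQ → ℕ), EisData π (chiMod r) τ δ M ∧
      (∀ g, (u g : ZMod r) = chiMod r g) ∧
      (∀ g, ∀ ζ : Qb, ζ ^ m = 1 → g ζ = ζ ^ (u g)) ∧
      (∀ g, δ g = ((u g : ℕ) : T)) ∧
      ∀ (q : ℕ), q.Prime → ¬ q ∣ m → ∀ 𝔄 : ValuationSubring Qb, 𝔄.LiesOverPrime q →
        ∀ σ ∈ 𝔄.inertiaSubgroupIn ℚ, (∀ x : M, nil T σ (nil T σ x) = 0) → CHData τ δ σ M := by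
  obtain ⟨τ, δ, u, E, hu, hroots, hδu, -, hmul, hsig⟩ :=
    exists_eisData_nat hp hm hrm hfin ev π hev ι hι hιG hιT hιm hnil
  exact ⟨τ, δ, u, E, hu, hroots, hδu, fun q hq hqm 𝔄 h𝔄 σ hσ hnil2 =>
    ⟨E.rel, hmul, hsig q hq hqm 𝔄 h𝔄 σ hσ, hnil2⟩⟩

end Fermat.Agent.MAZ.Hecke.EisDataInt55
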