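/-
Program MAZ (S15), G-side, pole P1 = (PT), brick (NE) ADAPTER (helper55): the hypotheses `ha`, `hNE`
("no Eisenstein eigensystem": `n' ∈ eisIdeal τ δ + Ann M`) and `hδ` of
`ToricAsm50.factorial_nsmul_fixed_le_range`, for the `τ, δ` of EIS-REL.

In `EisRel55` the operator `τ (Frob_ℓ)` is NOT literally `T_ℓ` (`τ g = V_j(T_ℓ', ℓ')` for a Chebotarev
pair `(ℓ', j)` chosen for `g`), but it ACTS as `T_ℓ` on `J₀(p)[m]`: for `φ` a Frobenius element at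
`𝔄 ∣ ℓ`, `ℓ ∤ p m`, both `φ² - τ_φ φ + δ_φ = 0` (EIS-REL) and `φ² - T_ℓ φ + ℓ = 0`
(Eichler–Shimura) hold on `J₀(p)[m]`, `δ_φ = u(φ) ≡ ℓ` modulo `m` (both compute `φ` on `μ_m`), so
`(τ_φ - T_ℓ) φ = 0` and `φ` is invertible.

* `delta_frobenius_smul` : `δ φ • x = ℓ • x` on every `T`-module killed by `m`;
* `tau_frobenius_smul`   : `τ φ • x = s • x` on `M`, for `ev s = T_ℓ`;
* `exists_mem_eisIdeal`  : **(NE)**: from the TRANSFER identity `n' = Σ s_i (T_{ℓ_i} - 1 - ℓ_i)` on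
  `J₀(p)[m]` (the conclusion (C1) of `EisTransferFinal85`, taken as a hypothesis), an element
  `a ∈ ToricAsm50.eisIdeal τ δ` with `n' • x = a • x` on `M`;
  `exists_mem_eisIdeal_of_transfer` : the same in the literal shape of (C1) (`m = r ^ k`);
* `exists_toric_inputs`  : `EisData`, `hδ` (literal of `ToricAsm50`, with the coprimality clause), `hMC`
  and (NE) in one statement;
* `toric_exponent`       : `ToricAsm50.factorial_nsmul_fixed_le_range` on `M` with these inputs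
  discharged: `c • M^σ ⊆ (σ - 1) M` for the uniform `c = (((b₀ n'^b₀)²)^d₀)!`.
-/
import Mathlib
import Fermat.Agent.MAZ.Hecke.EisDataInt55
import Fermat.Agent.MAZ.Desc.ToricAsm50
import Fermat.Agent.Lib.FrobeniusExists

set_option autoImplicit false
set_option linter.unusedSectionVars false
set_option linter.style.haveILetI false

open AlgebraicCurve ModularCurve

noncomputable section

namespace Fermat.Agent.MAZ.Hecke.EisRelNE55

open Fermat.Agent.MAZ.Spec.XSpec62 Fermat.Agent.MAZ.Hecke.EisRel55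
open Fermat.Agent.MAZ.Hecke.EisRelInt55 Fermat.Agent.MAZ.Hecke.EisDataInt55
open Fermat.Agent.MAZ.Desc.EisFiltration19 Fermat.Agent.MAZ.Desc.MuModule11
open Fermat.Agent.MAZ.Desc.ToricAsm50

/-! ### `δ` at a Frobenius element -/

/-- `δ φ` acts as `ℓ` on every `T`-module killed by `m`, for `φ` a Frobenius element at `ℓ ∤ m`. -/
theorem delta_frobenius_smul {T : Type*} [CommRing T] {N : Type*} [AddCommGroup N] [Module T N]
    {m : ℕ} {δ : GQ → T} {u : GQ → ℕ} (hδ : ∀ g, δ g = ((u g : ℕ) : T))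
    (hu : ∀ g, ∀ ζ : Qb, ζ ^ m = 1 → g ζ = ζ ^ (u g)) {ℓ : ℕ} (hℓ : ℓ.Prime) (hℓm : ¬ ℓ ∣ m)
    (A : ValuationSubring Qb) (hA : A.LiesOverPrime ℓ) {φ : GQ} (hφ : A.IsFrobeniusAt φ ℓ)
    {x : N} (hx : m • x = 0) : δ φ • x = ℓ • x := by
  have hm : m ≠ 0 := fun h0 : m = 0 => hℓm (h0 ▸ dvd_zero ℓ)
  rw [delta_smul hδ]
  exact nsmul_eq_of_modEq hx
    (modEq_of_roots hm (hu φ) fun ζ hζ => frob_rootOfUnity hℓ hA hφ hℓm hζ)

variable {p : ℕ} [NeZero p]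

section Piece

variable {m : ℕ} {T : Type*} [CommRing T] (ev : T →+* Module.End ℤ (JZero p))
  {M : Type*} [AddCommGroup M] [DistribMulAction GQ M] [Module T M]
  (ι : M →+ JZero p) (hι : Function.Injective ι)
  (hιG : ∀ (g : GQ) (x : M), ι (g • x) = g • ι x)
  (hιT : ∀ (t : T) (x : M), ι (t • x) = ev t (ι x))
  (hιm : ∀ x : M, m • ι x = 0)
  {τ δ : GQ → T}

include hι hιG hιT hιm

/-- **`τ φ` acts as `T_ℓ` on `M`**, for `φ` a Frobenius element at `ℓ ∤ p m`. -/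
theorem tau_frobenius_smul (hp : p.Prime)
    (hrel : ∀ (g : GQ) (x : M), g • g • x - τ g • g • x + δ g • x = 0)
    {ℓ : Nat.Primes} (hℓp : (ℓ : ℕ) ≠ p) (hℓm : ¬ (ℓ : ℕ) ∣ m)
    (A : ValuationSubring Qb) (hA : A.LiesOverPrime ℓ) {φ : GQ} (hφ : A.IsFrobeniusAt φ ℓ)
    (hδφ : ∀ x : M, δ φ • x = (ℓ : ℕ) • x)
    {s : T} (hs : ev s = heckeOperatorBar p ℓ) (x : M) : τ φ • x = s • x := by
  obtain ⟨y, rfl⟩ : ∃ y : M, φ • y = x := ⟨φ⁻¹ • x, smul_inv_smul φ x⟩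
  have hES : φ • φ • ι y - heckeOperatorBar p ℓ (φ • ι y) + (ℓ : ℕ) • ι y = 0 :=
    Fermat.Agent.ES.TOP.TorsionGalois12.frobenius_relation ℓ.2
      (fun h => hℓp ((Nat.prime_dvd_prime_iff_eq ℓ.2 hp).mp h)) hA hℓm (hιm y) hφ
  have e1 : ι (φ • φ • y) = φ • φ • ι y := by rw [hιG, hιG]
  have e2 : ι (s • φ • y) = heckeOperatorBar p ℓ (φ • ι y) := by rw [hιT, hιG, hs]
  have h1 : φ • φ • y - s • φ • y + (ℓ : ℕ) • y = 0 := by
    apply hι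
    rw [map_add, map_sub, map_zero, e1, e2, map_nsmul]
    exact hES
  have h2 := hrel φ y
  rw [hδφ y] at h2
  have h4 : φ • φ • y - s • φ • y = φ • φ • y - τ φ • φ • y :=
    add_right_cancel (h1.trans h2.symm)
  exact (sub_right_inj.mp h4).symm

/-- **(NE)**: the transfer identity `n' = Σ s_i (T_{ℓ_i} - 1 - ℓ_i)` on `J₀(p)[m]` puts `n'` in
`eisIdeal τ δ + Ann M`. -/
theorem exists_mem_eisIdeal (hp : p.Prime)
    (hev : ∀ ℓ : Nat.Primes, (ℓ : ℕ) ≠ p → ¬ (ℓ : ℕ) ∣ m →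
      ∃ t : T, ev t = heckeOperatorBar p ℓ)
    {u : GQ → ℕ} (hδu : ∀ g, δ g = ((u g : ℕ) : T))
    (hroots : ∀ g, ∀ ζ : Qb, ζ ^ m = 1 → g ζ = ζ ^ (u g))
    (hrel : ∀ (g : GQ) (x : M), g • g • x - τ g • g • x + δ g • x = 0)
    (n' : ℕ) {κ : Type*} [Fintype κ] (ℓ : κ → Nat.Primes)
    (hℓ : ∀ i, (ℓ i : ℕ) ≠ p ∧ ¬ (ℓ i : ℕ) ∣ m) (s : κ → T)
    (hsum : ∀ x : JZero p, m • x = 0 →
      n' • x = ∑ i, ev (s i) (heckeOperatorBar p (ℓ i) x - (1 + (ℓ i : ℕ)) • x)) :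
    ∃ a ∈ eisIdeal τ δ, ∀ x : M, n' • x = a • x := by
  classical
  have hMm : ∀ x : M, m • x = 0 := fun x => hι (by rw [map_nsmul, hιm, map_zero])
  -- Frobenius elements and Hecke operators at the `ℓ i`
  choose A φ hA hφ using fun i : κ => Fermat.Agent.Lib.exists_isFrobeniusAt (ℓ i) (ℓ i).2
  choose sℓ hsℓ using fun i : κ => hev (ℓ i) (hℓ i).1 (hℓ i).2
  have hδφ : ∀ i, ∀ x : M, δ (φ i) • x = ((ℓ i : ℕ)) • x := fun i x =>
    delta_frobenius_smul hδu hroots (ℓ i).2 (hℓ i).2 (A i) (hA i) (hφ i) (hMm x)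
  have hτφ : ∀ i, ∀ x : M, τ (φ i) • x = sℓ i • x := fun i x =>
    tau_frobenius_smul ev ι hι hιG hιT hιm hp hrel (hℓ i).1 (hℓ i).2 (A i) (hA i) (hφ i)
      (hδφ i) (hsℓ i) x
  refine ⟨∑ i, s i * (τ (φ i) - 1 - δ (φ i)),
    Ideal.sum_mem _ fun i _ => Ideal.mul_mem_left _ _ (Ideal.subset_span ⟨φ i, rfl⟩),
    fun x => hι ?_⟩
  rw [map_nsmul, hsum (ι x) (hιm x), Finset.sum_smul, map_sum]
  refine Finset.sum_congr rfl fun i _ => ?_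
  rw [mul_smul, hιT]
  congr 1
  rw [sub_smul, sub_smul, one_smul, hτφ i x, hδφ i x, map_sub, map_sub, hιT, hsℓ i, map_nsmul,
    add_smul, one_smul, sub_sub]

/-- **(NE) in the literal shape of the conclusion (C1) of `EisTransferFinal85.exists_eis_transfer`**
(`m = r ^ k`, operators `t i` of `J₀(p)` which come from `T`). -/
theorem exists_mem_eisIdeal_of_transfer (hp : p.Prime) {r : ℕ} (hr : r.Prime) {k : ℕ}
    (hmk : m = r ^ k)
    (hev : ∀ ℓ : Nat.Primes, (ℓ : ℕ) ≠ p → ¬ (ℓ : ℕ) ∣ m →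
      ∃ t : T, ev t = heckeOperatorBar p ℓ)
    {u : GQ → ℕ} (hδu : ∀ g, δ g = ((u g : ℕ) : T))
    (hroots : ∀ g, ∀ ζ : Qb, ζ ^ m = 1 → g ζ = ζ ^ (u g))
    (hrel : ∀ (g : GQ) (x : M), g • g • x - τ g • g • x + δ g • x = 0)
    (n' : ℕ) {κ : Type*} [Fintype κ] (ℓ : κ → Nat.Primes)
    (t : κ → Module.End ℤ (JZero p))
    (hℓ : ∀ i, (ℓ i : ℕ) ≠ p ∧ (ℓ i : ℕ) ≠ r) (ht : ∀ i, ∃ s : T, ev s = t i)
    (hsum : ∀ x : JZero p, r ^ k • x = 0 →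
      n' • x = ∑ i, t i (heckeOperatorBar p (ℓ i) x - (1 + (ℓ i : ℕ)) • x)) :
    ∃ a ∈ eisIdeal τ δ, ∀ x : M, n' • x = a • x := by
  choose s hs using ht
  refine exists_mem_eisIdeal ev ι hι hιG hιT hιm hp hev hδu hroots hrel n' ℓ (fun i => ⟨(hℓ i).1, ?_⟩)
    s fun x hx => ?_
  · rw [hmk]
    intro hdvd
    exact (hℓ i).2 ((Nat.prime_dvd_prime_iff_eq (ℓ i).2 hr).mp ((ℓ i).2.dvd_of_dvd_pow hdvd))
  · rw [hmk] at hx
    rw [hsum x hx]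
    exact Finset.sum_congr rfl fun i _ => by rw [hs i]

end Piece

/-- **The Eichler–Shimura inputs of `ToricAsm50.factorial_nsmul_fixed_le_range`** on a stable piece
`M` of `J₀(p)[m]`, `r ∣ m`, `C := Mu m`: `E`, `hδ` (with the coprimality clause), `hMC` and (NE), for
ONE pair `τ, δ`. -/
theorem exists_toric_inputs (hp : p.Prime) {r : ℕ} [Fact r.Prime] {m : ℕ} (hm : m ≠ 0)
    (hrm : r ∣ m) (hfin : {y : JZero p | m • y = 0}.Finite)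
    {T : Type*} [CommRing T] (ev : T →+* Module.End ℤ (JZero p)) (π : T →+* ZMod r)
    (hev : ∀ ℓ : Nat.Primes, (ℓ : ℕ) ≠ p → ¬ (ℓ : ℕ) ∣ m →
      ∃ t : T, ev t = heckeOperatorBar p ℓ ∧ π t = ((ℓ : ℕ) : ZMod r) + 1)
    {M : Type*} [AddCommGroup M] [DistribMulAction GQ M] [Module T M]
    (ι : M →+ JZero p) (hι : Function.Injective ι)
    (hιG : ∀ (g : GQ) (x : M), ι (g • x) = g • ι x)
    (hιT : ∀ (t : T) (x : M), ι (t • x) = ev t (ι x))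
    (hιm : ∀ x : M, m • ι x = 0)
    (hnil : ∃ n : ℕ, ∀ t ∈ (RingHom.ker π) ^ n, ∀ x : M, t • x = 0)
    (n' : ℕ) {κ : Type*} [Fintype κ] (ℓ : κ → Nat.Primes)
    (hℓ : ∀ i, (ℓ i : ℕ) ≠ p ∧ ¬ (ℓ i : ℕ) ∣ m) (s : κ → T)
    (hsum : ∀ x : JZero p, m • x = 0 →
      n' • x = ∑ i, ev (s i) (heckeOperatorBar p (ℓ i) x - (1 + (ℓ i : ℕ)) • x)) :
    ∃ τ δ : GQ → T, EisData π (chiMod r) τ δ M ∧
      (∀ g : GQ, ∃ u : ℕ, (u : ZMod r) = chiMod r g ∧ u.Coprime (Nat.card (Mu m)) ∧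
        (∀ c : Mu m, g • c = u • c) ∧ ∀ x : M, δ g • x = u • x) ∧
      (∀ x : M, Nat.card (Mu m) • x = 0) ∧
      ∃ a ∈ eisIdeal τ δ, ∀ x : M, n' • x = a • x := by
  haveI : NeZero m := ⟨hm⟩
  obtain ⟨τ, δ, u, E, hu, hroots, hδu, hδM, -, -⟩ :=
    exists_eisData_nat hp hm hrm hfin ev π hev ι hι hιG hιT hιm hnil
  have hMm : ∀ x : M, m • x = 0 := fun x => hι (by rw [map_nsmul, hιm, map_zero])
  refine ⟨τ, δ, E, fun g => ⟨u g, hu g, ?_, smul_mu_eq (hroots g), hδM g⟩, fun x => ?_,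
    exists_mem_eisIdeal ev ι hι hιG hιT hιm hp
      (fun q hq hqm => (hev q hq hqm).imp fun _ h => h.1) hδu hroots E.rel n' ℓ hℓ s hsum⟩
  · rw [Mu.card_mu]
    exact coprime_of_roots hm (hroots g)
  · rw [Mu.card_mu]
    exact hMm x

/-- **(PT)_P, exponent form, on a stable piece `M` of `J₀(p)[m]`**:
`ToricAsm50.factorial_nsmul_fixed_le_range` with all its Eichler–Shimura inputs (`E`, `hδ`, `hMC`,
`ha`, `hNE`) discharged.  What remains are the hypotheses of the other bricks: the admissible family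
`F` with `RankOneBound` and CARTIER `hOk`, the inertia group `I` acting trivially on `μ_m` (`hIC`,
`MuModule11.Mu.smul_eq_of_mem_inertia`), its generator `σ` on `M` (`hcyc`, HCyc48) with
`(σ - 1)² = 0` (`hN2`, QUAD-J), the transfer identity (`hsum`, `EisTransferFinal85`) and the two
uniform bounds `b₀`, `d₀`. -/
theorem toric_exponent (hp : p.Prime) {r : ℕ} [Fact r.Prime] {m : ℕ} (hm : m ≠ 0)
    (hrm : r ∣ m) (hfin : {y : JZero p | m • y = 0}.Finite)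
    {T : Type*} [CommRing T] (ev : T →+* Module.End ℤ (JZero p)) (π : T →+* ZMod r)
    (hev : ∀ ℓ : Nat.Primes, (ℓ : ℕ) ≠ p → ¬ (ℓ : ℕ) ∣ m →
      ∃ t : T, ev t = heckeOperatorBar p ℓ ∧ π t = ((ℓ : ℕ) : ZMod r) + 1)
    {M : Type} [AddCommGroup M] [DistribMulAction GQ M] [Module T M] [SMulCommClass GQ T M]
    [Finite M]
    (ι : M →+ JZero p) (hι : Function.Injective ι)
    (hιG : ∀ (g : GQ) (x : M), ι (g • x) = g • ι x)
    (hιT : ∀ (t : T) (x : M), ι (t • x) = ev t (ι x))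
    (hιm : ∀ x : M, m • ι x = 0)
    (hnil : ∃ n : ℕ, ∀ t ∈ (RingHom.ker π) ^ n, ∀ x : M, t • x = 0)
    (n' : ℕ) (hn' : 0 < n') {κ : Type*} [Fintype κ] (ℓ : κ → Nat.Primes)
    (hℓ : ∀ i, (ℓ i : ℕ) ≠ p ∧ ¬ (ℓ i : ℕ) ∣ m) (s : κ → T)
    (hsum : ∀ x : JZero p, m • x = 0 →
      n' • x = ∑ i, ev (s i) (heckeOperatorBar p (ℓ i) x - (1 + (ℓ i : ℕ)) • x))
    {D I : Subgroup GQ} (F : Fermat.Agent.MAZ.Desc.Devissage95.AdmFamily.{0} GQ) (φ₀ : GQ)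
    (hR : Fermat.Agent.MAZ.Desc.Devissage95.RankOneBound F D I r (chiMod r) φ₀)
    (hIC : ∀ γ ∈ I, ∀ c : Mu m, γ • c = c)
    (hOk : F.Ok (M × Fermat.Agent.MAZ.Desc.DualModule2.Dual M (Mu m)))
    (σ : GQ) (hσ : σ ∈ I) (hcyc : ∀ γ ∈ I, ∃ n : ℕ, ∀ x : M, γ • x = σ ^ n • x)
    (hN2 : ∀ x : M, σ • (σ • x - x) = σ • x - x)
    (b₀ d₀ : ℕ) (hb : Nat.card (Fermat.Agent.MAZ.Desc.ToricAsm50.tors n' M) ≤ b₀)
    (hd : (⊤ : Submodule T M).spanFinrank ≤ d₀) (w : M) (hw : σ • w = w) :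
    ∃ x : M, (((b₀ * n' ^ b₀) * (b₀ * n' ^ b₀)) ^ d₀).factorial • w = σ • x - x := by
  haveI : NeZero m := ⟨hm⟩
  obtain ⟨τ, δ, E, hδ, hMC, a, ha, hNE⟩ :=
    exists_toric_inputs hp hm hrm hfin ev π hev ι hι hιG hιT hιm hnil n' ℓ hℓ s hsum
  exact factorial_nsmul_fixed_le_range F φ₀ hR (Mu m) hMC hIC hδ E hOk σ hσ hcyc hN2 n' hn' a ha
    hNE b₀ d₀ hb hd w hw

end Fermat.Agent.MAZ.Hecke.EisRelNE55
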