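/-
Program MAZ (S15), brick (c), part 3 (helper71): BRIDGE of the Eisenstein property of the cuspidal
class (`CuspVal71`, `CuspHecke71`) to the vocabulary of `MAZ/Spec/XSpec62` (helper62):

* `cuspInf_eq_placeInfty`, `isCuspZero_iff` : `XSpec62.cuspInf p` (the `q`-adic place) and ANY place
  `cZ` with `XSpec62.IsCuspZero p cZ` are the two cusps `placeInfty p`, `placeZero p`;
* `placeFixed_cuspInf`, `placeFixed_of_isCuspZero`, `isCuspZero_placeZero` : three of the four fields
  of `XSpec62.CuspPkg`;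
* `heckeDivBar_cuspZero`, `heckeDivBar_cuspInf` (+ support forms `eq_of_heckeDivBar_..._ne_zero`) :
  `T_m [cusp] = (m + 1) [cusp]` for ARBITRARY integrality witnesses and instance (the shape of the
  quantifiers of `XSpec62.XHecke`);
* `heckeOperatorBar_pointClass` : `T_m c = (m + 1) • c` for `c = pointClass hdeg cZ (cuspInf p)`;
* `heckeSub_pointClass` : every `t ∈ heckeSub p` acts on `ℤ c` through an integer.
-/
import Mathlib
import Fermat.Agent.MAZ.Hecke.CuspHecke71
import Fermat.Agent.MAZ.Spec.XSpec62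

set_option autoImplicit false
set_option linter.style.haveILetI false

open AlgebraicCurve ModularCurve

noncomputable section

namespace Fermat.Agent.MAZ.Hecke.CuspBridge71

open Fermat.Agent.X0 Fermat.Agent.ES.HECKE Fermat.Agent.MAZ.Spec.XSpec62
open Fermat.Agent.MAZ.Hecke.CuspVal71 Fermat.Agent.MAZ.Hecke.CuspHecke71

variable (p : ℕ) [NeZero p]

theorem jpF_eq_jNF : jpF p = jNF p := rfl

/-- The `q`-adic place is the cusp `∞` of `CuspVal71`. -/
theorem cuspInf_eq_placeInfty (hp : p.Prime) : cuspInf p = placeInfty p := by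
  have h1 : (cuspInf p).ord (jF p) = -1 := Fermat.Agent.M1.Link.InfPlace39.infPlace_ord_jF p
  have h2 : (cuspInf p).ord (jNF p) = -(p : ℤ) := by
    unfold cuspInf
    rw [Fermat.Agent.M1.Link.InfPlace39.infPlace_ord p (jNF_ne_zero p), val_jNF,
      order_qExpand_jqK]
  apply eq_placeInfty_of p hp
  · rw [h1]
    norm_num
  · rw [h1, h2]
    ring

theorem isCuspZero_placeZero : IsCuspZero p (placeZero p) :=
  ⟨ord_placeZero_jF p, ord_placeZero_jNF p⟩

/-- A place with the orders of the cusp `0` IS the cusp `0` of `CuspVal71`. -/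
theorem eq_placeZero_of_isCuspZero (hp : p.Prime) {cZ : Place Qb (FF p)} (h : IsCuspZero p cZ) :
    cZ = placeZero p := by
  have hp0 : (0 : ℤ) < p := by exact_mod_cast hp.pos
  apply eq_placeZero_of p hp
  · rw [h.1]
    omega
  · rw [h.1, ← jpF_eq_jNF, h.2]
    ring

theorem isCuspZero_iff (hp : p.Prime) {cZ : Place Qb (FF p)} :
    IsCuspZero p cZ ↔ cZ = placeZero p :=
  ⟨eq_placeZero_of_isCuspZero p hp, fun h => h ▸ isCuspZero_placeZero p⟩

theorem placeFixed_cuspInf (hp : p.Prime) : PlaceFixed p (cuspInf p) := fun σ => by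
  rw [cuspInf_eq_placeInfty p hp]
  exact smul_placeInfty p hp σ

theorem placeFixed_of_isCuspZero (hp : p.Prime) {cZ : Place Qb (FF p)} (h : IsCuspZero p cZ) :
    PlaceFixed p cZ := fun σ => by
  rw [eq_placeZero_of_isCuspZero p hp h]
  exact smul_placeZero p hp σ

/-! ### `T_m` on the cusps, divisor level, arbitrary witnesses -/

section Div

variable (m : ℕ) [NeZero m]

theorem heckeDivBar_placeCusp (hp : p.Prime) (hm : m.Prime) (hmp : m ≠ p)
    (hα : HeckeAlphaBarIntegral Qb p m) (hβ : HeckeBetaBarIntegral Qb p m)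
    [HasPrincipalDivisors Qb (laurentBaseChange Qb (modularFunctionFieldFull (p * m)))]
    (v : Place Qb (FF p)) (hv : v = placeInfty p ∨ v = placeZero p) :
    heckeDivBar hα hβ (Finsupp.single v 1) = Finsupp.single v ((m : ℤ) + 1) := by
  have hmp' : ¬ m ∣ p := fun h => hmp ((Nat.prime_dvd_prime_iff_eq hm hp).mp h)
  have hFI : FundamentalIdentityAlong Qb (heckeBetaBar Qb p m) hβ :=
    InputsMain19.fundamentalIdentityAlong_beta p m hm hmp'
  exact heckeDivBar_cusp p m hp hm (Ne.symm hmp) hα hβ hFI v hv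

/-- `T_m [0] = (m + 1) [0]`. -/
theorem heckeDivBar_cuspZero (hp : p.Prime) (hm : m.Prime) (hmp : m ≠ p)
    (hα : HeckeAlphaBarIntegral Qb p m) (hβ : HeckeBetaBarIntegral Qb p m)
    [HasPrincipalDivisors Qb (laurentBaseChange Qb (modularFunctionFieldFull (p * m)))]
    {cZ : Place Qb (FF p)} (hZ : IsCuspZero p cZ) :
    heckeDivBar hα hβ (Finsupp.single cZ 1) = Finsupp.single cZ ((m : ℤ) + 1) :=
  heckeDivBar_placeCusp p m hp hm hmp hα hβ cZ (Or.inr (eq_placeZero_of_isCuspZero p hp hZ))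

/-- `T_m [∞] = (m + 1) [∞]`. -/
theorem heckeDivBar_cuspInf (hp : p.Prime) (hm : m.Prime) (hmp : m ≠ p)
    (hα : HeckeAlphaBarIntegral Qb p m) (hβ : HeckeBetaBarIntegral Qb p m)
    [HasPrincipalDivisors Qb (laurentBaseChange Qb (modularFunctionFieldFull (p * m)))] :
    heckeDivBar hα hβ (Finsupp.single (cuspInf p) 1) =
      Finsupp.single (cuspInf p) ((m : ℤ) + 1) :=
  heckeDivBar_placeCusp p m hp hm hmp hα hβ (cuspInf p) (Or.inl (cuspInf_eq_placeInfty p hp))

/-- Support form: `T_m [0]` is supported on `0`. -/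
theorem eq_of_heckeDivBar_cuspZero_ne_zero (hp : p.Prime) (hm : m.Prime) (hmp : m ≠ p)
    (hα : HeckeAlphaBarIntegral Qb p m) (hβ : HeckeBetaBarIntegral Qb p m)
    [HasPrincipalDivisors Qb (laurentBaseChange Qb (modularFunctionFieldFull (p * m)))]
    {cZ : Place Qb (FF p)} (hZ : IsCuspZero p cZ) (y : Place Qb (FF p))
    (hy : heckeDivBar hα hβ (Finsupp.single cZ 1) y ≠ 0) : y = cZ := by
  classical
  rw [heckeDivBar_cuspZero p m hp hm hmp hα hβ hZ] at hy
  by_contra hne
  exact hy (Finsupp.single_eq_of_ne hne)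

/-- Support form: `T_m [∞]` is supported on `∞`. -/
theorem eq_of_heckeDivBar_cuspInf_ne_zero (hp : p.Prime) (hm : m.Prime) (hmp : m ≠ p)
    (hα : HeckeAlphaBarIntegral Qb p m) (hβ : HeckeBetaBarIntegral Qb p m)
    [HasPrincipalDivisors Qb (laurentBaseChange Qb (modularFunctionFieldFull (p * m)))]
    (y : Place Qb (FF p))
    (hy : heckeDivBar hα hβ (Finsupp.single (cuspInf p) 1) y ≠ 0) : y = cuspInf p := by
  classical
  rw [heckeDivBar_cuspInf p m hp hm hmp hα hβ] at hy
  by_contra hne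
  exact hy (Finsupp.single_eq_of_ne hne)

end Div

/-! ### Operator level -/

variable {p}

theorem pointClass_eq_cuspClass (hp : p.Prime) (hdeg : DegOne p) {cZ : Place Qb (FF p)}
    (hZ : IsCuspZero p cZ) : pointClass hdeg cZ (cuspInf p) = cuspClass p := by
  unfold pointClass cuspClass
  refine congrArg Pic0.mk (Subtype.ext ?_)
  rw [coe_pointDiv, eq_placeZero_of_isCuspZero p hp hZ, cuspInf_eq_placeInfty p hp]
  rfl

/-- **Eisenstein property** in `XSpec62` vocabulary: `T_m c = (m + 1) c`, `c = (0) - (∞)`. -/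
theorem heckeOperatorBar_pointClass (hp : p.Prime) (hdeg : DegOne p) {cZ : Place Qb (FF p)}
    (hZ : IsCuspZero p cZ) (m : Nat.Primes) (hm : (m : ℕ) ≠ p) :
    heckeOperatorBar p m (pointClass hdeg cZ (cuspInf p)) =
      (((m : ℕ) : ℤ) + 1) • pointClass hdeg cZ (cuspInf p) := by
  rw [pointClass_eq_cuspClass hp hdeg hZ]
  exact heckeOperatorBar_cuspClass p hp m hm

/-- The cuspidal class is Galois invariant. -/
theorem smul_pointClass_cusp (hp : p.Prime) (hdeg : DegOne p) {cZ : Place Qb (FF p)}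
    (hZ : IsCuspZero p cZ) (σ : GQ) :
    σ • pointClass hdeg cZ (cuspInf p) = pointClass hdeg cZ (cuspInf p) := by
  rw [pointClass_eq_cuspClass hp hdeg hZ]
  exact smul_cuspClass p hp σ

/-- Every element of the Hecke algebra away from `p` acts on `ℤ c` through an integer. -/
theorem heckeSub_pointClass (hp : p.Prime) (hdeg : DegOne p) {cZ : Place Qb (FF p)}
    (hZ : IsCuspZero p cZ) {t : Module.End ℤ (JZero p)} (ht : t ∈ heckeSub p) :
    ∃ n : ℤ, ∀ k : ℤ, t (k • pointClass hdeg cZ (cuspInf p)) =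
      (n * k) • pointClass hdeg cZ (cuspInf p) := by
  set c := pointClass hdeg cZ (cuspInf p) with hc
  unfold heckeSub at ht
  induction ht using Algebra.adjoin_induction with
  | mem t ht =>
    obtain ⟨m, hm, rfl⟩ := ht
    refine ⟨((m : ℕ) : ℤ) + 1, fun k => ?_⟩
    rw [map_zsmul, heckeOperatorBar_pointClass hp hdeg hZ m hm, smul_smul, mul_comm]
  | algebraMap a =>
    refine ⟨a, fun k => ?_⟩
    rw [Module.algebraMap_end_apply, smul_smul]
  | add t t' _ _ iht iht' =>
    obtain ⟨n, hn⟩ := iht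
    obtain ⟨n', hn'⟩ := iht'
    refine ⟨n + n', fun k => ?_⟩
    rw [LinearMap.add_apply, hn, hn']
    module
  | mul t t' _ _ iht iht' =>
    obtain ⟨n, hn⟩ := iht
    obtain ⟨n', hn'⟩ := iht'
    refine ⟨n * n', fun k => ?_⟩
    rw [Module.End.mul_apply, hn', hn, mul_assoc]

end Fermat.Agent.MAZ.Hecke.CuspBridge71
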