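/-
Program MAZ (S15), chapter Hecke, helper71: **THE EISENSTEIN CHARACTER** as a ring homomorphism.

Generic part (Mathlib only): a ring `T` acting on an abelian group `J` through
`ev : T →+* Module.End ℤ J`, and `x : J` of additive order `r` such that every `ev t` maps `x` into
`ℤ x`.  Then `t ↦ (the integer by which t acts on x) mod r` is a ring homomorphism
`cycChar : T →+* ZMod r`, with kernel the annihilator of `x`.

Modular part: `T = heckeSub p` (commutative by `HeckeComm71`), `x = k • c`, `c = (0) - (∞)` the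
cuspidal class of `J₀(p)`: the Eisenstein character `eisChar : heckeSub p →+* ZMod r` with
`eisChar (T_m) = m + 1` (`m ≠ p` prime), `t (k • c) = (eisChar t).val • (k • c)`, and
`t ∈ ker eisChar ↔ t (k • c) = 0`.
-/
import Mathlib
import Fermat.Agent.MAZ.Hecke.CuspBridge71
import Fermat.Agent.MAZ.Hecke.HeckeComm71

set_option autoImplicit false
set_option linter.unusedSectionVars false
set_option linter.style.haveILetI false

open AlgebraicCurve ModularCurve

noncomputable section

namespace Fermat.Agent.MAZ.Hecke.EisChar71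

/-! ### Generic part -/

section Generic

variable {T : Type*} [Ring T] {J : Type*} [AddCommGroup J]

/-- integers acting equally on an element of order `r` agree mod `r`. -/
theorem intCast_eq_of_zsmul_eq {x : J} {r : ℕ} (hord : addOrderOf x = r) {n n' : ℤ}
    (h : n • x = n' • x) : (n : ZMod r) = (n' : ZMod r) := by
  rw [ZMod.intCast_eq_intCast_iff_dvd_sub, ← hord, addOrderOf_dvd_iff_zsmul_eq_zero, sub_smul, h,
    sub_self]

/-- conversely. -/
theorem zsmul_eq_of_intCast_eq {x : J} {r : ℕ} (hord : addOrderOf x = r) {n n' : ℤ}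
    (h : (n : ZMod r) = (n' : ZMod r)) : n • x = n' • x := by
  rw [ZMod.intCast_eq_intCast_iff_dvd_sub, ← hord, addOrderOf_dvd_iff_zsmul_eq_zero, sub_smul,
    sub_eq_zero] at h
  exact h.symm

variable (ev : T →+* Module.End ℤ J) (x : J) (r : ℕ)

/-- the underlying function of `cycChar`. -/
def cycFun (hstab : ∀ t : T, ∃ n : ℤ, ev t x = n • x) (t : T) : ZMod r :=
  ((Classical.choose (hstab t) : ℤ) : ZMod r)

variable {ev x r}

theorem cycFun_eq (hord : addOrderOf x = r) (hstab : ∀ t : T, ∃ n : ℤ, ev t x = n • x) {t : T}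
    {n : ℤ} (h : ev t x = n • x) : cycFun ev x r hstab t = (n : ZMod r) := by
  unfold cycFun
  refine intCast_eq_of_zsmul_eq hord ?_
  rw [← Classical.choose_spec (hstab t), h]

variable (ev x r)

/-- **The character by which `T` acts on the cyclic group `ℤ x`**, `x` of order `r`. -/
def cycChar (hord : addOrderOf x = r) (hstab : ∀ t : T, ∃ n : ℤ, ev t x = n • x) :
    T →+* ZMod r where
  toFun := cycFun ev x r hstab
  map_one' := by
    rw [cycFun_eq hord hstab (t := 1) (n := 1) (by rw [map_one, Module.End.one_apply, one_smul]),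
      Int.cast_one]
  map_mul' s t := by
    obtain ⟨a, ha⟩ := hstab s
    obtain ⟨b, hb⟩ := hstab t
    rw [cycFun_eq hord hstab ha, cycFun_eq hord hstab hb,
      cycFun_eq hord hstab (t := s * t) (n := a * b) (by
        rw [map_mul, Module.End.mul_apply, hb, map_zsmul, ha, smul_smul, mul_comm]),
      Int.cast_mul]
  map_zero' := by
    rw [cycFun_eq hord hstab (t := 0) (n := 0) (by
      rw [map_zero, LinearMap.zero_apply, zero_smul]), Int.cast_zero]
  map_add' s t := by
    obtain ⟨a, ha⟩ := hstab s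
    obtain ⟨b, hb⟩ := hstab t
    rw [cycFun_eq hord hstab ha, cycFun_eq hord hstab hb,
      cycFun_eq hord hstab (t := s + t) (n := a + b) (by
        rw [map_add, LinearMap.add_apply, ha, hb, add_smul]),
      Int.cast_add]

variable {ev x r}

/-- the defining property: if `t` acts on `x` as the integer `n`, then `cycChar t = n`. -/
theorem cycChar_eq (hord : addOrderOf x = r) (hstab : ∀ t : T, ∃ n : ℤ, ev t x = n • x) {t : T}
    {n : ℤ} (h : ev t x = n • x) : cycChar ev x r hord hstab t = (n : ZMod r) :=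
  cycFun_eq hord hstab h

/-- `cycChar t = n ↔ t x = n x`. -/
theorem cycChar_eq_iff (hord : addOrderOf x = r) (hstab : ∀ t : T, ∃ n : ℤ, ev t x = n • x)
    (t : T) (n : ℤ) : cycChar ev x r hord hstab t = (n : ZMod r) ↔ ev t x = n • x := by
  refine ⟨fun h => ?_, cycChar_eq hord hstab⟩
  obtain ⟨a, ha⟩ := hstab t
  rw [cycChar_eq hord hstab ha] at h
  rw [ha]
  exact zsmul_eq_of_intCast_eq hord h

/-- `t` acts on `x` through `cycChar t` (integer-lift form). -/
theorem apply_eq_cast_zsmul (hord : addOrderOf x = r)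
    (hstab : ∀ t : T, ∃ n : ℤ, ev t x = n • x) (t : T) :
    ev t x = ((cycChar ev x r hord hstab t).cast : ℤ) • x :=
  (cycChar_eq_iff hord hstab t _).mp (ZMod.intCast_zmod_cast _).symm

/-- `t` acts on `x` through `cycChar t` (`val` form, the shape of `EisFiltration19`). -/
theorem apply_eq_val_nsmul [NeZero r] (hord : addOrderOf x = r)
    (hstab : ∀ t : T, ∃ n : ℤ, ev t x = n • x) (t : T) :
    ev t x = (cycChar ev x r hord hstab t).val • x := by
  have h := (cycChar_eq_iff hord hstab t ((cycChar ev x r hord hstab t).val : ℤ)).mp (by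
    rw [Int.cast_natCast, ZMod.natCast_zmod_val])
  rw [h, natCast_zsmul]

/-- `t` acts on every multiple of `x` through `cycChar t`. -/
theorem apply_zsmul_eq_val_nsmul [NeZero r] (hord : addOrderOf x = r)
    (hstab : ∀ t : T, ∃ n : ℤ, ev t x = n • x) (t : T) (k : ℤ) :
    ev t (k • x) = (cycChar ev x r hord hstab t).val • (k • x) := by
  rw [map_zsmul, apply_eq_val_nsmul hord hstab t, smul_comm]

/-- **the kernel of `cycChar` is the annihilator of `x`.** -/
theorem mem_ker_cycChar (hord : addOrderOf x = r) (hstab : ∀ t : T, ∃ n : ℤ, ev t x = n • x)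
    (t : T) : t ∈ RingHom.ker (cycChar ev x r hord hstab) ↔ ev t x = 0 := by
  rw [RingHom.mem_ker, ← Int.cast_zero, cycChar_eq_iff hord hstab t 0, zero_smul]

/-- integers go to their residues. -/
theorem cycChar_intCast (hord : addOrderOf x = r) (hstab : ∀ t : T, ∃ n : ℤ, ev t x = n • x)
    (n : ℤ) : cycChar ev x r hord hstab (n : T) = (n : ZMod r) :=
  map_intCast _ n

theorem cycChar_surjective (hord : addOrderOf x = r)
    (hstab : ∀ t : T, ∃ n : ℤ, ev t x = n • x) :
    Function.Surjective (cycChar ev x r hord hstab) :=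
  ZMod.ringHom_surjective _

end Generic

/-! ### The Eisenstein character of `heckeSub p` -/

section Modular

open Fermat.Agent.X0 Fermat.Agent.MAZ.Spec.XSpec62
open Fermat.Agent.MAZ.Hecke.CuspBridge71 Fermat.Agent.MAZ.Hecke.HeckeComm71

variable {p : ℕ} [NeZero p]

/-- the evaluation `heckeSub p →+* End (JZero p)`. -/
abbrev evSub (p : ℕ) [NeZero p] : heckeSub p →+* Module.End ℤ (JZero p) :=
  (heckeSub p).val.toRingHom

theorem evSub_apply (t : heckeSub p) : evSub p t = (t : Module.End ℤ (JZero p)) := rfl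

/-- every `t ∈ heckeSub p` maps `k • c` into `ℤ (k • c)`. -/
theorem exists_zsmul_pointClass (hp : p.Prime) (hdeg : DegOne p) {cZ : Place Qb (FF p)}
    (hZ : IsCuspZero p cZ) (k : ℤ) (t : heckeSub p) :
    ∃ n : ℤ, evSub p t (k • pointClass hdeg cZ (cuspInf p)) =
      n • (k • pointClass hdeg cZ (cuspInf p)) := by
  obtain ⟨n, hn⟩ := heckeSub_pointClass hp hdeg hZ t.2
  exact ⟨n, by rw [evSub_apply, hn k, mul_smul]⟩

/-- **The Eisenstein character** `heckeSub p →+* ZMod r` attached to the multiple `k • c` of the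
cuspidal class, `r` its additive order. -/
def eisChar (hp : p.Prime) (hdeg : DegOne p) {cZ : Place Qb (FF p)} (hZ : IsCuspZero p cZ)
    (k : ℤ) (r : ℕ) (hord : addOrderOf (k • pointClass hdeg cZ (cuspInf p)) = r) :
    heckeSub p →+* ZMod r :=
  cycChar (evSub p) (k • pointClass hdeg cZ (cuspInf p)) r hord
    (exists_zsmul_pointClass hp hdeg hZ k)

variable (hp : p.Prime) (hdeg : DegOne p) {cZ : Place Qb (FF p)} (hZ : IsCuspZero p cZ)
  (k : ℤ) (r : ℕ) (hord : addOrderOf (k • pointClass hdeg cZ (cuspInf p)) = r)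

/-- `T_m ∈ heckeSub p`. -/
theorem heckeOperatorBar_mem_heckeSub (m : Nat.Primes) (hm : (m : ℕ) ≠ p) :
    heckeOperatorBar p m ∈ heckeSub p :=
  Algebra.subset_adjoin ⟨m, hm, rfl⟩

/-- **`eisChar (T_m) = m + 1`.** -/
theorem eisChar_heckeOperatorBar (m : Nat.Primes) (hm : (m : ℕ) ≠ p) :
    eisChar hp hdeg hZ k r hord ⟨heckeOperatorBar p m, heckeOperatorBar_mem_heckeSub m hm⟩ =
      ((m : ℕ) : ZMod r) + 1 := by
  have h : evSub p ⟨heckeOperatorBar p m, heckeOperatorBar_mem_heckeSub m hm⟩
      (k • pointClass hdeg cZ (cuspInf p)) =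
      (((m : ℕ) : ℤ) + 1) • (k • pointClass hdeg cZ (cuspInf p)) := by
    rw [evSub_apply, map_zsmul, heckeOperatorBar_pointClass hp hdeg hZ m hm, smul_comm]
  rw [eisChar, cycChar_eq hord _ h]
  push_cast
  rfl

/-- general form: for any `t ∈ heckeSub p` equal to `T_m`. -/
theorem eisChar_eq_of_coe_eq (m : Nat.Primes) (hm : (m : ℕ) ≠ p) (t : heckeSub p)
    (ht : (t : Module.End ℤ (JZero p)) = heckeOperatorBar p m) :
    eisChar hp hdeg hZ k r hord t = ((m : ℕ) : ZMod r) + 1 := by
  have : t = ⟨heckeOperatorBar p m, heckeOperatorBar_mem_heckeSub m hm⟩ := Subtype.ext ht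
  rw [this]
  exact eisChar_heckeOperatorBar hp hdeg hZ k r hord m hm

/-- `eisChar t = n ↔ t (k • c) = n • (k • c)`. -/
theorem eisChar_eq_iff (t : heckeSub p) (n : ℤ) :
    eisChar hp hdeg hZ k r hord t = (n : ZMod r) ↔
      (t : Module.End ℤ (JZero p)) (k • pointClass hdeg cZ (cuspInf p)) =
        n • (k • pointClass hdeg cZ (cuspInf p)) :=
  cycChar_eq_iff (ev := evSub p) hord (exists_zsmul_pointClass hp hdeg hZ k) t n

/-- **`heckeSub p` acts on `k • c` through `eisChar`.** -/
theorem apply_eq_eisChar_val_nsmul [NeZero r] (t : heckeSub p) :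
    (t : Module.End ℤ (JZero p)) (k • pointClass hdeg cZ (cuspInf p)) =
      (eisChar hp hdeg hZ k r hord t).val • (k • pointClass hdeg cZ (cuspInf p)) :=
  apply_eq_val_nsmul (ev := evSub p) hord (exists_zsmul_pointClass hp hdeg hZ k) t

/-- … and on every multiple of it. -/
theorem apply_zsmul_eq_eisChar_val_nsmul [NeZero r] (t : heckeSub p) (j : ℤ) :
    (t : Module.End ℤ (JZero p)) (j • (k • pointClass hdeg cZ (cuspInf p))) =
      (eisChar hp hdeg hZ k r hord t).val • (j • (k • pointClass hdeg cZ (cuspInf p))) :=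
  apply_zsmul_eq_val_nsmul (ev := evSub p) hord (exists_zsmul_pointClass hp hdeg hZ k) t j

/-- **the kernel of `eisChar` (the Eisenstein prime) is the annihilator of `k • c`.** -/
theorem mem_ker_eisChar (t : heckeSub p) :
    t ∈ RingHom.ker (eisChar hp hdeg hZ k r hord) ↔
      (t : Module.End ℤ (JZero p)) (k • pointClass hdeg cZ (cuspInf p)) = 0 :=
  mem_ker_cycChar (ev := evSub p) hord (exists_zsmul_pointClass hp hdeg hZ k) t

theorem eisChar_surjective : Function.Surjective (eisChar hp hdeg hZ k r hord) :=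
  ZMod.ringHom_surjective _

/-- `T_m - (m + 1) ∈ ker eisChar`: the Eisenstein ideal is contained in the Eisenstein prime. -/
theorem heckeOperatorBar_sub_mem_ker (m : Nat.Primes) (hm : (m : ℕ) ≠ p) :
    (⟨heckeOperatorBar p m, heckeOperatorBar_mem_heckeSub m hm⟩ - (((m : ℕ) : heckeSub p) + 1) :
      heckeSub p) ∈ RingHom.ker (eisChar hp hdeg hZ k r hord) := by
  rw [RingHom.mem_ker, map_sub, eisChar_heckeOperatorBar hp hdeg hZ k r hord m hm, map_add,
    map_natCast, map_one, sub_self]

/-- `r ∈ ker eisChar`. -/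
theorem natCast_mem_ker : ((r : ℕ) : heckeSub p) ∈ RingHom.ker (eisChar hp hdeg hZ k r hord) := by
  rw [RingHom.mem_ker, map_natCast, ZMod.natCast_self]

end Modular

end Fermat.Agent.MAZ.Hecke.EisChar71
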