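/-
Program MAZ (S15), G-side, pole P1 = (PT), `r = 2` (MARKED) twin of `EisRelNE55.toric_exponent`
(helper55; requested by helper50, report 2496).

`ToricAsmM50.factorial_nsmul_fixed_le_range_marked` on a stable piece `M` of `J₀(p)[m]`, with all its
Eichler–Shimura inputs (`E`, `hδ`, `hMC`, `ha`, `hNE`) discharged by `EisRelNE55.exists_toric_inputs`
(which is `r`-agnostic).  The only change with respect to `toric_exponent` is the admissible family: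
`(F : MarkedFamily) (hR : RankOneBoundM F D I r χ) (M₀) (hOk : F.Ok (M × Dual M C) (prodMark C M₀))`
instead of `(F : AdmFamily) (φ₀) (hR : RankOneBound F D I r χ φ₀) (hOk : F.Ok (M × Dual M C))`.
-/
import Mathlib
import Fermat.Agent.MAZ.Hecke.EisRelNE55
import Fermat.Agent.MAZ.Desc.ToricAsmM50

set_option autoImplicit false
set_option linter.unusedSectionVars false
set_option linter.style.haveILetI false

open AlgebraicCurve ModularCurve

noncomputable section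

namespace Fermat.Agent.MAZ.Hecke.EisRelNEM55

open Fermat.Agent.MAZ.Spec.XSpec62 Fermat.Agent.MAZ.Hecke.EisRel55
open Fermat.Agent.MAZ.Hecke.EisRelNE55
open Fermat.Agent.MAZ.Desc.MuModule11 Fermat.Agent.MAZ.Desc.DualModule2
open Fermat.Agent.MAZ.Desc.DevissageMarked95 Fermat.Agent.MAZ.Desc.DualDevissageMarked95
open Fermat.Agent.MAZ.Desc.ToricAsmM50

variable {p : ℕ} [NeZero p]

/-- **(PT)_P, exponent form, marked (`r = 2`) version, on a stable piece `M` of `J₀(p)[m]`.** -/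
theorem toric_exponent_marked (hp : p.Prime) {r : ℕ} [Fact r.Prime] {m : ℕ} (hm : m ≠ 0)
    (hrm : r ∣ m) (hfin : {y : JZero p | m • y = 0}.Finite)
    {T : Type*} [CommRing T] (ev : T →+* Module.End ℤ (JZero p)) (π : T →+* ZMod r)
    (hev : ∀ ℓ : Nat.Primes, (ℓ : ℕ) ≠ p → ¬ (ℓ : ℕ) ∣ m →
      ∃ t : T, ev t = heckeOperatorBar p ℓ ∧ π t = ((ℓ : ℕ) : ZMod r) + 1)
    {M : Type} [AddCommGroup M] [DistribMulAction GQ M] [Module T M] [SMulCommClass GQ T M]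
    [Finite M]
    (ι : M →+ JZero p) (hι : Function.Injective ι)
    (hιG : ∀ (g : GQ) (x : M), ι (g • x) = g • ι x)
    (hιT : ∀ (t : T) (x : M), ι (t • x) = ev t (ι x))
    (hιm : ∀ x : M, m • ι x = 0)
    (hnil : ∃ n : ℕ, ∀ t ∈ (RingHom.ker π) ^ n, ∀ x : M, t • x = 0)
    (n' : ℕ) (hn' : 0 < n') {κ : Type*} [Fintype κ] (ℓ : κ → Nat.Primes)
    (hℓ : ∀ i, (ℓ i : ℕ) ≠ p ∧ ¬ (ℓ i : ℕ) ∣ m) (s : κ → T)
    (hsum : ∀ x : JZero p, m • x = 0 →
      n' • x = ∑ i, ev (s i) (heckeOperatorBar p (ℓ i) x - (1 + (ℓ i : ℕ)) • x))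
    {D I : Subgroup GQ} (F : MarkedFamily.{0} GQ)
    (hR : RankOneBoundM F D I r (chiMod r))
    (hIC : ∀ γ ∈ I, ∀ c : Mu m, γ • c = c)
    (M₀ : AddSubgroup M) (hOk : F.Ok (M × Dual M (Mu m)) (prodMark (Mu m) M₀))
    (σ : GQ) (hσ : σ ∈ I) (hcyc : ∀ γ ∈ I, ∃ n : ℕ, ∀ x : M, γ • x = σ ^ n • x)
    (hN2 : ∀ x : M, σ • (σ • x - x) = σ • x - x)
    (b₀ d₀ : ℕ) (hb : Nat.card (Fermat.Agent.MAZ.Desc.ToricAsm50.tors n' M) ≤ b₀)
    (hd : (⊤ : Submodule T M).spanFinrank ≤ d₀) (w : M) (hw : σ • w = w) :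
    ∃ x : M, (((b₀ * n' ^ b₀) * (b₀ * n' ^ b₀)) ^ d₀).factorial • w = σ • x - x := by
  haveI : NeZero m := ⟨hm⟩
  obtain ⟨τ, δ, E, hδ, hMC, a, ha, hNE⟩ :=
    exists_toric_inputs hp hm hrm hfin ev π hev ι hι hιG hιT hιm hnil n' ℓ hℓ s hsum
  exact factorial_nsmul_fixed_le_range_marked F hR (Mu m) hMC hIC hδ E M₀ hOk σ hσ hcyc hN2 n' hn'
    a ha hNE b₀ d₀ hb hd w hw

end Fermat.Agent.MAZ.Hecke.EisRelNEM55
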