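/-
MAZ (S15), G-side, the (HOM-mu) / NO-EIS line, brick (C) TRANSFER (helper85).

Input (B) (EIS-INDEX, taken as the hypothesis `hB`): a positive integer `n'` lies in the Eisenstein
ideal `I' = (T_ℓ - 1 - ℓ : ℓ ∉ S)` of the anemic Hecke algebra `𝕋 = heckeAlgebra N 2 S`.

Output: the same `n'` kills "Eisenstein quotients" of every `J₀(N)[r^k]`:

* (PROJ-SURJ, `proj k : T_r J → J[r^k]` onto for an `r`-divisible group, is helper32's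
  `ProjSurj32.exists_proj_eq`);
* `heckeSubAway N S` : the subalgebra of `End (JZero N)` generated by the `T_ℓ`, `ℓ ∉ S`;
* `exists_end` : every `c ∈ 𝕋` acts on all `J₀(N)[r^k]` (all `r`, all `k`) through ONE element of
  `heckeSubAway N S` (via `HeckeTate26.evZ`, the action of `𝕋` on the Tate modules);
* `exists_eis_sum` : `n' • y = ∑ t_i (T_{ℓ_i} y - (1 + ℓ_i) y) = ∑ (T_{ℓ_i} (t_i y) - (1 + ℓ_i) t_i y)`
  for all `y ∈ J₀(N)[r^k]`, with `t_i ∈ heckeSubAway N S`, `ℓ_i ∉ S`, all independent of `r`, `k`;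
* `exists_eis_index` : the subgroup form (C2);
* `exists_eis_sum_prime`, `exists_eis_sum_pair` : the form (C1) at prime level `p`, operators in
  `XSpec62.heckeSub p`.

Everything here takes the divisibility of `JZero N` as the hypothesis `hdiv`; the unconditional
statements are in `EisTransferFinal85` (which imports `JZeroDiv30`).
-/
import Mathlib
import Fermat.Agent.ES.K.HeckeTate26
import Fermat.Agent.MAZ.Spec.XSpec62
import Fermat.Agent.MAZ.Hecke.ProjSurj32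

set_option autoImplicit false
set_option linter.unusedSectionVars false

noncomputable section

namespace Fermat.Agent.MAZ.Hecke.EisTransfer85

open TensorProduct CuspForm ModularCurve
open Fermat.Agent.ES.J.TateModule13 Fermat.Agent.ES.J.TateJZero13 Fermat.Agent.ES.K.HeckeTate26
open Fermat.Agent.ES.HEQ.FaithFinal26

/-! ### the Hecke algebra acts on `J[r^k]` through `End (JZero N)` -/

variable (N : ℕ) [NeZero N] (S : Set ℕ)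

/-- The subalgebra of `End (JZero N)` generated by the Hecke operators `T_ℓ`, `ℓ ∉ S`. -/
def heckeSubAway : Subalgebra ℤ (Module.End ℤ (JZero N)) :=
  Algebra.adjoin ℤ ((heckeOperatorBar N) '' {m : Nat.Primes | (m : ℕ) ∉ S})

theorem heckeOperatorBar_mem_heckeSubAway {ℓ : ℕ} (hℓ : ℓ.Prime) (hℓS : ℓ ∉ S) :
    heckeOperatorBar N ⟨ℓ, hℓ⟩ ∈ heckeSubAway N S :=
  Algebra.subset_adjoin ⟨⟨ℓ, hℓ⟩, hℓS, rfl⟩

variable {N S}

/-- a subgroup stable under the `T_ℓ`, `ℓ ∉ S`, is stable under `heckeSubAway N S`. -/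
theorem mem_of_mem_heckeSubAway {M : AddSubgroup (JZero N)}
    (hM : ∀ (ℓ : ℕ) (hℓ : ℓ.Prime), ℓ ∉ S → ∀ x ∈ M, heckeOperatorBar N ⟨ℓ, hℓ⟩ x ∈ M)
    {t : Module.End ℤ (JZero N)} (ht : t ∈ heckeSubAway N S) : ∀ x ∈ M, t x ∈ M := by
  unfold heckeSubAway at ht
  induction ht using Algebra.adjoin_induction with
  | mem y hy =>
    obtain ⟨⟨ℓ, hℓ⟩, hℓS, rfl⟩ := hy
    exact hM ℓ hℓ hℓS
  | algebraMap n =>
    intro x hx
    rw [eq_intCast, Module.End.intCast_apply]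
    exact M.zsmul_mem hx n
  | add y z _ _ ihy ihz =>
    intro x hx
    exact M.add_mem (ihy x hx) (ihz x hx)
  | mul y z _ _ ihy ihz =>
    intro x hx
    exact ihy _ (ihz x hx)

variable (hS : ∀ q : ℕ, q.Prime → q ∣ N → q ∈ S)

/-- the action of the anemic Hecke algebra on the `r`-adic Tate module of `J₀(N)`
(unconditional; `HeckeTate26.evZ` at the comparison `iotaJ`). -/
def evZJ (r : ℕ) [Fact r.Prime] : ↥(heckeAlgebra N 2 S) →ₐ[ℤ] Module.End ℤ_[r] (TJ r N) :=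
  evZ S hS (iotaJ r N) (isBaseChange_iotaJ r N)

theorem evZJ_T (r : ℕ) [Fact r.Prime] (ℓ : ℕ) (hℓ : ℓ.Prime) (hℓN : ¬ ℓ ∣ N) (hℓS : ℓ ∉ S) :
    evZJ hS r (heckeAlgebra.T hℓ hℓN hℓS) = tT r N ⟨ℓ, hℓ⟩ :=
  evJ_T S hS ℓ hℓ hℓN hℓS

/-- **every element of the Hecke algebra acts on all the `J₀(N)[r^k]` through one element of
`heckeSubAway N S`.** -/
theorem exists_end (c : ↥(heckeAlgebra N 2 S)) :
    ∃ t ∈ heckeSubAway N S, ∀ (r : ℕ) [Fact r.Prime] (x : TJ r N) (k : ℕ),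
      proj k (evZJ hS r c x) = t (proj k x) := by
  obtain ⟨c, hc⟩ := c
  induction hc using Algebra.adjoin_induction with
  | mem y hy =>
    rw [heckeGenerators_eq S hS] at hy
    obtain ⟨ℓ, hℓ, hℓN, hℓS, rfl⟩ := hy
    refine ⟨heckeOperatorBar N ⟨ℓ, hℓ⟩, heckeOperatorBar_mem_heckeSubAway N S hℓ hℓS, ?_⟩
    intro r _ x k
    have h1 : (⟨heckeTLin 2 hℓ hℓN, Algebra.subset_adjoin
        (heckeTLin_mem_heckeGenerators hℓ hℓN hℓS)⟩ : ↥(heckeAlgebra N 2 S)) =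
        heckeAlgebra.T hℓ hℓN hℓS := rfl
    rw [h1, evZJ_T]
    rfl
  | algebraMap n =>
    refine ⟨algebraMap ℤ _ n, Subalgebra.algebraMap_mem _ n, ?_⟩
    intro r _ x k
    have h1 : (⟨algebraMap ℤ _ n, Subalgebra.algebraMap_mem _ n⟩ : ↥(heckeAlgebra N 2 S)) =
        algebraMap ℤ ↥(heckeAlgebra N 2 S) n := rfl
    rw [h1, AlgHom.commutes, eq_intCast, eq_intCast, Module.End.intCast_apply,
      Module.End.intCast_apply, map_zsmul]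
  | add y z hy hz ihy ihz =>
    obtain ⟨t1, ht1, h1⟩ := ihy
    obtain ⟨t2, ht2, h2⟩ := ihz
    refine ⟨t1 + t2, Subalgebra.add_mem _ ht1 ht2, ?_⟩
    intro r _ x k
    have h3 : (⟨y + z, Subalgebra.add_mem _ hy hz⟩ : ↥(heckeAlgebra N 2 S)) =
        ⟨y, hy⟩ + ⟨z, hz⟩ := rfl
    rw [h3, map_add, LinearMap.add_apply, map_add, h1, h2, LinearMap.add_apply]
  | mul y z hy hz ihy ihz =>
    obtain ⟨t1, ht1, h1⟩ := ihy
    obtain ⟨t2, ht2, h2⟩ := ihz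
    refine ⟨t1 * t2, Subalgebra.mul_mem _ ht1 ht2, ?_⟩
    intro r _ x k
    have h3 : (⟨y * z, Subalgebra.mul_mem _ hy hz⟩ : ↥(heckeAlgebra N 2 S)) =
        ⟨y, hy⟩ * ⟨z, hz⟩ := rfl
    rw [h3, map_mul, Module.End.mul_apply, h1, h2, Module.End.mul_apply]

/-- the action of an Eisenstein generator `T_ℓ - (1 + ℓ)` on `J₀(N)[r^k]`. -/
theorem proj_evZJ_eisGen (r : ℕ) [Fact r.Prime] (ℓ : ℕ) (hℓ : ℓ.Prime) (hℓN : ¬ ℓ ∣ N)
    (hℓS : ℓ ∉ S) (x : TJ r N) (k : ℕ) :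
    proj k (evZJ hS r (heckeAlgebra.T hℓ hℓN hℓS -
      (((1 + ℓ : ℕ) : ℕ) : ↥(heckeAlgebra N 2 S))) x) =
      heckeOperatorBar N ⟨ℓ, hℓ⟩ (proj k x) - (1 + ℓ) • proj k x := by
  rw [map_sub, map_natCast, LinearMap.sub_apply, evZJ_T, Module.End.natCast_apply, map_sub,
    map_nsmul]
  rfl

/-- the Eisenstein generators `T_ℓ - (1 + ℓ)`, `ℓ ∉ S`, of the Eisenstein ideal. -/
def eisSet (N : ℕ) [NeZero N] (S : Set ℕ) : Set ↥(heckeAlgebra N 2 S) :=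
  {x | ∃ (ℓ : ℕ) (hℓ : ℓ.Prime) (hℓN : ¬ ℓ ∣ N) (hℓS : ℓ ∉ S),
    x = heckeAlgebra.T hℓ hℓN hℓS - (((1 + ℓ : ℕ) : ℕ) : ↥(heckeAlgebra N 2 S))}

/-- **an element of the Eisenstein ideal acts on every `J₀(N)[r^k]` as a sum
`∑ t_i (T_{ℓ_i} - 1 - ℓ_i)`** (in both orders), with data independent of `r` and `k`. -/
theorem transfer_of_mem_span {a : ↥(heckeAlgebra N 2 S)} (ha : a ∈ Ideal.span (eisSet N S)) :
    ∃ (m : ℕ) (ℓ : Fin m → Nat.Primes) (t : Fin m → Module.End ℤ (JZero N)),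
      (∀ i, (ℓ i : ℕ) ∉ S ∧ ¬ (ℓ i : ℕ) ∣ N) ∧ (∀ i, t i ∈ heckeSubAway N S) ∧
      ∀ (r : ℕ) [Fact r.Prime] (x : TJ r N) (k : ℕ),
        proj k (evZJ hS r a x) =
          ∑ i, t i (heckeOperatorBar N (ℓ i) (proj k x) - (1 + (ℓ i : ℕ)) • proj k x) ∧
        proj k (evZJ hS r a x) =
          ∑ i, (heckeOperatorBar N (ℓ i) (t i (proj k x)) - (1 + (ℓ i : ℕ)) • t i (proj k x)) := by
  rw [Ideal.span, Submodule.mem_span_set'] at ha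
  obtain ⟨m, f, g, rfl⟩ := ha
  have hg : ∀ i, ∃ (ℓ : ℕ) (hℓ : ℓ.Prime) (hℓN : ¬ ℓ ∣ N) (hℓS : ℓ ∉ S),
      ((g i : ↥(heckeAlgebra N 2 S))) = heckeAlgebra.T hℓ hℓN hℓS -
        (((1 + ℓ : ℕ) : ℕ) : ↥(heckeAlgebra N 2 S)) := fun i => (g i).2
  choose ℓ hℓ hℓN hℓS hgi using hg
  have hf : ∀ i, ∃ t ∈ heckeSubAway N S, ∀ (r : ℕ) [Fact r.Prime] (x : TJ r N) (k : ℕ),
      proj k (evZJ hS r (f i) x) = t (proj k x) := fun i => exists_end hS (f i)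
  choose t ht htf using hf
  refine ⟨m, fun i => ⟨ℓ i, hℓ i⟩, t, fun i => ⟨hℓS i, hℓN i⟩, ht, ?_⟩
  intro r _ x k
  constructor
  · rw [map_sum, LinearMap.sum_apply, map_sum]
    refine Finset.sum_congr rfl fun i _ => ?_
    rw [smul_eq_mul, map_mul, Module.End.mul_apply, htf, hgi i, proj_evZJ_eisGen]
  · rw [map_sum, LinearMap.sum_apply, map_sum]
    refine Finset.sum_congr rfl fun i _ => ?_
    rw [smul_eq_mul, mul_comm, map_mul, Module.End.mul_apply, hgi i, proj_evZJ_eisGen, htf]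

include hS in
/-- **(C), sum form**: if a positive integer `n'` lies in the Eisenstein ideal of `𝕋_S` then, on
every `J₀(N)[r^k]`, `n'` is a `heckeSubAway`-combination of the `T_ℓ - 1 - ℓ`, `ℓ ∉ S`
(in both orders; the data do not depend on `r` and `k`). -/
theorem exists_eis_sum
    (hB : ∃ n' : ℕ, 0 < n' ∧ ((n' : ℕ) : ↥(heckeAlgebra N 2 S)) ∈ Ideal.span (eisSet N S)) :
    ∃ n' : ℕ, 0 < n' ∧ ∃ (m : ℕ) (ℓ : Fin m → Nat.Primes)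
      (t : Fin m → Module.End ℤ (JZero N)),
      (∀ i, (ℓ i : ℕ) ∉ S ∧ ¬ (ℓ i : ℕ) ∣ N) ∧ (∀ i, t i ∈ heckeSubAway N S) ∧
      ∀ (r : ℕ) [Fact r.Prime], (∀ z : JZero N, ∃ y : JZero N, r • y = z) →
        ∀ (k : ℕ) (y : JZero N), r ^ k • y = 0 →
          n' • y = ∑ i, t i (heckeOperatorBar N (ℓ i) y - (1 + (ℓ i : ℕ)) • y) ∧
          n' • y = ∑ i, (heckeOperatorBar N (ℓ i) (t i y) - (1 + (ℓ i : ℕ)) • t i y) := by
  obtain ⟨n', hn', hmem⟩ := hB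
  obtain ⟨m, ℓ, t, hℓ, ht, H⟩ := transfer_of_mem_span hS hmem
  refine ⟨n', hn', m, ℓ, t, hℓ, ht, ?_⟩
  intro r _ hdiv k y hy
  obtain ⟨x, rfl⟩ := Fermat.Agent.MAZ.Hecke.ProjSurj32.exists_proj_eq hdiv k y hy
  have h0 : proj k (evZJ hS r ((n' : ℕ) : ↥(heckeAlgebra N 2 S)) x) = n' • proj k x := by
    rw [map_natCast, Module.End.natCast_apply, map_nsmul]
  obtain ⟨h1, h2⟩ := H r x k
  exact ⟨h0.symm.trans h1, h0.symm.trans h2⟩

/-! ### (C2): the subgroup form -/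

/-- **(C2) TRANSFER, subgroup form** (helper67's literal, with (B) as the hypothesis `hB` and the
divisibility of `JZero N` as `hdiv`). -/
theorem exists_eis_index_of (N : ℕ) [NeZero N] (S : Finset ℕ)
    (hS : ∀ q : ℕ, q.Prime → q ∣ N → q ∈ S)
    (hdiv : ∀ (n : ℕ), n ≠ 0 → ∀ z : JZero N, ∃ y : JZero N, n • y = z)
    (hB : ∃ n' : ℕ, 0 < n' ∧ ((n' : ℕ) : ↥(CuspForm.heckeAlgebra N 2 (S : Set ℕ))) ∈
      Ideal.span {x | ∃ (ℓ : ℕ) (hℓ : ℓ.Prime) (hℓN : ¬ ℓ ∣ N) (hℓS : ℓ ∉ (S : Set ℕ)),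
        x = CuspForm.heckeAlgebra.T hℓ hℓN hℓS -
          (((1 + ℓ : ℕ) : ℕ) : ↥(CuspForm.heckeAlgebra N 2 (S : Set ℕ)))}) :
    ∃ n' : ℕ, 0 < n' ∧ ∀ (r : ℕ) [Fact r.Prime] (k : ℕ) (M : AddSubgroup (JZero N)),
      (∀ x ∈ M, r ^ k • x = 0) →
      (∀ (ℓ : ℕ) (hℓ : ℓ.Prime), ℓ ∉ S → ∀ x ∈ M, heckeOperatorBar N ⟨ℓ, hℓ⟩ x ∈ M) →
      ∀ x ∈ M, n' • x ∈ AddSubgroup.closure {z : JZero N | ∃ (ℓ : ℕ) (hℓ : ℓ.Prime),
        ℓ ∉ S ∧ ∃ y ∈ M, z = heckeOperatorBar N ⟨ℓ, hℓ⟩ y - (1 + ℓ) • y} := by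
  have hS' : ∀ q : ℕ, q.Prime → q ∣ N → q ∈ (S : Set ℕ) := fun q hq hqN =>
    Finset.mem_coe.mpr (hS q hq hqN)
  obtain ⟨n', hn', m, ℓ, t, hℓ, ht, H⟩ := exists_eis_sum (S := (S : Set ℕ)) hS' hB
  refine ⟨n', hn', ?_⟩
  intro r hr k M hM hT x hx
  have hT' : ∀ (ℓ : ℕ) (hℓ : ℓ.Prime), ℓ ∉ (S : Set ℕ) → ∀ x ∈ M,
      heckeOperatorBar N ⟨ℓ, hℓ⟩ x ∈ M := fun ℓ hℓ hℓS => hT ℓ hℓ fun h => hℓS (Finset.mem_coe.mpr h)
  rw [(H r (hdiv r hr.out.ne_zero) k x (hM x hx)).2]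
  refine AddSubgroup.sum_mem _ fun i _ => AddSubgroup.subset_closure ?_
  exact ⟨(ℓ i : ℕ), (ℓ i).2, fun h => (hℓ i).1 (Finset.mem_coe.mpr h), t i x,
    mem_of_mem_heckeSubAway hT' (ht i) x hx, rfl⟩

/-! ### (C1): prime level, operators in `XSpec62.heckeSub p` -/

open Fermat.Agent.MAZ.Spec.XSpec62 in
/-- at prime level `p ∈ S`, `heckeSubAway p S ≤ heckeSub p`. -/
theorem heckeSubAway_le_heckeSub (p : ℕ) [Fact p.Prime] {S : Set ℕ} (hpS : p ∈ S) :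
    heckeSubAway p S ≤ heckeSub p := by
  refine Algebra.adjoin_mono ?_
  rintro _ ⟨m, hm, rfl⟩
  exact ⟨m, fun h => hm (h ▸ hpS), rfl⟩

open Fermat.Agent.MAZ.Spec.XSpec62 in
/-- **(C1) TRANSFER at prime level `p`**, for a finite set `S ∋ p, r`: (B) as the hypothesis `hB`,
divisibility of `JZero p` by `r` as `hdiv`. -/
theorem exists_eis_sum_prime (p r : ℕ) [Fact p.Prime] [Fact r.Prime] (S : Finset ℕ) (hpS : p ∈ S)
    (hrS : r ∈ S) (hdiv : ∀ z : JZero p, ∃ y : JZero p, r • y = z)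
    (hB : ∃ n' : ℕ, 0 < n' ∧ ((n' : ℕ) : ↥(CuspForm.heckeAlgebra p 2 (S : Set ℕ))) ∈
      Ideal.span {x | ∃ (ℓ : ℕ) (hℓ : ℓ.Prime) (hℓN : ¬ ℓ ∣ p) (hℓS : ℓ ∉ (S : Set ℕ)),
        x = CuspForm.heckeAlgebra.T hℓ hℓN hℓS -
          (((1 + ℓ : ℕ) : ℕ) : ↥(CuspForm.heckeAlgebra p 2 (S : Set ℕ)))}) :
    ∃ n' : ℕ, 0 < n' ∧ ∃ (ι : Type) (_ : Fintype ι) (ℓ : ι → Nat.Primes)
      (t : ι → Module.End ℤ (JZero p)),
      (∀ i, (ℓ i : ℕ) ≠ p ∧ (ℓ i : ℕ) ≠ r) ∧ (∀ i, t i ∈ heckeSub p) ∧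
      ∀ k, ∀ x : JZero p, r ^ k • x = 0 →
        n' • x = ∑ i, t i (heckeOperatorBar p (ℓ i) x - (1 + (ℓ i : ℕ)) • x) ∧
        n' • x = ∑ i, (heckeOperatorBar p (ℓ i) (t i x) - (1 + (ℓ i : ℕ)) • t i x) := by
  have hS' : ∀ q : ℕ, q.Prime → q ∣ p → q ∈ (S : Set ℕ) := by
    intro q hq hqp
    have : q = p := (Nat.prime_dvd_prime_iff_eq hq (Fact.out : p.Prime)).mp hqp
    rw [this]
    exact Finset.mem_coe.mpr hpS
  obtain ⟨n', hn', m, ℓ, t, hℓ, ht, H⟩ := exists_eis_sum (S := (S : Set ℕ)) hS' hB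
  refine ⟨n', hn', Fin m, inferInstance, ℓ, t, ?_, ?_, ?_⟩
  · intro i
    refine ⟨fun h => (hℓ i).1 ?_, fun h => (hℓ i).1 ?_⟩
    · rw [h]
      exact Finset.mem_coe.mpr hpS
    · rw [h]
      exact Finset.mem_coe.mpr hrS
  · intro i
    exact heckeSubAway_le_heckeSub p (Finset.mem_coe.mpr hpS) (ht i)
  · intro k x hx
    exact H r hdiv k x hx

end Fermat.Agent.MAZ.Hecke.EisTransfer85
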