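/-
MAZ (S15), G-side, the (HOM-mu) / NO-EIS line, brick (C) TRANSFER, unconditional form (helper85).

`EisTransfer85` with its two hypotheses discharged:
* `hB` (EIS-INDEX, (A)+(B)) := helper11's `NoEisAlg11.exists_nat_mem_eisIdeal_finset`;
* `hdiv` (divisibility of `JZero N`) := helper30's `JZeroDiv30.jzero_nsmul_surjective`.

* `proj_surjective_jzero` : `proj k : T_r J₀(N) → J₀(N)[r^k]` is onto;
* `exists_eis_index` : (C2), the subgroup form;
* `exists_eis_transfer` : (C1), prime level `p`, `S ∋ p, r`, operators in `XSpec62.heckeSub p`;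
* `exists_eis_transfer_pair` : (C1) for `S = {p, r}`, first sum only (literal of the G-table).
-/
import Mathlib
import Fermat.Agent.MAZ.Hecke.EisTransfer85
import Fermat.Agent.MAZ.Desc.JZeroDiv30
import Fermat.Agent.MAZ.Desc.NoEisAlg11

set_option autoImplicit false
set_option linter.unusedSectionVars false

noncomputable section

namespace Fermat.Agent.MAZ.Hecke.EisTransferFinal85

open CuspForm ModularCurve
open Fermat.Agent.ES.J.TateModule13 Fermat.Agent.ES.J.TateJZero13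
open Fermat.Agent.MAZ.Hecke.EisTransfer85 Fermat.Agent.MAZ.Desc.JZeroDiv30
open Fermat.Agent.MAZ.Desc.NoEisAlg11 Fermat.Agent.MAZ.Spec.XSpec62

/-- **PROJ-SURJ**: `proj k : T_r J₀(N) → J₀(N)[r^k]` is onto. -/
theorem proj_surjective_jzero (r : ℕ) [hr : Fact r.Prime] (N : ℕ) [NeZero N] (k : ℕ)
    (y : JZero N) (hy : r ^ k • y = 0) : ∃ x : TJ r N, proj k x = y :=
  Fermat.Agent.MAZ.Hecke.ProjSurj32.exists_proj_eq
    (fun z => jzero_nsmul_surjective N r hr.out.ne_zero z) k y hy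

/-- **(C2) TRANSFER, subgroup form, unconditional**: one positive integer `n'` (depending on `N`, `S`
only) such that for every prime `r`, every `k` and every subgroup `M ≤ J₀(N)[r^k]` stable under the
`T_ℓ`, `ℓ ∉ S`: `n' • M ⊆ ∑_ℓ (T_ℓ - 1 - ℓ) M`. -/
theorem exists_eis_index (N : ℕ) [NeZero N] (S : Finset ℕ)
    (hS : ∀ q : ℕ, q.Prime → q ∣ N → q ∈ S) :
    ∃ n' : ℕ, 0 < n' ∧ ∀ (r : ℕ) [Fact r.Prime] (k : ℕ) (M : AddSubgroup (JZero N)),
      (∀ x ∈ M, r ^ k • x = 0) →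
      (∀ (ℓ : ℕ) (hℓ : ℓ.Prime), ℓ ∉ S → ∀ x ∈ M, heckeOperatorBar N ⟨ℓ, hℓ⟩ x ∈ M) →
      ∀ x ∈ M, n' • x ∈ AddSubgroup.closure {z : JZero N | ∃ (ℓ : ℕ) (hℓ : ℓ.Prime),
        ℓ ∉ S ∧ ∃ y ∈ M, z = heckeOperatorBar N ⟨ℓ, hℓ⟩ y - (1 + ℓ) • y} :=
  exists_eis_index_of N S hS (fun n hn z => jzero_nsmul_surjective N n hn z)
    (exists_nat_mem_eisIdeal_finset N S hS)

/-- **(C1) TRANSFER at prime level `p`, unconditional**, for a finite set `S ∋ p, r`. -/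
theorem exists_eis_transfer (p r : ℕ) [hp : Fact p.Prime] [hr : Fact r.Prime] (S : Finset ℕ)
    (hpS : p ∈ S) (hrS : r ∈ S) :
    ∃ n' : ℕ, 0 < n' ∧ ∃ (ι : Type) (_ : Fintype ι) (ℓ : ι → Nat.Primes)
      (t : ι → Module.End ℤ (JZero p)),
      (∀ i, (ℓ i : ℕ) ≠ p ∧ (ℓ i : ℕ) ≠ r) ∧ (∀ i, t i ∈ heckeSub p) ∧
      ∀ k, ∀ x : JZero p, r ^ k • x = 0 →
        n' • x = ∑ i, t i (heckeOperatorBar p (ℓ i) x - (1 + (ℓ i : ℕ)) • x) ∧
        n' • x = ∑ i, (heckeOperatorBar p (ℓ i) (t i x) - (1 + (ℓ i : ℕ)) • t i x) := by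
  refine exists_eis_sum_prime p r S hpS hrS
    (fun z => jzero_nsmul_surjective p r hr.out.ne_zero z)
    (exists_nat_mem_eisIdeal_finset p S fun q hq hqp => ?_)
  have : q = p := (Nat.prime_dvd_prime_iff_eq hq hp.out).mp hqp
  rw [this]
  exact hpS

/-- **(C1), literal of the G-table** (`S = {p, r}`, first sum). -/
theorem exists_eis_transfer_pair (p r : ℕ) [Fact p.Prime] [Fact r.Prime] :
    ∃ n' : ℕ, 0 < n' ∧ ∃ (ι : Type) (_ : Fintype ι) (ℓ : ι → Nat.Primes)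
      (t : ι → Module.End ℤ (JZero p)),
      (∀ i, (ℓ i : ℕ) ≠ p ∧ (ℓ i : ℕ) ≠ r) ∧ (∀ i, t i ∈ heckeSub p) ∧
      ∀ k, ∀ x : JZero p, r ^ k • x = 0 →
        n' • x = ∑ i, t i (heckeOperatorBar p (ℓ i) x - (1 + (ℓ i : ℕ)) • x) := by
  obtain ⟨n', hn', ι, hι, ℓ, t, hℓ, ht, H⟩ := exists_eis_transfer p r {p, r}
    (Finset.mem_insert_self p _) (Finset.mem_insert_of_mem (Finset.mem_singleton_self r))
  exact ⟨n', hn', ι, hι, ℓ, t, hℓ, ht, fun k x hx => (H k x hx).1⟩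

end Fermat.Agent.MAZ.Hecke.EisTransferFinal85
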