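/-
Program MAZ (S15), chapter Hecke, helper71: **G-MODEL + G-CUSP** — line 1 of helper26's G-side table.

The contracts of `MAZ/Spec/GSpec26` which concern the Hecke algebra, for `T := ↥(heckeSub p)` with
the commutative ring structure `HeckeComm71.heckeSubCommRing p hp`:

* `heckeComm`, `heckeGalois`        : the contracts `GSpec26.HeckeComm p`, `GSpec26.HeckeGalois p`;
* `heckeModel hp`                   : `GSpec26.HeckeModel p ↥(heckeSub p)`; `existsHeckeModel`;
* `exists_prime_order`              : a multiple `m • c` of the cuspidal class `c = (0) - (∞)` has prime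
                                      order `r ∣ p - 1` (`p ∉ {2,3,5,7,13}`);
* `cuspEis_eisChar`                 : `GSpec26.CuspEis` for `π := EisChar71.eisChar`;
* `exists_cuspEis`, `cuspEis`       : the existence statements, with `π (T_ℓ) = ℓ + 1`, `ker π` maximal,
                                      `r ∣ p - 1`.
-/
import Mathlib
import Fermat.Agent.MAZ.Spec.GSpec26
import Fermat.Agent.MAZ.Hecke.EisChar71
import Fermat.Agent.MAZ.Cusp.CuspPkg55

set_option autoImplicit false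
set_option linter.unusedSectionVars false
set_option linter.style.haveILetI false

open AlgebraicCurve ModularCurve

noncomputable section

namespace Fermat.Agent.MAZ.Hecke.GModel71

open Fermat.Agent.X0 Fermat.Agent.MAZ.Spec Fermat.Agent.MAZ.Spec.XSpec62
open Fermat.Agent.MAZ.Hecke.CuspBridge71 Fermat.Agent.MAZ.Hecke.HeckeComm71
open Fermat.Agent.MAZ.Hecke.EisChar71

variable {p : ℕ} [NeZero p]

/-! ### (G-COMM), (G-GAL), (G-MODEL) -/

/-- **(G-COMM)**, literal contract of `GSpec26`. -/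
theorem heckeComm (hp : p.Prime) : GSpec26.HeckeComm p := fun m m' hm hm' =>
  heckeOperatorBar_comm m m' (not_dvd_of_prime_ne p hp m hm) (not_dvd_of_prime_ne p hp m' hm')

/-- **(G-GAL)**, literal contract of `GSpec26`. -/
theorem heckeGalois : GSpec26.HeckeGalois p := fun m _ σ z =>
  (Fermat.Agent.ES.HECKE.HeckeGalois12.heckeOperatorBar_smul p m σ z).symm

/-- **(G-MODEL)** `↥(heckeSub p)` with its commutative ring structure is a Hecke model. -/
theorem heckeModel (hp : p.Prime) :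
    letI := heckeSubCommRing p hp
    GSpec26.HeckeModel p ↥(heckeSub p) := by
  letI := heckeSubCommRing p hp
  refine ⟨fun f => ⟨fun hf => ⟨⟨f, hf⟩, fun z => rfl⟩, ?_⟩, fun t σ z => ?_⟩
  · rintro ⟨t, ht⟩
    have h : f = (t : Module.End ℤ (JZero p)) := LinearMap.ext ht
    rw [h]
    exact t.2
  · exact (heckeSub_apply_smul p t.2 σ z).symm

/-- **(G-MODEL)**, existence form: literal contract `GSpec26.ExistsHeckeModel p`. -/
theorem existsHeckeModel (hp : p.Prime) : GSpec26.ExistsHeckeModel p :=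
  ⟨↥(heckeSub p), heckeSubCommRing p hp, inferInstance, heckeModel hp⟩

/-! ### The cuspidal class has a multiple of prime order -/

section Order

variable {G : Type*} [AddCommGroup G]

/-- an element `c ≠ 0` killed by `N > 0` has a multiple of prime order dividing `N`. -/
theorem exists_prime_addOrderOf_nsmul {c : G} (hc : c ≠ 0) {N : ℕ} (hN : 0 < N)
    (hNc : N • c = 0) :
    ∃ r m : ℕ, r.Prime ∧ r ∣ N ∧ addOrderOf (m • c) = r := by
  have hdvd : addOrderOf c ∣ N := addOrderOf_dvd_of_nsmul_eq_zero hNc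
  have hn0 : addOrderOf c ≠ 0 := fun h => by
    rw [h, zero_dvd_iff] at hdvd
    omega
  have hn1 : addOrderOf c ≠ 1 := fun h => hc (AddMonoid.addOrderOf_eq_one_iff.mp h)
  obtain ⟨r, hr, hrn⟩ := Nat.exists_prime_and_dvd hn1
  refine ⟨r, addOrderOf c / r, hr, hrn.trans hdvd, ?_⟩
  have hm0 : addOrderOf c / r ≠ 0 := by
    intro h
    rcases Nat.div_eq_zero_iff.mp h with h | h
    · exact hr.ne_zero h
    · exact absurd (Nat.le_of_dvd (Nat.pos_of_ne_zero hn0) hrn) (not_le.mpr h)
  rw [addOrderOf_nsmul_of_dvd hm0 (Nat.div_dvd_of_dvd hrn), Nat.div_div_self hrn hn0]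

end Order

/-- **a multiple of the cuspidal class has prime order `r ∣ p - 1`.** -/
theorem exists_prime_order (hp : p.Prime) (hp' : p ∉ ({2, 3, 5, 7, 13} : Finset ℕ))
    (hdeg : DegOne p) {cZ : Place Qb (FF p)} (hZ : IsCuspZero p cZ) :
    ∃ r m : ℕ, r.Prime ∧ r ∣ p - 1 ∧
      addOrderOf (m • pointClass hdeg cZ (cuspInf p)) = r := by
  haveI : Fact p.Prime := ⟨hp⟩
  have hcZ : cZ = Fermat.Agent.MAZ.Cusp.CuspPlaces55.cuspZero p :=
    Fermat.Agent.MAZ.Cusp.CuspPkg55.eq_cuspZero_of_isCuspZero p cZ hZ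
  subst hcZ
  have hne : pointClass hdeg (Fermat.Agent.MAZ.Cusp.CuspPlaces55.cuspZero p) (cuspInf p) ≠ 0 :=
    Fermat.Agent.MAZ.Cusp.CuspPkg55.pointClass_cusp_ne_zero p hp'
  have hord : (p - 1) • pointClass hdeg (Fermat.Agent.MAZ.Cusp.CuspPlaces55.cuspZero p)
      (cuspInf p) = 0 := (Fermat.Agent.MAZ.Cusp.CuspPkg55.cuspPkg p).order
  have hp1 : 0 < p - 1 := by
    have := hp.two_le
    omega
  exact exists_prime_addOrderOf_nsmul hne hp1 hord

/-! ### (G-CUSP) -/

/-- **(G-CUSP)** for the Eisenstein character: if `m • c` has order `r` (prime), then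
`GSpec26.CuspEis` holds with `π := eisChar`. -/
theorem cuspEis_eisChar (hp : p.Prime) (hdeg : DegOne p) {cZ : Place Qb (FF p)}
    (hZ : IsCuspZero p cZ) (r m : ℕ) (hr : r.Prime)
    (hord : addOrderOf (((m : ℕ) : ℤ) • pointClass hdeg cZ (cuspInf p)) = r) :
    letI := heckeSubCommRing p hp
    GSpec26.CuspEis (heckeModel hp) hdeg cZ r (eisChar hp hdeg hZ (m : ℤ) r hord) m := by
  letI := heckeSubCommRing p hp
  haveI : NeZero r := ⟨hr.ne_zero⟩
  have hcast : ((m : ℕ) : ℤ) • pointClass hdeg cZ (cuspInf p) =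
      m • pointClass hdeg cZ (cuspInf p) := natCast_zsmul _ _
  refine ⟨fun h0 => ?_, ?_, fun t => ?_⟩
  · rw [hcast, h0, addOrderOf_zero] at hord
    exact hr.one_lt.ne hord
  · rw [← hcast, ← hord]
    exact addOrderOf_nsmul_eq_zero _
  · have h := apply_eq_eisChar_val_nsmul hp hdeg hZ (m : ℤ) r hord t
    rw [hcast] at h
    exact h

/-- **(G-CUSP), existence form with all the by-products.** For `p ∉ {2,3,5,7,13}` there are a prime
`r ∣ p - 1`, a multiplier `m` and the character `π = eisChar` with `CuspEis`. -/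
theorem exists_cuspEis (hp : p.Prime) (hp' : p ∉ ({2, 3, 5, 7, 13} : Finset ℕ))
    (hdeg : DegOne p) {cZ : Place Qb (FF p)} (hZ : IsCuspZero p cZ) :
    letI := heckeSubCommRing p hp
    ∃ (r m : ℕ) (_ : r.Prime) (_ : r ∣ p - 1)
      (hord : addOrderOf (((m : ℕ) : ℤ) • pointClass hdeg cZ (cuspInf p)) = r),
      GSpec26.CuspEis (heckeModel hp) hdeg cZ r (eisChar hp hdeg hZ (m : ℤ) r hord) m := by
  letI := heckeSubCommRing p hp
  obtain ⟨r, m, hr, hrp, hord⟩ := exists_prime_order hp hp' hdeg hZ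
  have hord' : addOrderOf (((m : ℕ) : ℤ) • pointClass hdeg cZ (cuspInf p)) = r := by
    rw [natCast_zsmul]
    exact hord
  exact ⟨r, m, hr, hrp, hord', cuspEis_eisChar hp hdeg hZ r m hr hord'⟩

/-- **(G-CUSP)**, the shape of table line 1: `∃ r, r.Prime ∧ ∃ π m, CuspEis …`, with the values of
`π` on the generators. -/
theorem cuspEis (hp : p.Prime) (hp' : p ∉ ({2, 3, 5, 7, 13} : Finset ℕ))
    (hdeg : DegOne p) {cZ : Place Qb (FF p)} (hZ : IsCuspZero p cZ) :
    letI := heckeSubCommRing p hp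
    ∃ r : ℕ, r.Prime ∧ r ∣ p - 1 ∧ ∃ (π : ↥(heckeSub p) →+* ZMod r) (m : ℕ),
      GSpec26.CuspEis (heckeModel hp) hdeg cZ r π m ∧
      (∀ (ℓ : Nat.Primes) (hℓ : (ℓ : ℕ) ≠ p),
        π ⟨heckeOperatorBar p ℓ, heckeOperatorBar_mem_heckeSub ℓ hℓ⟩ = ((ℓ : ℕ) : ZMod r) + 1) ∧
      ∀ t : ↥(heckeSub p), t ∈ RingHom.ker π ↔
        (t : Module.End ℤ (JZero p)) (m • pointClass hdeg cZ (cuspInf p)) = 0 := by
  letI := heckeSubCommRing p hp
  obtain ⟨r, m, hr, hrp, hord, hC⟩ := exists_cuspEis hp hp' hdeg hZ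
  refine ⟨r, hr, hrp, eisChar hp hdeg hZ (m : ℤ) r hord, m, hC,
    fun ℓ hℓ => eisChar_heckeOperatorBar hp hdeg hZ (m : ℤ) r hord ℓ hℓ, fun t => ?_⟩
  rw [mem_ker_eisChar hp hdeg hZ (m : ℤ) r hord t, natCast_zsmul]

/-- the kernel of the Eisenstein character is a maximal ideal (`ZMod r` is a field). -/
theorem ker_eisChar_isMaximal (hp : p.Prime) (hdeg : DegOne p) {cZ : Place Qb (FF p)}
    (hZ : IsCuspZero p cZ) (k : ℤ) (r : ℕ) [Fact r.Prime]
    (hord : addOrderOf (k • pointClass hdeg cZ (cuspInf p)) = r) :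
    letI := heckeSubCommRing p hp
    (RingHom.ker (eisChar hp hdeg hZ k r hord)).IsMaximal := by
  letI := heckeSubCommRing p hp
  exact RingHom.ker_isMaximal_of_surjective _ (eisChar_surjective hp hdeg hZ k r hord)

/-- `r ∣ p - 1` implies `r ≠ p`. -/
theorem ne_of_dvd_pred {r : ℕ} (hp : p.Prime) (hr : r ∣ p - 1) : r ≠ p := by
  intro h
  subst h
  have h2 := hp.two_le
  have := Nat.le_of_dvd (by omega) hr
  omega

end Fermat.Agent.MAZ.Hecke.GModel71
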