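/-
Programme MAZ (S15), G-side, brick (HOM-μ) step 1 (helper67): **NO EISENSTEIN EIGENSYSTEM IN
CHARACTERISTIC ZERO**, from Hecke's bound.

If a weight-2 cusp form `f` on `Γ₀(N)` satisfies `T_ℓ f = (1 + ℓ) f` for all primes `ℓ ∤ N` outside a
finite set `S`, then `f = 0`.

Proof: write `a n` for the `q`-coefficients.  The formula `a_n(T_ℓ f) = a_{nℓ} + [ℓ ∣ n] ℓ a_{n/ℓ}`
(`S49.qCoeff_heckeTLin`) gives `a (m ∏_{ℓ ∈ P} ℓ) = a m ∏_{ℓ ∈ P} (1 + ℓ)` for every finite set `P` of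
primes outside `S`, not dividing `N m`.  Hecke's bound `a n = O(n)` (Mathlib,
`CuspFormClass.qExpansion_isBigO`) then bounds `∑_{ℓ ∈ P} 1 / ℓ ≤ ∏ (1 + 1/ℓ) ≤ C m / |a m|` uniformly in
`P` when `a m ≠ 0`, contradicting the divergence of `∑ 1/ℓ` over the primes.

* `exists_bound`               : `∃ C, ∀ n, ‖a n‖ ≤ C n` on `Γ₀(N)`, weight `2`;
* `qCoeff_mul_prod`            : the recursion;
* `not_bounded_sum_primes`     : divergence of `∑ 1/ℓ` away from a finite set;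
* `eq_zero_of_eisenstein_away` : the theorem.
-/
import Mathlib
import Fermat.Agent.S49.QExp

set_option autoImplicit false
set_option linter.unusedSectionVars false

open CuspForm CongruenceSubgroup ModularFormClass UpperHalfPlane Asymptotics Filter

noncomputable section

namespace Fermat.Agent.MAZ.Hecke.NoEis67

open Fermat.Agent.S49

variable {N : ℕ} [NeZero N]

/-- **Hecke's bound** on `Γ₀(N)` in weight `2`, for all `n`. -/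
theorem exists_bound (f : CuspForm (Gamma0 N) 2) :
    ∃ C : ℝ, ∀ n : ℕ, ‖qCoeff ⇑f n‖ ≤ C * (n : ℝ) := by
  have h := CuspFormClass.qExpansion_isBigO (k := 2)
    (Γ := ((Gamma0 N : Subgroup (Matrix.SpecialLinearGroup (Fin 2) ℤ)) :
      Subgroup (GL (Fin 2) ℝ))) f
  rw [CongruenceSubgroup.strictWidthInfty_Gamma0] at h
  have h2 : (fun n : ℕ => ((n : ℝ)) ^ (((2 : ℤ) : ℝ) / 2)) = fun n : ℕ => (n : ℝ) := by
    funext n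
    norm_num
  rw [h2, ← Nat.cofinite_eq_atTop] at h
  have h3 := (isBigO_cofinite_iff (f'' := fun n : ℕ => (qExpansion 1 ⇑f).coeff n)
    (g'' := fun n : ℕ => (n : ℝ)) (fun n hn => by
      have hn0 : n = 0 := by exact_mod_cast hn
      subst hn0
      exact qCoeff_zero_index f)).mp h
  obtain ⟨C, hC⟩ := h3
  refine ⟨C, fun n => ?_⟩
  have := hC n
  rwa [Real.norm_of_nonneg (Nat.cast_nonneg n)] at this

/-- the eigen-relation on `q`-coefficients. -/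
theorem qCoeff_mul_prime (f : CuspForm (Gamma0 N) 2) {ℓ : ℕ} (hℓ : ℓ.Prime) (hℓN : ¬ ℓ ∣ N)
    (h : CuspForm.heckeTLin 2 hℓ hℓN f = ((1 : ℂ) + ℓ) • f) (n : ℕ) (hn : ¬ ℓ ∣ n) :
    qCoeff ⇑f (n * ℓ) = ((1 : ℂ) + ℓ) * qCoeff ⇑f n := by
  have h1 := qCoeff_heckeTLin hℓ hℓN f n
  rw [h, qCoeff_smul, if_neg hn, add_zero] at h1
  exact h1.symm

/-- **the recursion**: `a (m ∏ ℓ) = a m ∏ (1 + ℓ)` over a finite set of good primes not dividing `m`. -/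
theorem qCoeff_mul_prod (S : Finset ℕ) (f : CuspForm (Gamma0 N) 2)
    (h : ∀ (ℓ : ℕ) (hℓ : ℓ.Prime) (hℓN : ¬ ℓ ∣ N), ℓ ∉ S →
      CuspForm.heckeTLin 2 hℓ hℓN f = ((1 : ℂ) + ℓ) • f)
    (m : ℕ) (P : Finset ℕ)
    (hP : ∀ ℓ ∈ P, ℓ.Prime ∧ ¬ ℓ ∣ N ∧ ℓ ∉ S ∧ ¬ ℓ ∣ m) :
    qCoeff ⇑f (m * ∏ ℓ ∈ P, ℓ) = qCoeff ⇑f m * ∏ ℓ ∈ P, ((1 : ℂ) + ℓ) := by
  classical
  induction P using Finset.induction_on with
  | empty => simp
  | insert ℓ P hℓP ih =>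
    have hℓ := hP ℓ (Finset.mem_insert_self ℓ P)
    have hP' : ∀ q ∈ P, q.Prime ∧ ¬ q ∣ N ∧ q ∉ S ∧ ¬ q ∣ m :=
      fun q hq => hP q (Finset.mem_insert_of_mem hq)
    rw [Finset.prod_insert hℓP, Finset.prod_insert hℓP]
    have hnd : ¬ ℓ ∣ m * ∏ q ∈ P, q := by
      intro hd
      rcases (Nat.Prime.dvd_mul hℓ.1).mp hd with hd | hd
      · exact hℓ.2.2.2 hd
      · obtain ⟨q, hq, hdq⟩ := (Prime.dvd_finsetProd_iff (Nat.Prime.prime hℓ.1) _).mp hd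
        have : ℓ = q := (Nat.prime_dvd_prime_iff_eq hℓ.1 (hP' q hq).1).mp hdq
        exact hℓP (this ▸ hq)
    have h1 := qCoeff_mul_prime f hℓ.1 hℓ.2.1 (h ℓ hℓ.1 hℓ.2.1 hℓ.2.2.1) _ hnd
    rw [show m * (ℓ * ∏ q ∈ P, q) = (m * ∏ q ∈ P, q) * ℓ by ring, h1, ih hP']
    ring

/-- `1 + ∑ x ≤ ∏ (1 + x)` for nonnegative reals. -/
theorem one_add_sum_le_prod {ι : Type*} (P : Finset ι) (x : ι → ℝ) (hx : ∀ i ∈ P, 0 ≤ x i) :
    1 + ∑ i ∈ P, x i ≤ ∏ i ∈ P, (1 + x i) := by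
  classical
  induction P using Finset.induction_on with
  | empty => simp
  | insert i P hi ih =>
    have hx' : ∀ j ∈ P, 0 ≤ x j := fun j hj => hx j (Finset.mem_insert_of_mem hj)
    have h0 := hx i (Finset.mem_insert_self i P)
    have hs : 0 ≤ ∑ j ∈ P, x j := Finset.sum_nonneg hx'
    rw [Finset.sum_insert hi, Finset.prod_insert hi]
    have := ih hx'
    nlinarith [mul_nonneg h0 hs]

/-- **the sum of the reciprocals of the primes outside a finite set is unbounded.** -/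
theorem not_bounded_sum_primes (B : Finset ℕ) (D : ℝ)
    (h : ∀ P : Finset ℕ, (∀ ℓ ∈ P, ℓ.Prime ∧ ℓ ∉ B) → ∑ ℓ ∈ P, (1 : ℝ) / ℓ ≤ D) : False := by
  classical
  apply Nat.Primes.not_summable_one_div
  refine summable_of_sum_le (c := D + ∑ b ∈ B, (1 : ℝ) / b) (fun p => by positivity) fun Q => ?_
  -- split `Q` into the primes in `B` and the others
  have hinj : Function.Injective (fun p : Nat.Primes => (p : ℕ)) := fun p q hpq => Subtype.ext hpq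
  have e : ∑ p ∈ Q, (1 : ℝ) / ((p : ℕ) : ℝ) = ∑ ℓ ∈ Q.image (fun p : Nat.Primes => (p : ℕ)), (1 : ℝ) / ℓ :=
    (Finset.sum_image (f := fun ℓ : ℕ => (1 : ℝ) / ℓ) fun p _ q _ hpq => hinj hpq).symm
  rw [e]
  set Q' := Q.image (fun p : Nat.Primes => (p : ℕ)) with hQ'
  have hQprime : ∀ ℓ ∈ Q', ℓ.Prime := by
    intro ℓ hℓ
    obtain ⟨p, -, rfl⟩ := Finset.mem_image.mp hℓ
    exact p.2
  rw [← Finset.sum_filter_add_sum_filter_not Q' (fun ℓ => ℓ ∉ B)]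
  refine add_le_add ?_ ?_
  · exact h _ fun ℓ hℓ => ⟨hQprime ℓ (Finset.mem_filter.mp hℓ).1, (Finset.mem_filter.mp hℓ).2⟩
  · refine Finset.sum_le_sum_of_subset_of_nonneg (fun ℓ hℓ => ?_) fun _ _ _ => by positivity
    have := (Finset.mem_filter.mp hℓ).2
    exact not_not.mp this

/-- **NO EISENSTEIN EIGENSYSTEM IN CHARACTERISTIC ZERO.** A weight-2 cusp form on `Γ₀(N)` with
`T_ℓ f = (1 + ℓ) f` for all primes `ℓ ∤ N` outside a finite set `S` vanishes. -/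
theorem eq_zero_of_eisenstein_away (S : Finset ℕ) (f : CuspForm (Gamma0 N) 2)
    (h : ∀ (ℓ : ℕ) (hℓ : ℓ.Prime) (hℓN : ¬ ℓ ∣ N), ℓ ∉ S →
      CuspForm.heckeTLin 2 hℓ hℓN f = ((1 : ℂ) + ℓ) • f) : f = 0 := by
  classical
  by_contra hf
  -- a nonzero coefficient
  have hex : ∃ m, qCoeff ⇑f m ≠ 0 := by
    by_contra hne
    exact hf (eq_zero_of_forall_qCoeff_eq_zero f fun n => by
      by_contra hn
      exact hne ⟨n, hn⟩)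
  obtain ⟨m, hm⟩ := hex
  have hm0 : m ≠ 0 := fun h0 => hm (h0 ▸ qCoeff_zero_index f)
  obtain ⟨C, hC⟩ := exists_bound f
  have hpos : 0 < ‖qCoeff ⇑f m‖ := norm_pos_iff.mpr hm
  -- the bad primes
  set B : Finset ℕ := S ∪ (N * m).primeFactors with hB
  refine not_bounded_sum_primes B (C * m / ‖qCoeff ⇑f m‖) fun P hP => ?_
  have hP' : ∀ ℓ ∈ P, ℓ.Prime ∧ ¬ ℓ ∣ N ∧ ℓ ∉ S ∧ ¬ ℓ ∣ m := by
    intro ℓ hℓ
    obtain ⟨hp, hnB⟩ := hP ℓ hℓ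
    rw [hB, Finset.mem_union, not_or] at hnB
    have hNm : N * m ≠ 0 := mul_ne_zero (NeZero.ne N) hm0
    have hnd : ¬ ℓ ∣ N * m := fun hd => hnB.2 (Nat.mem_primeFactors.mpr ⟨hp, hd, hNm⟩)
    exact ⟨hp, fun hd => hnd (Dvd.dvd.mul_right hd m), hnB.1, fun hd => hnd (Dvd.dvd.mul_left hd N)⟩
  have hrec := qCoeff_mul_prod S f h m P hP'
  have hb := hC (m * ∏ ℓ ∈ P, ℓ)
  rw [hrec, norm_mul, norm_prod] at hb
  -- `‖1 + ℓ‖ = 1 + ℓ`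
  have hnorm : ∀ ℓ ∈ P, ‖(1 : ℂ) + (ℓ : ℂ)‖ = 1 + (ℓ : ℝ) := by
    intro ℓ _
    have : ((1 : ℂ) + (ℓ : ℂ)) = ((1 + ℓ : ℕ) : ℂ) := by push_cast; ring
    rw [this, Complex.norm_natCast]
    push_cast
    ring
  rw [Finset.prod_congr rfl hnorm] at hb
  -- divide by `∏ ℓ`
  have hprodpos : 0 < ∏ ℓ ∈ P, (ℓ : ℝ) :=
    Finset.prod_pos fun ℓ hℓ => by exact_mod_cast (hP' ℓ hℓ).1.pos
  have hsplit : ∏ ℓ ∈ P, (1 + (ℓ : ℝ)) = (∏ ℓ ∈ P, (ℓ : ℝ)) * ∏ ℓ ∈ P, (1 + (1 : ℝ) / ℓ) := by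
    rw [← Finset.prod_mul_distrib]
    refine Finset.prod_congr rfl fun ℓ hℓ => ?_
    have : (ℓ : ℝ) ≠ 0 := by exact_mod_cast (hP' ℓ hℓ).1.ne_zero
    field_simp
    ring
  have hcast : ((m * ∏ ℓ ∈ P, ℓ : ℕ) : ℝ) = (m : ℝ) * ∏ ℓ ∈ P, (ℓ : ℝ) := by push_cast; ring
  rw [hsplit, hcast] at hb
  have hkey : ‖qCoeff ⇑f m‖ * ∏ ℓ ∈ P, (1 + (1 : ℝ) / ℓ) ≤ C * m := by
    have h1 : (‖qCoeff ⇑f m‖ * ∏ ℓ ∈ P, (1 + (1 : ℝ) / ℓ)) * ∏ ℓ ∈ P, (ℓ : ℝ) ≤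
        (C * m) * ∏ ℓ ∈ P, (ℓ : ℝ) := by
      calc (‖qCoeff ⇑f m‖ * ∏ ℓ ∈ P, (1 + (1 : ℝ) / ℓ)) * ∏ ℓ ∈ P, (ℓ : ℝ)
          = ‖qCoeff ⇑f m‖ * ((∏ ℓ ∈ P, (ℓ : ℝ)) * ∏ ℓ ∈ P, (1 + (1 : ℝ) / ℓ)) := by ring
        _ ≤ C * ((m : ℝ) * ∏ ℓ ∈ P, (ℓ : ℝ)) := hb
        _ = (C * m) * ∏ ℓ ∈ P, (ℓ : ℝ) := by ring
    exact le_of_mul_le_mul_right h1 hprodpos
  have hsum := one_add_sum_le_prod P (fun ℓ => (1 : ℝ) / ℓ) fun ℓ _ => by positivity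
  rw [le_div_iff₀ hpos]
  calc (∑ ℓ ∈ P, (1 : ℝ) / ℓ) * ‖qCoeff ⇑f m‖
      ≤ (∏ ℓ ∈ P, (1 + (1 : ℝ) / ℓ)) * ‖qCoeff ⇑f m‖ := by
        apply mul_le_mul_of_nonneg_right _ hpos.le
        linarith
    _ = ‖qCoeff ⇑f m‖ * ∏ ℓ ∈ P, (1 + (1 : ℝ) / ℓ) := by ring
    _ ≤ C * m := hkey

end Fermat.Agent.MAZ.Hecke.NoEis67
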