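/-
Programme MAZ (S15), G-side, line (HOM-μ) / EIS-INDEX, brick (A).  Owner: helper85.

NO EISENSTEIN EIGENSYSTEM IN CHARACTERISTIC ZERO (forms side).

A cusp form `f` of weight `2` on `Γ₀(N)` with `T_ℓ f = (1 + ℓ) f` for all primes `ℓ ∤ N` outside a
finite set `S` is zero (`eq_zero_of_eisenstein_eigen`).

Proof.  Let `a n` be the `q`-coefficients of `f`.  The coefficient formula for `T_ℓ`
(`ModularFormClass.qCoeff_heckeT`) gives `a (n ℓ) = (1 + ℓ) a n` for `ℓ ∤ n`, hence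
`a (m ∏ ℓ_i) = ∏ (1 + ℓ_i) · a m` for distinct admissible primes `ℓ_i ∤ m`
(`qCoeff_mul_prod`).  Hecke's bound `‖a n‖ ≤ C n` (Mathlib, `CuspFormClass.qExpansion_isBigO`;
`exists_bound_qCoeff`) then bounds `∑ 1 / ℓ_i ≤ ∏ (1 + 1 / ℓ_i) ≤ C m / ‖a m‖` over all finite sets
of admissible primes, if `a m ≠ 0`: this contradicts the divergence of `∑ 1 / p`
(`Nat.Primes.not_summable_one_div`).  No newform theory, no Weil bound.
-/
import Mathlib
import Fermat.Prelude.Def_CuspForm_HeckeAlgebra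
import Fermat.Prelude.Thm_ModularFormClass_qCoeff_heckeT
import Fermat.Prelude.Thm_CongruenceSubgroup_one_mem_strictPeriods_Gamma0
import Fermat.Agent.S16.A3_29

set_option autoImplicit false
set_option linter.unusedSectionVars false

open CuspForm CongruenceSubgroup ModularFormClass
open scoped MatrixGroups

namespace Fermat.Agent.MAZ.Hecke.NoEis85

open Fermat.Agent.S16.A3_29

/-! ### An elementary inequality -/

theorem one_add_sum_le_prod {ι : Type*} (s : Finset ι) (x : ι → ℝ) (hx : ∀ i ∈ s, 0 ≤ x i) :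
    1 + ∑ i ∈ s, x i ≤ ∏ i ∈ s, (1 + x i) := by
  classical
  induction s using Finset.induction_on with
  | empty => simp
  | insert a s ha ih =>
    have hxa : 0 ≤ x a := hx a (Finset.mem_insert_self a s)
    have hs : ∀ i ∈ s, 0 ≤ x i := fun i hi => hx i (Finset.mem_insert_of_mem hi)
    have h1 := ih hs
    have h2 : 0 ≤ ∑ i ∈ s, x i := Finset.sum_nonneg hs
    rw [Finset.sum_insert ha, Finset.prod_insert ha]
    nlinarith [mul_le_mul_of_nonneg_left h1 (by linarith : (0 : ℝ) ≤ 1 + x a)]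

/-! ### Hecke's bound in `qCoeff` form -/

variable {N : ℕ} [NeZero N]

theorem T_mem_Gamma0 (N : ℕ) : ModularGroup.T ∈ Gamma0 N := by
  rw [Gamma0_mem]
  simp [ModularGroup.T]

/-- **Hecke's bound**: the `q`-coefficients of a cusp form of weight two on `Γ₀(N)` are `O(n)`. -/
theorem exists_bound_qCoeff (f : CuspForm (Gamma0 N) 2) :
    ∃ C : ℝ, 0 ≤ C ∧ ∀ n : ℕ, ‖qCoeff f n‖ ≤ C * n := by
  have h := CuspFormClass.qExpansion_isBigO (k := 2)
    (Γ := ((Gamma0 N : Subgroup SL(2, ℤ)) : Subgroup (GL (Fin 2) ℝ))) f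
  rw [Subgroup.strictWidthInfty_eq_one_of_T_mem (T_mem_Gamma0 N)] at h
  obtain ⟨c, hc⟩ := h.bound
  obtain ⟨n0, hn0⟩ := Filter.eventually_atTop.mp hc
  -- the finitely many small indices
  let D : ℝ := ∑ n ∈ Finset.range n0, ‖qCoeff f n‖
  have hD : 0 ≤ D := Finset.sum_nonneg fun _ _ => norm_nonneg _
  refine ⟨|c| + D, by positivity, fun n => ?_⟩
  rcases Nat.eq_zero_or_pos n with rfl | hn
  · rw [qCoeff_cusp_zero, norm_zero]; simp
  have hn1 : (1 : ℝ) ≤ n := by exact_mod_cast hn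
  by_cases hlt : n < n0
  · have h1 : ‖qCoeff f n‖ ≤ D :=
      Finset.single_le_sum (f := fun n => ‖qCoeff f n‖) (fun _ _ => norm_nonneg _)
        (Finset.mem_range.mpr hlt)
    calc ‖qCoeff f n‖ ≤ D := h1
      _ ≤ D * n := le_mul_of_one_le_right hD hn1
      _ ≤ (|c| + D) * n := by
        apply mul_le_mul_of_nonneg_right _ (by positivity)
        linarith [abs_nonneg c]
  · have h1 := hn0 n (not_lt.mp hlt)
    have h2 : ‖((n : ℝ) ^ (((2 : ℤ) : ℝ) / 2))‖ = n := by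
      have : (((2 : ℤ) : ℝ) / 2) = 1 := by norm_num
      rw [this, Real.rpow_one, Real.norm_of_nonneg (by positivity)]
    rw [h2] at h1
    calc ‖qCoeff f n‖ ≤ c * n := h1
      _ ≤ |c| * n := mul_le_mul_of_nonneg_right (le_abs_self c) (by positivity)
      _ ≤ (|c| + D) * n := by
        apply mul_le_mul_of_nonneg_right _ (by positivity)
        linarith

/-! ### The coefficient recursion of an Eisenstein eigenform -/

section Eigen

variable (S : Finset ℕ) (f : CuspForm (Gamma0 N) 2)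

/-- `ℓ` is an admissible prime: `ℓ ∤ N`, `ℓ ∉ S`. -/
def Adm (N : ℕ) (S : Finset ℕ) (ℓ : ℕ) : Prop := ℓ.Prime ∧ ¬ ℓ ∣ N ∧ ℓ ∉ S

/-- `f` is an eigenform with the Eisenstein eigenvalues `1 + ℓ` at the admissible primes. -/
def IsEisEigen : Prop :=
  ∀ (ℓ : ℕ) (hℓ : ℓ.Prime) (hℓN : ¬ ℓ ∣ N), ℓ ∉ S →
    CuspForm.heckeTLin 2 hℓ hℓN f = ((1 : ℂ) + ℓ) • f

variable {S f}

theorem qCoeff_mul_prime (hf : IsEisEigen S f) {ℓ : ℕ} (hℓ : Adm N S ℓ) {n : ℕ} (hn : ¬ ℓ ∣ n) :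
    qCoeff f (n * ℓ) = ((1 : ℂ) + ℓ) * qCoeff f n := by
  have h := hf ℓ hℓ.1 hℓ.2.1 hℓ.2.2
  have h1 : qCoeff (⇑(CuspForm.heckeTLin 2 hℓ.1 hℓ.2.1 f)) n =
      ModularForm.coeffHeckeT 2 ℓ (qCoeff f) n :=
    ModularFormClass.qCoeff_heckeT f (one_mem_strictPeriods_Gamma0 N) hℓ.1.ne_zero n
  rw [h, qCoeff_smul, ModularForm.coeffHeckeT_of_not_dvd 2 hn] at h1
  exact h1.symm

theorem qCoeff_mul_prod (hf : IsEisEigen S f) (m : ℕ) (s : Finset ℕ)
    (hs : ∀ ℓ ∈ s, Adm N S ℓ ∧ ¬ ℓ ∣ m) :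
    qCoeff f (m * ∏ ℓ ∈ s, ℓ) = (∏ ℓ ∈ s, ((1 : ℂ) + ℓ)) * qCoeff f m := by
  classical
  induction s using Finset.induction_on with
  | empty => simp
  | insert a s ha ih =>
    have hs' : ∀ ℓ ∈ s, Adm N S ℓ ∧ ¬ ℓ ∣ m := fun ℓ hℓ => hs ℓ (Finset.mem_insert_of_mem hℓ)
    obtain ⟨haA, ham⟩ := hs a (Finset.mem_insert_self a s)
    have hnd : ¬ a ∣ m * ∏ ℓ ∈ s, ℓ := by
      intro hd
      rcases (Nat.Prime.dvd_mul haA.1).mp hd with h | h
      · exact ham h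
      · obtain ⟨b, hb, hab⟩ := (Prime.dvd_finsetProd_iff haA.1.prime _).mp h
        have : a = b := (Nat.prime_dvd_prime_iff_eq haA.1 (hs' b hb).1.1).mp hab
        exact ha (this ▸ hb)
    rw [Finset.prod_insert ha, Finset.prod_insert ha, ← mul_assoc, mul_comm m a, mul_assoc,
      mul_comm a, qCoeff_mul_prime hf haA hnd, ih hs']
    ring

end Eigen

/-! ### The theorem -/

/-- **No Eisenstein eigensystem in characteristic zero.**  A cusp form of weight two on `Γ₀(N)` with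
`T_ℓ f = (1 + ℓ) f` for all primes `ℓ ∤ N` outside a finite set `S` is zero. -/
theorem eq_zero_of_eisenstein_eigen (S : Finset ℕ) (f : CuspForm (Gamma0 N) 2)
    (hf : ∀ (ℓ : ℕ) (hℓ : ℓ.Prime) (hℓN : ¬ ℓ ∣ N), ℓ ∉ S →
      CuspForm.heckeTLin 2 hℓ hℓN f = ((1 : ℂ) + ℓ) • f) : f = 0 := by
  classical
  by_contra hf0
  -- a nonzero coefficient
  obtain ⟨m, hm⟩ : ∃ m, qCoeff f m ≠ 0 := by
    by_contra h
    exact hf0 (eq_zero_of_qCoeff f fun n => by_contra fun hn => h ⟨n, hn⟩)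
  have hm0 : m ≠ 0 := by
    rintro rfl
    exact hm (qCoeff_cusp_zero f)
  have hmpos : (0 : ℝ) < m := by exact_mod_cast Nat.pos_of_ne_zero hm0
  have hapos : 0 < ‖qCoeff f m‖ := norm_pos_iff.mpr hm
  obtain ⟨C, hC0, hC⟩ := exists_bound_qCoeff f
  -- the bound on the sums of reciprocals of admissible primes
  set B : ℝ := C * m / ‖qCoeff f m‖ with hB
  have key : ∀ s : Finset ℕ, (∀ ℓ ∈ s, Adm N S ℓ ∧ ¬ ℓ ∣ m) → ∑ ℓ ∈ s, (1 : ℝ) / ℓ ≤ B := by
    intro s hs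
    have hpos : ∀ ℓ ∈ s, (0 : ℝ) < ℓ := fun ℓ hℓ => by exact_mod_cast (hs ℓ hℓ).1.1.pos
    have h1 := qCoeff_mul_prod (f := f) hf m s hs
    have h2 := hC (m * ∏ ℓ ∈ s, ℓ)
    rw [h1, norm_mul, norm_prod] at h2
    have h3 : ∀ ℓ ∈ s, ‖((1 : ℂ) + ℓ)‖ = 1 + (ℓ : ℝ) := fun ℓ _ => by
      have : ((1 : ℂ) + ℓ) = (((1 + ℓ : ℕ) : ℝ) : ℂ) := by push_cast; ring
      rw [this, Complex.norm_real, Real.norm_of_nonneg (by positivity)]
      push_cast; ring
    rw [Finset.prod_congr rfl h3] at h2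
    push_cast at h2
    -- divide by `∏ ℓ`
    have hP : (0 : ℝ) < ∏ ℓ ∈ s, (ℓ : ℝ) := Finset.prod_pos hpos
    have h4 : (∏ ℓ ∈ s, (1 + (1 : ℝ) / ℓ)) * (∏ ℓ ∈ s, (ℓ : ℝ)) = ∏ ℓ ∈ s, (1 + (ℓ : ℝ)) := by
      rw [← Finset.prod_mul_distrib]
      refine Finset.prod_congr rfl fun ℓ hℓ => ?_
      have := (hpos ℓ hℓ).ne'
      field_simp
      ring
    have h5 : (∏ ℓ ∈ s, (1 + (1 : ℝ) / ℓ)) * ‖qCoeff f m‖ ≤ C * m := by
      have h6 : ((∏ ℓ ∈ s, (1 + (1 : ℝ) / ℓ)) * ‖qCoeff f m‖) * (∏ ℓ ∈ s, (ℓ : ℝ)) ≤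
          (C * m) * (∏ ℓ ∈ s, (ℓ : ℝ)) := by
        calc ((∏ ℓ ∈ s, (1 + (1 : ℝ) / ℓ)) * ‖qCoeff f m‖) * (∏ ℓ ∈ s, (ℓ : ℝ))
            = (∏ ℓ ∈ s, (1 + (ℓ : ℝ))) * ‖qCoeff f m‖ := by rw [← h4]; ring
          _ ≤ C * ((m : ℝ) * ∏ ℓ ∈ s, (ℓ : ℝ)) := h2
          _ = (C * m) * (∏ ℓ ∈ s, (ℓ : ℝ)) := by ring
      exact le_of_mul_le_mul_right h6 hP
    have h7 : (∏ ℓ ∈ s, (1 + (1 : ℝ) / ℓ)) ≤ B := by
      rw [hB, le_div_iff₀ hapos]
      exact h5
    have h8 := one_add_sum_le_prod s (fun ℓ => (1 : ℝ) / ℓ)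
      (fun ℓ hℓ => by have := hpos ℓ hℓ; positivity)
    linarith
  -- hence `∑ 1 / p` over all primes would converge
  let E : Finset ℕ := S ∪ N.primeFactors ∪ m.primeFactors
  have hE : ∀ p : ℕ, p.Prime → p ∉ E → Adm N S p ∧ ¬ p ∣ m := by
    intro p hp hpE
    simp only [E, Finset.mem_union, not_or] at hpE
    refine ⟨⟨hp, fun hd => hpE.1.2 ?_, hpE.1.1⟩, fun hd => hpE.2 ?_⟩
    · exact Nat.mem_primeFactors.mpr ⟨hp, hd, NeZero.ne N⟩
    · exact Nat.mem_primeFactors.mpr ⟨hp, hd, hm0⟩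
  have hinj : Function.Injective (fun p : Nat.Primes => (p : ℕ)) := Nat.Primes.coe_nat_injective
  apply Nat.Primes.not_summable_one_div
  refine summable_of_sum_le (c := (E.card : ℝ) + B) (fun p => by positivity) fun u => ?_
  rw [← Finset.sum_filter_add_sum_filter_not u (fun p : Nat.Primes => (p : ℕ) ∈ E)]
  have hbad : ∑ p ∈ u.filter (fun p : Nat.Primes => (p : ℕ) ∈ E), (1 / (p : ℝ)) ≤ E.card := by
    calc ∑ p ∈ u.filter (fun p : Nat.Primes => (p : ℕ) ∈ E), (1 / (p : ℝ))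
        ≤ ∑ _p ∈ u.filter (fun p : Nat.Primes => (p : ℕ) ∈ E), (1 : ℝ) := by
          refine Finset.sum_le_sum fun p _ => ?_
          have : (1 : ℝ) ≤ (p : ℕ) := by exact_mod_cast p.2.one_le
          rw [div_le_one (by linarith)]
          exact this
      _ = ((u.filter (fun p : Nat.Primes => (p : ℕ) ∈ E)).card : ℝ) := by simp
      _ ≤ E.card := by
          have : ((u.filter (fun p : Nat.Primes => (p : ℕ) ∈ E)).image
              (fun p : Nat.Primes => (p : ℕ))) ⊆ E := by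
            intro x hx
            obtain ⟨p, hp, rfl⟩ := Finset.mem_image.mp hx
            exact (Finset.mem_filter.mp hp).2
          have h1 := Finset.card_le_card this
          rw [Finset.card_image_of_injective _ hinj] at h1
          exact_mod_cast h1
  have hgood : ∑ p ∈ u.filter (fun p : Nat.Primes => ¬ (p : ℕ) ∈ E), (1 / (p : ℝ)) ≤ B := by
    have := key ((u.filter (fun p : Nat.Primes => ¬ (p : ℕ) ∈ E)).image
      (fun p : Nat.Primes => (p : ℕ))) (by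
        intro ℓ hℓ
        obtain ⟨p, hp, rfl⟩ := Finset.mem_image.mp hℓ
        exact hE p p.2 (Finset.mem_filter.mp hp).2)
    rwa [Finset.sum_image (fun p _ q _ h => hinj h)] at this
  linarith

end Fermat.Agent.MAZ.Hecke.NoEis85
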