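/-
Program MAZ (S15), G-side, pole P1 = (PT): THE LEVEL INPUTS OF `PTExp` (helper55; ruling #2469/#2478).

`PTExpInstB90.ToricLevelInput' r hT π 𝔄 n' k` (helper90) is the list of inputs, at the level `k`, of
`ToricAsm50.factorial_nsmul_fixed_le_range` for `M := ↥(primaryPart (ker π) ↥(Mk p r k))` (the
Eisenstein part of `J₀(p)[r^k]`); `PTExpInstB90.ptExp_of_toric'` / `pfinP_of_toric'` turn it into
`PFinPInst90.PTExp` and into (P-FIN)_P.  Here it is PROVED for every `k`: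

* `E`, `hδ`, `hMC`, (NE) := `EisRelNE55.exists_toric_inputs` at `ι := PTExpInst90.inclJ`, with the
  transfer identity (C1) of `EisTransferFinal85` as a hypothesis;
* `hR`  := `RankOneInst19.rankOneBound_admFamily` at `χ := chiMod r`, `φ₀ := complexConjugation`
           (`chiMod_eq_chiModR`, `chiMod_complexConjugation_ne_one`);
* `hIC` := `MuModule11.Mu.smul_eq_of_mem_inertia`;
* `hOk` := CARTIER (`CartierOk68.admFamily_ok_prod_dual`) on the good module
           `M ↪ J₀(p)[r^(k+1)]` (`OkMod.of_injective`, `hOkJ` = `KummerInst26.okMod_Mk`).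
To avoid the degenerate level `k = 0` (where `r ∤ r^k`), everything is taken at the level `k + 1`:
`F := admFamily r (k+1) p`, `C := Mu (r^(k+1))`, EIS-REL on `J₀(p)[r^(k+1)] ⊇ M`.

* `toricLevelInput'` : `∀ k, ToricLevelInput' r hT π 𝔄 n' k`;
* `exists_ptExp`     : `∃ c > 0, PTExp p (ker π) 𝔄 r c` (QUAD-J := `QuadJ11.quad`, unconditional).

REMAINING HYPOTHESES (each is the exit literal of another brick): `hT : HeckeModel p T`, `hπ`
(`π t = ℓ + 1` when `t` acts as `T_ℓ`, `ℓ ≠ p`; from `CuspEis`/`GModel71.cuspEis`),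
`hOkJ : ∀ k, OkMod r k p ↥(Mk p r k)` (S19 at level `p` + K-UNR), (C1), `r` odd, `p ≠ r`.
-/
import Mathlib
import Fermat.Agent.MAZ.Hecke.EisRelNE55
import Fermat.Agent.MAZ.Desc.PTExpInstB90
import Fermat.Agent.MAZ.Desc.RankOneInst19
import Fermat.Agent.MAZ.Flat.CartierOk68
import Fermat.Agent.MAZ.Desc.QuadJ11
import Fermat.Agent.ES.KUM.FiniteTorsion15

set_option autoImplicit false
set_option linter.unusedSectionVars false
set_option linter.unusedVariables false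
set_option linter.style.haveILetI false

open AlgebraicCurve ModularCurve

noncomputable section

namespace Fermat.Agent.MAZ.Hecke.PTExpInst55

open Fermat.Agent.X0 Fermat.Agent.MAZ.Spec.XSpec62 Fermat.Agent.MAZ.Spec.GSpec26
open Fermat.Agent.MAZ.Hecke.EisRel55 Fermat.Agent.MAZ.Hecke.EisRelNE55
open Fermat.Agent.MAZ.Desc.PFinPInst90 Fermat.Agent.MAZ.Desc.MuModule11
open Fermat.Agent.MAZ.Desc.FlatAdm68 Fermat.Agent.MAZ.Desc.RankOneInst19
open Fermat.Agent.MAZ.Desc.KummerInst26 Fermat.Agent.MAZ.Desc.PTExpInst90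
open Fermat.Agent.MAZ.Desc.PTExpInstB90 Fermat.Agent.MAZ.Desc.PrimaryPart19
open Fermat.Agent.MAZ.Desc.ConePrimary95

/-! ### The mod `r` cyclotomic characters agree -/

section Chi

variable (r : ℕ) [Fact r.Prime]

/-- `EisRel55.chiMod` is the character `chiModR` of `RankOneInst19`. -/
theorem chiMod_eq_chiModR : chiMod r = chiModR r := by
  ext g
  have h := chiMod_eq r g (chiModR r g).val fun ζ hζ => chiModR_spec r g ζ hζ
  rw [h, ZMod.natCast_zmod_val]

/-- `EisRel55.chiMod` is the character `chi` of `MuModule11`. -/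
theorem chiMod_eq_chi : chiMod r = Fermat.Agent.MAZ.Desc.MuModule11.chi r := by
  ext g
  have h := chiMod_eq r g (chi r g).val fun ζ hζ => chi_spec r g ζ hζ
  rw [h, ZMod.natCast_zmod_val]

theorem chiMod_complexConjugation : chiMod r complexConjugation = -1 := by
  rw [chiMod_eq_chiModR, chiModR_complexConjugation]

theorem chiMod_complexConjugation_ne_one (hr2 : r ≠ 2) : chiMod r complexConjugation ≠ 1 := by
  rw [chiMod_eq_chiModR]
  exact chiModR_complexConjugation_ne_one r hr2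

end Chi

variable {p : ℕ} [NeZero p] {T : Type} [CommRing T] [Module T (JZero p)]

/-- the ring homomorphism `T → End(J₀(p))`. -/
def evT : T →+* Module.End ℤ (JZero p) := Module.toModuleEnd ℤ (S := T) (JZero p)

theorem evT_apply (t : T) (x : JZero p) : evT (p := p) t x = t • x := rfl

attribute [local instance] dmaMk modMk primaryDMA

/-! ### The inclusion `J₀(p)[r^k]_P → J₀(p)[r^(k+1)]`

NB (kernel trap): a `rfl` between a coercion out of `↥(Mk p r (k+1))` and a coercion out of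
`↥(Mk p r k)` makes the kernel compare `Subtype.val` at two different predicates, which it can only
refute by unfolding everything; so `inclNext_coe` is proved by `Subtype.coe_mk` and everything else
goes through it. -/

theorem pow_succ_nsmul_eq_zero {A : Type*} [AddMonoid A] {r k : ℕ} {y : A} (h : r ^ k • y = 0) :
    r ^ (k + 1) • y = 0 := by
  rw [pow_succ, mul_nsmul, h, smul_zero]

/-- the inclusion `J₀(p)[r^k]_P → J₀(p)[r^(k+1)]`. -/
def inclNext (P : Ideal T) (r : ℕ) [Fact r.Prime] (k : ℕ) :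
    ↥(primaryPart P ↥(Mk p r k)) →+ ↥(Mk p r (k + 1)) :=
  AddMonoidHom.mk' (fun x : ↥(primaryPart P ↥(Mk p r k)) =>
    (⟨((x : ↥(Mk p r k)) : JZero p), (mem_Mk_iff r (k + 1)).2
      (pow_succ_nsmul_eq_zero ((mem_Mk_iff r k).1 (x : ↥(Mk p r k)).2))⟩ : ↥(Mk p r (k + 1))))
    (fun x y => Subtype.ext rfl)

theorem inclNext_coe (P : Ideal T) {r : ℕ} [Fact r.Prime] (k : ℕ)
    (x : ↥(primaryPart P ↥(Mk p r k))) :
    ((inclNext P r k x : ↥(Mk p r (k + 1))) : JZero p) = ((x : ↥(Mk p r k)) : JZero p) :=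
  Subtype.coe_mk _ _

/-- the Eisenstein part of `J₀(p)[r^k]` is a good module at the level `k + 1`. -/
theorem okMod_primaryPart (hT : HeckeModel p T) (P : Ideal T) {r : ℕ} [Fact r.Prime] (k : ℕ)
    (hOk : OkMod r (k + 1) p ↥(Mk p r (k + 1))) :
    haveI := smulComm_Mk r k hT
    OkMod r (k + 1) p ↥(primaryPart P ↥(Mk p r k)) := by
  haveI := smulComm_Mk r k hT
  refine OkMod.of_injective (inclNext P r k) (fun σ x => Subtype.ext ?_) (fun x y hxy => ?_) hOk
  · have a1 := inclNext_coe P k (σ • x)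
    have a2 : (((σ • x : ↥(primaryPart P ↥(Mk p r k))) : ↥(Mk p r k)) : JZero p) =
        σ • ((x : ↥(Mk p r k)) : JZero p) := rfl
    have a3 : ((σ • inclNext P r k x : ↥(Mk p r (k + 1))) : JZero p) =
        σ • ((inclNext P r k x : ↥(Mk p r (k + 1))) : JZero p) :=
      coe_smul_Mk r (k + 1) σ (inclNext P r k x)
    have a4 : σ • ((inclNext P r k x : ↥(Mk p r (k + 1))) : JZero p) =
        σ • ((x : ↥(Mk p r k)) : JZero p) :=
      congrArg (fun z : JZero p => σ • z) (inclNext_coe P k x)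
    exact a1.trans (a2.trans (a4.symm.trans a3.symm))
  · have h := congrArg (fun z : ↥(Mk p r (k + 1)) => (z : JZero p)) hxy
    exact Subtype.ext (Subtype.ext ((inclNext_coe P k x).symm.trans (h.trans (inclNext_coe P k y))))

/-! ### The level inputs -/

set_option maxHeartbeats 400000 in
/-- **The level inputs of `PTExp`, for every `k`.** -/
theorem toricLevelInput' (hp : p.Prime) {r : ℕ} [Fact r.Prime] (hr2 : r ≠ 2) (hpr : p ≠ r)
    (hT : HeckeModel p T) (π : T →+* ZMod r)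
    (hπ : ∀ (ℓ : Nat.Primes) (t : T), (ℓ : ℕ) ≠ p →
      (∀ z : JZero p, heckeOperatorBar p ℓ z = t • z) → π t = ((ℓ : ℕ) : ZMod r) + 1)
    (𝔄 : ValuationSubring Qb) (h𝔄 : 𝔄.LiesOverPrime p)
    (hOkJ : ∀ k : ℕ, OkMod r k p ↥(Mk p r k))
    (n' : ℕ) {κ : Type} [Fintype κ] (ℓ : κ → Nat.Primes) (t : κ → Module.End ℤ (JZero p))
    (hℓ : ∀ i, (ℓ i : ℕ) ≠ p ∧ (ℓ i : ℕ) ≠ r) (ht : ∀ i, t i ∈ heckeSub p)
    (hsum : ∀ k, ∀ x : JZero p, r ^ k • x = 0 →
      n' • x = ∑ i, t i (heckeOperatorBar p (ℓ i) x - (1 + (ℓ i : ℕ)) • x)) (k : ℕ) :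
    ToricLevelInput' r hT π 𝔄 n' k := by
  classical
  have hr : r.Prime := Fact.out
  haveI iC := smulComm_Mk r k hT
  haveI iC' := primary_smulCommClass (G := GQ) (M := ↥(Mk p r k)) (RingHom.ker π)
  set P : Ideal T := RingHom.ker π with hP
  -- everything at the level `k + 1`
  have hm : r ^ (k + 1) ≠ 0 := pow_ne_zero _ hr.ne_zero
  haveI : NeZero (r ^ (k + 1)) := ⟨hm⟩
  have hrm : r ∣ r ^ (k + 1) := dvd_pow_self r (Nat.succ_ne_zero k)
  have hpm : ¬ p ∣ r ^ (k + 1) := fun h =>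
    hpr ((Nat.prime_dvd_prime_iff_eq hp hr).mp (hp.dvd_of_dvd_pow h))
  have hfin : {y : JZero p | r ^ (k + 1) • y = 0}.Finite :=
    Fermat.Agent.ES.KUM.FiniteTorsion15.finite_setOf_nsmul_eq_zero p (r ^ (k + 1))
  have hcoe : ∀ x : ↥(primaryPart P ↥(Mk p r k)), r ^ k • ((x : ↥(Mk p r k)) : JZero p) = 0 :=
    fun x => (mem_Mk_iff r k).1 (x : ↥(Mk p r k)).2
  haveI iF : Finite ↥(primaryPart P ↥(Mk p r k)) := by
    haveI : Finite {y : JZero p // r ^ (k + 1) • y = 0} := hfin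
    exact Finite.of_injective
      (fun x : ↥(primaryPart P ↥(Mk p r k)) =>
        (⟨((x : ↥(Mk p r k)) : JZero p), pow_succ_nsmul_eq_zero (hcoe x)⟩ :
          {y : JZero p // r ^ (k + 1) • y = 0}))
      fun x y hxy => by
        have h := congrArg (fun z : {y : JZero p // r ^ (k + 1) • y = 0} => (z : JZero p)) hxy
        exact Subtype.ext (Subtype.ext h)
  -- the inclusion
  have hιinj := inclJ_injective r k hT P
  have hιG : ∀ (g : GQ) (x : ↥(primaryPart P ↥(Mk p r k))),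
      inclJ r k hT P (g • x) = g • inclJ r k hT P x := fun _ _ => rfl
  have hιT : ∀ (s : T) (x : ↥(primaryPart P ↥(Mk p r k))),
      inclJ r k hT P (s • x) = evT s (inclJ r k hT P x) := fun _ _ => rfl
  have hιm : ∀ x : ↥(primaryPart P ↥(Mk p r k)), r ^ (k + 1) • inclJ r k hT P x = 0 := fun x =>
    pow_succ_nsmul_eq_zero (hcoe x)
  -- `hnil`
  have hnil : ∃ n : ℕ, ∀ s ∈ P ^ n, ∀ x : ↥(primaryPart P ↥(Mk p r k)), s • x = 0 := by
    haveI : Fintype ↥(primaryPart P ↥(Mk p r k)) := Fintype.ofFinite _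
    choose j hj using fun x : ↥(primaryPart P ↥(Mk p r k)) => x.2
    refine ⟨Finset.univ.sup j, fun s hs x => Subtype.ext ?_⟩
    exact hj x s (Ideal.pow_le_pow_right (Finset.le_sup (Finset.mem_univ x)) hs)
  -- `hev`
  have hev : ∀ q : Nat.Primes, (q : ℕ) ≠ p → ¬ (q : ℕ) ∣ r ^ (k + 1) →
      ∃ s : T, evT s = heckeOperatorBar p q ∧ π s = ((q : ℕ) : ZMod r) + 1 := by
    intro q hq _
    obtain ⟨s, hs⟩ := (hT.mem_iff (heckeOperatorBar p q)).mp
      (Algebra.subset_adjoin ⟨q, hq, rfl⟩)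
    exact ⟨s, LinearMap.ext fun z => (hs z).symm, hπ q s hq hs⟩
  -- the transfer identity
  have hℓ' : ∀ i, (ℓ i : ℕ) ≠ p ∧ ¬ (ℓ i : ℕ) ∣ r ^ (k + 1) := fun i => ⟨(hℓ i).1, fun h =>
    (hℓ i).2 ((Nat.prime_dvd_prime_iff_eq (ℓ i).2 hr).mp ((ℓ i).2.dvd_of_dvd_pow h))⟩
  choose s hs using fun i => (hT.mem_iff (t i)).mp (ht i)
  have hsum' : ∀ x : JZero p, r ^ (k + 1) • x = 0 →
      n' • x = ∑ i, evT (s i) (heckeOperatorBar p (ℓ i) x - (1 + (ℓ i : ℕ)) • x) := by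
    intro x hx
    exact (hsum (k + 1) x hx).trans (Finset.sum_congr rfl fun i _ => hs i _)
  -- the Eichler–Shimura inputs
  obtain ⟨τ, δ, E, hδ, hMC, a, ha, hNE⟩ :=
    exists_toric_inputs hp hm hrm hfin evT π hev (inclJ r k hT P) hιinj hιG hιT hιm hnil n' ℓ hℓ'
      s hsum'
  -- RANK-ONE, CARTIER, inertia on `μ`
  have hR := rankOneBound_admFamily hr2 (Nat.succ_le_succ (Nat.zero_le k)) hp hpr 𝔄 h𝔄 (chiMod r)
    (fun σ z hz => chiMod_spec r σ hz) complexConjugation (chiMod_complexConjugation_ne_one r hr2)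
  have hIC : ∀ γ ∈ 𝔄.inertiaSubgroupIn ℚ, ∀ c : Mu (r ^ (k + 1)), γ • c = c := fun γ hγ c =>
    Mu.smul_eq_of_mem_inertia hp hpm 𝔄 h𝔄 hγ c
  have hOkM : OkMod r (k + 1) p ↥(primaryPart P ↥(Mk p r k)) :=
    okMod_primaryPart hT P k (hOkJ (k + 1))
  have hOk : (admFamily r (k + 1) p).Ok
      (↥(primaryPart P ↥(Mk p r k)) ×
        Fermat.Agent.MAZ.Desc.DualModule2.Dual ↥(primaryPart P ↥(Mk p r k)) (Mu (r ^ (k + 1)))) :=
    Fermat.Agent.MAZ.Flat.CartierOk68.admFamily_ok_prod_dual hOkM Mu.val Mu.val_add Mu.val_zero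
      (fun σ c => Mu.val_smul σ c) Mu.val_injective
      (fun q hq hqr _ A hA σ hσ c => Mu.smul_eq_of_mem_inertia hq
        (fun h => hqr ((Nat.prime_dvd_prime_iff_eq hq hr).mp (hq.dvd_of_dvd_pow h))) A hA hσ c)
  exact ⟨admFamily r (k + 1) p, complexConjugation, chiMod r, τ, δ, Mu (r ^ (k + 1)),
    inferInstance, inferInstance, inferInstance, inferInstance, hR, hMC, hIC, hδ, E, hOk, a, ha,
    hNE⟩

/-! ### `PTExp` -/

/-- **`PTExp` from the landed bricks**: the hypotheses are S19 at level `p` + K-UNR (`hOkJ`), the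
transfer identity (C1), the Eisenstein character (`hπ`), `r` odd and `p ≠ r`. -/
theorem exists_ptExp (hp : p.Prime) {r : ℕ} [Fact r.Prime] (hr2 : r ≠ 2) (hpr : p ≠ r)
    (hT : HeckeModel p T) (π : T →+* ZMod r)
    (hπ : ∀ (ℓ : Nat.Primes) (t : T), (ℓ : ℕ) ≠ p →
      (∀ z : JZero p, heckeOperatorBar p ℓ z = t • z) → π t = ((ℓ : ℕ) : ZMod r) + 1)
    (𝔄 : ValuationSubring Qb) (h𝔄 : 𝔄.LiesOverPrime p)
    (hOkJ : ∀ k : ℕ, OkMod r k p ↥(Mk p r k))
    (hC1 : ∃ n' : ℕ, 0 < n' ∧ ∃ (ι : Type) (_ : Fintype ι) (ℓ : ι → Nat.Primes)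
      (t : ι → Module.End ℤ (JZero p)), (∀ i, (ℓ i : ℕ) ≠ p ∧ (ℓ i : ℕ) ≠ r) ∧
      (∀ i, t i ∈ heckeSub p) ∧ ∀ k, ∀ x : JZero p, r ^ k • x = 0 →
        n' • x = ∑ i, t i (heckeOperatorBar p (ℓ i) x - (1 + (ℓ i : ℕ)) • x) ∧
        n' • x = ∑ i, (heckeOperatorBar p (ℓ i) (t i x) - (1 + (ℓ i : ℕ)) • t i x)) :
    ∃ c : ℕ, 0 < c ∧ PTExp p (RingHom.ker π) 𝔄 r c := by
  obtain ⟨n', hn', κ, _, ℓ, t, hℓ, ht, hsum⟩ := hC1
  have hr : r.Prime := Fact.out
  haveI : NeZero n' := ⟨hn'.ne'⟩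
  haveI : NeZero r := ⟨hr.ne_zero⟩
  haveI : Finite {y : JZero p // n' • y = 0} :=
    Fermat.Agent.ES.KUM.FiniteTorsion15.finite_setOf_nsmul_eq_zero p n'
  haveI : Finite (nsmulAddMonoidHom r : JZero p →+ JZero p).ker := by
    haveI : Finite {y : JZero p // r • y = 0} :=
      Fermat.Agent.ES.KUM.FiniteTorsion15.finite_setOf_nsmul_eq_zero p r
    exact Finite.of_injective
      (fun x : (nsmulAddMonoidHom r : JZero p →+ JZero p).ker =>
        (⟨x.1, AddMonoidHom.mem_ker.mp x.2⟩ : {y : JZero p // r • y = 0}))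
      fun x y hxy => Subtype.ext (congrArg Subtype.val hxy)
  have hfinM : ∀ k : ℕ, Finite ↥(Mk p r k) := fun k => (hOkJ k).finite
  have hpm : ∀ k : ℕ, ¬ p ∣ r ^ k := fun k h =>
    hpr ((Nat.prime_dvd_prime_iff_eq hp hr).mp (hp.dvd_of_dvd_pow h))
  have hquad : ∀ σ ∈ 𝔄.inertiaSubgroupIn ℚ, ∀ (k : ℕ) (x : JZero p), r ^ k • x = 0 →
      σ • σ • x + x = σ • x + σ • x := by
    intro σ hσ k x hx
    have h := Fermat.Agent.MAZ.Desc.QuadJ11.quad hp (dvd_refl p)
      (fun h => by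
        have h2 : p ^ 2 ≤ p := Nat.le_of_dvd hp.pos h
        nlinarith [hp.two_le]) 𝔄 h𝔄 (hpm k) hσ hσ hx
    rw [smul_sub, sub_eq_sub_iff_add_eq_add] at h
    exact h
  exact ⟨_, Nat.factorial_pos _, ptExp_of_toric' r hT π 𝔄 hfinM n' hn' hquad
    (toricLevelInput' hp hr2 hpr hT π hπ 𝔄 h𝔄 hOkJ n' ℓ t hℓ ht fun k x hx => (hsum k x hx).1)⟩

end Fermat.Agent.MAZ.Hecke.PTExpInst55
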