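/-
Program MAZ (S15), G-side, (HOM-μ)/NO-EIS step (C) TRANSFER, lemma PROJ-SURJ — helper32
(declared partner of helper85's `EisTransfer85`).

**The projection `proj k : T_p J → J[p ^ k]` of the Tate module is onto when `J` is `p`-divisible.**
Mathlib + `ES/J/TateModule13` only, for an arbitrary abelian group `J`.

For `J = JZero N` the hypothesis `hdiv` is
`fun y => Fermat.Agent.MAZ.Desc.JZeroDiv30.jzero_nsmul_surjective p hp.out.ne_zero y`.
-/
import Mathlib
import Fermat.Agent.ES.J.TateModule13

set_option autoImplicit false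
set_option linter.unusedSectionVars false

namespace Fermat.Agent.MAZ.Hecke.ProjSurj32

open Fermat.Agent.ES.J.TateModule13

variable {p : ℕ} [hp : Fact p.Prime] {J : Type*} [AddCommGroup J]

/-- the tail of a compatible sequence through `y`: successive `p`-th roots. -/
noncomputable def tailSeq (hdiv : ∀ y : J, ∃ z : J, p • z = y) (y : J) : ℕ → J
  | 0 => y
  | n + 1 => (hdiv (tailSeq hdiv y n)).choose

@[simp] theorem tailSeq_zero (hdiv : ∀ y : J, ∃ z : J, p • z = y) (y : J) :
    tailSeq hdiv y 0 = y := rfl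

theorem tailSeq_succ (hdiv : ∀ y : J, ∃ z : J, p • z = y) (y : J) (n : ℕ) :
    p • tailSeq hdiv y (n + 1) = tailSeq hdiv y n :=
  (hdiv (tailSeq hdiv y n)).choose_spec

/-- a point of the Tate module through a given `p ^ k`-torsion point. -/
noncomputable def liftTate (hdiv : ∀ y : J, ∃ z : J, p • z = y) (k : ℕ) (y : J)
    (hy : p ^ k • y = 0) : TateModule p J :=
  ⟨fun j => if j ≤ k then p ^ (k - j) • y else tailSeq hdiv y (j - k), by
    refine ⟨?_, fun j => ?_⟩
    · show (if 0 ≤ k then p ^ (k - 0) • y else tailSeq hdiv y (0 - k)) = 0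
      rw [if_pos (Nat.zero_le k), Nat.sub_zero, hy]
    · show p • (if j + 1 ≤ k then p ^ (k - (j + 1)) • y else tailSeq hdiv y (j + 1 - k)) =
        if j ≤ k then p ^ (k - j) • y else tailSeq hdiv y (j - k)
      by_cases h1 : j + 1 ≤ k
      · rw [if_pos h1, if_pos (by omega : j ≤ k), ← mul_smul, ← pow_succ']
        congr 2
        omega
      · rw [if_neg h1]
        have h2 : j + 1 - k = (j - k) + 1 := by omega
        rw [h2, tailSeq_succ]
        by_cases h3 : j ≤ k
        · have h4 : j = k := by omega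
          subst h4
          rw [if_pos le_rfl, Nat.sub_self, pow_zero, one_smul]
          rfl
        · rw [if_neg h3]⟩

theorem proj_liftTate (hdiv : ∀ y : J, ∃ z : J, p • z = y) (k : ℕ) (y : J)
    (hy : p ^ k • y = 0) : proj k (liftTate hdiv k y hy) = y := by
  show (if k ≤ k then p ^ (k - k) • y else tailSeq hdiv y (k - k)) = y
  rw [if_pos le_rfl, Nat.sub_self, pow_zero, one_smul]

/-- lower levels of the lift: `proj j (lift y) = p ^ (k - j) • y` for `j ≤ k`. -/
theorem proj_liftTate_of_le (hdiv : ∀ y : J, ∃ z : J, p • z = y) (k : ℕ) (y : J)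
    (hy : p ^ k • y = 0) {j : ℕ} (hj : j ≤ k) :
    proj j (liftTate hdiv k y hy) = p ^ (k - j) • y := by
  show (if j ≤ k then p ^ (k - j) • y else tailSeq hdiv y (j - k)) = _
  rw [if_pos hj]

/-- **PROJ-SURJ**: `proj k` is onto `J[p ^ k]` when `J` is `p`-divisible. -/
theorem exists_proj_eq (hdiv : ∀ y : J, ∃ z : J, p • z = y) (k : ℕ) (y : J)
    (hy : p ^ k • y = 0) : ∃ x : TateModule p J, proj k x = y :=
  ⟨liftTate hdiv k y hy, proj_liftTate hdiv k y hy⟩

/-- the range of `proj k` is exactly the `p ^ k`-torsion. -/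
theorem range_proj (hdiv : ∀ y : J, ∃ z : J, p • z = y) (k : ℕ) :
    Set.range (proj k : TateModule p J → J) = {y : J | p ^ k • y = 0} := by
  ext y
  constructor
  · rintro ⟨x, rfl⟩
    exact pow_smul_proj k x
  · intro hy
    exact exists_proj_eq hdiv k y hy

/-- an additive identity of endomorphisms of the Tate module, read at level `k`:
if `n • x = ∑ i, F i x` on the Tate module and `proj k (F i x) = f i (proj k x)`, then
`n • y = ∑ i, f i y` for every `p ^ k`-torsion point `y`. -/
theorem nsmul_eq_sum_of_tate (hdiv : ∀ y : J, ∃ z : J, p • z = y) {ι : Type*} (s : Finset ι)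
    (n : ℕ) (F : ι → TateModule p J → TateModule p J) (f : ι → J → J) (k : ℕ)
    (hF : ∀ i ∈ s, ∀ x, proj k (F i x) = f i (proj k x))
    (hid : ∀ x : TateModule p J, n • x = ∑ i ∈ s, F i x) (y : J) (hy : p ^ k • y = 0) :
    n • y = ∑ i ∈ s, f i y := by
  obtain ⟨x, rfl⟩ := exists_proj_eq hdiv k y hy
  rw [← map_nsmul, hid x, map_sum]
  exact Finset.sum_congr rfl fun i hi => hF i hi x

end Fermat.Agent.MAZ.Hecke.ProjSurj32
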